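import Fermat.Agent.S44.IfTop
import Fermat.Agent.S37.NormQ

/-!
# S44/GEO : change of level `M1 → M1'` (`M1 ∣ M1'`), upwards          (helper10)

* `normAlpha_incl` : the norm along `α` commutes with the inclusion of levels (`S37.qExpand_normAlpha` + `S35.Wq_incl`);
* `Tl_incl`;
* `PEq.of_incl` (descent of `p`-th roots is a hypothesis `hdesc`);
* `NewHyp.incl` : `NewHyp` at the level `M1` gives `NewHyp` at the level `M1'`;
* `NewHyp.lcm_two` : the case `M1' = lcm M1 2`.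
-/

set_option autoImplicit false
set_option synthInstance.maxHeartbeats 400000

open HahnSeries ModularCurve AlgebraicCurve Fermat.Agent.S24 Fermat.Agent.S29 Fermat.Agent.S18
  Fermat.Agent.ES Fermat.Agent.ES.Alg Fermat.Agent.S34.Mod Fermat.Agent.S05 Fermat.Agent.S55.B ExtCitation
  Fermat.Agent.S33 CongruenceSubgroup
open Fermat.Agent.S55 (Dq Iq)

noncomputable section

namespace Fermat.Agent.S44.Geo

theorem normAlpha_incl {N N' ℓ : ℕ} [NeZero N] [NeZero N'] [NeZero ℓ] (hℓ : ℓ.Prime)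
    (h : Nat.Coprime ℓ N) (h' : Nat.Coprime ℓ N')
    (hle1 : modularFunctionFieldBar N ≤ modularFunctionFieldBar N')
    (hle : modularFunctionFieldBar (N * ℓ) ≤ modularFunctionFieldBar (N' * ℓ)) (x : FN (N * ℓ)) :
    normAlpha N' ℓ (S35.incl hle x) = S35.incl hle1 (normAlpha N ℓ x) := by
  have hN : ¬ ℓ ∣ N := (Nat.Prime.coprime_iff_not_dvd hℓ).1 h
  have hN' : ¬ ℓ ∣ N' := (Nat.Prime.coprime_iff_not_dvd hℓ).1 h'
  obtain ⟨ζ0, hζ0⟩ := HasEnoughRootsOfUnity.exists_primitiveRoot Kb ℓ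
  obtain ⟨ζ, rfl⟩ : ∃ ζ : Kbˣ, (ζ : Kb) = ζ0 := ⟨(hζ0.isUnit (NeZero.ne ℓ)).unit, rfl⟩
  have hζ : IsPrimitiveRoot ζ ℓ := IsPrimitiveRoot.coe_units_iff.1 hζ0
  have e1 := S37.qExpand_normAlpha N ℓ hℓ hN (Wq h) (Wq_alpha h) (Wq_beta h) ζ hζ x
  have e2 := S37.qExpand_normAlpha N' ℓ hℓ hN' (Wq h') (Wq_alpha h') (Wq_beta h') ζ hζ (S35.incl hle x)
  apply Subtype.ext
  apply qExpand_injective (R := Kb) ℓ
  rw [S35.coe_incl]
  rw [S35.Wq_incl hℓ h h' hle1 hle, S35.coe_incl, S35.coe_incl, ← e1] at e2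
  exact e2

theorem Tl_incl {N N' ℓ : ℕ} [NeZero N] [NeZero N'] [NeZero ℓ] (hℓ : ℓ.Prime)
    (h : Nat.Coprime ℓ N) (h' : Nat.Coprime ℓ N')
    (hle1 : modularFunctionFieldBar N ≤ modularFunctionFieldBar N')
    (hle : modularFunctionFieldBar (N * ℓ) ≤ modularFunctionFieldBar (N' * ℓ)) (x : FN N) :
    Tl N' ℓ (S35.incl hle1 x) = S35.incl hle1 (Tl N ℓ x) := by
  rw [Tl_apply, Tl_apply, ← S35.incl_beta hle1 hle, normAlpha_incl hℓ h h' hle1 hle]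

theorem peq_incl {N M : ℕ} (hle : modularFunctionFieldBar N ≤ modularFunctionFieldBar M) {p : ℕ}
    {u v : FN N} (h : PEq p u v) : PEq p (S35.incl hle u) (S35.incl hle v) := by
  obtain ⟨g, hg⟩ := h
  exact ⟨S35.incl hle g, by rw [hg, map_mul, map_pow]⟩

theorem isPow_incl {N M : ℕ} (hle : modularFunctionFieldBar N ≤ modularFunctionFieldBar M) {p : ℕ}
    {u : FN N} (h : IsPow p u) : IsPow p (S35.incl hle u) := by
  obtain ⟨g, hg⟩ := h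
  exact ⟨S35.incl hle g, by rw [hg, map_pow]⟩

/-- descent of `p`-th roots -/
def RootDesc (N M p : ℕ) : Prop :=
  ∀ g : LaurentSeries Kb, g ∈ modularFunctionFieldBar M → g ^ p ∈ modularFunctionFieldBar N →
    g ∈ modularFunctionFieldBar N

theorem isPow_of_incl {N M : ℕ} (hle : modularFunctionFieldBar N ≤ modularFunctionFieldBar M) {p : ℕ}
    (hd : RootDesc N M p) {u : FN N} (h : IsPow p (S35.incl hle u)) : IsPow p u := by
  obtain ⟨g, hg⟩ := h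
  have hg' : (g : LaurentSeries Kb) ^ p = (u : LaurentSeries Kb) := by
    have h1 := congrArg (fun x : FN M => (x : LaurentSeries Kb)) hg
    simp only [S35.coe_incl] at h1
    rw [h1]
    rfl
  exact ⟨⟨g, hd _ g.2 (by rw [hg']; exact u.2)⟩, Subtype.ext hg'.symm⟩

theorem peq_of_incl {N M : ℕ} (hle : modularFunctionFieldBar N ≤ modularFunctionFieldBar M) {p : ℕ}
    (hd : RootDesc N M p) {u v : FN N} (hv : v ≠ 0) (h : PEq p (S35.incl hle u) (S35.incl hle v)) :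
    PEq p u v := by
  obtain ⟨g, hg⟩ := h
  have hv' : S35.incl hle v ≠ 0 := (map_ne_zero_iff _ (S35.incl hle).injective).mpr hv
  obtain ⟨r, hr⟩ := isPow_of_incl hle hd (u := u * v⁻¹) ⟨g, by
    rw [map_mul, map_inv₀, hg]
    field_simp⟩
  exact ⟨r, by rw [← hr]; field_simp⟩

variable {q : Nat.Primes} {M1 M1' : ℕ} [NeZero M1] [NeZero M1'] [NeZero (q : ℕ)]

/-- **level raising of the hypotheses** -/
theorem NewHyp.incl {hc : Nat.Coprime (q : ℕ) M1} (hc' : Nat.Coprime (q : ℕ) M1') (hdvd : M1 ∣ M1')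
    (hd : RootDesc (M1 * (q : ℕ)) (M1' * (q : ℕ)) (q : ℕ))
    {S : Set ℕ} {a : ℕ → ℤ} {u t : FN (M1 * (q : ℕ))} (H : NewHyp q M1 hc S a u t) :
    NewHyp q M1' hc' S a
      (S35.incl (Descent.bar_le (Nat.mul_dvd_mul_right hdvd (q : ℕ))) u)
      (S35.incl (Descent.bar_le (Nat.mul_dvd_mul_right hdvd (q : ℕ))) t) := by
  have hle1 : modularFunctionFieldBar M1 ≤ modularFunctionFieldBar M1' := Descent.bar_le hdvd
  set hle : modularFunctionFieldBar (M1 * (q : ℕ)) ≤ modularFunctionFieldBar (M1' * (q : ℕ)) :=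
    Descent.bar_le (Nat.mul_dvd_mul_right hdvd (q : ℕ))
  have hu0 : u ≠ 0 := H.pdiv_u.1
  have heig : ∀ x : FN (M1 * (q : ℕ)),
      (∀ (ℓ : ℕ) (hℓ : ℓ.Prime), ¬ ℓ ∣ M1 * (q : ℕ) → ℓ ∈ S →
        ∃ g : FN (M1 * (q : ℕ)), @Tl (M1 * (q : ℕ)) ℓ _ ⟨hℓ.ne_zero⟩ x = x ^ (a ℓ) * g ^ (q : ℕ)) →
      ∀ (ℓ : ℕ) (hℓ : ℓ.Prime), ¬ ℓ ∣ M1' * (q : ℕ) → ℓ ∈ S →
        ∃ g : FN (M1' * (q : ℕ)), @Tl (M1' * (q : ℕ)) ℓ _ ⟨hℓ.ne_zero⟩ (S35.incl hle x) =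
          (S35.incl hle x) ^ (a ℓ) * g ^ (q : ℕ) := by
    intro x hx ℓ hℓ hN' hS
    have : NeZero ℓ := ⟨hℓ.ne_zero⟩
    have hN : ¬ ℓ ∣ M1 * (q : ℕ) := fun h => hN' (h.trans (Nat.mul_dvd_mul_right hdvd (q : ℕ)))
    obtain ⟨g, hg⟩ := hx ℓ hℓ hN hS
    refine ⟨S35.incl hle g, ?_⟩
    rw [Tl_incl hℓ ((Nat.Prime.coprime_iff_not_dvd hℓ).2 hN) ((Nat.Prime.coprime_iff_not_dvd hℓ).2 hN')
      hle (Descent.bar_le (Nat.mul_dvd_mul_right (Nat.mul_dvd_mul_right hdvd (q : ℕ)) ℓ)), hg, map_mul,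
      map_pow, map_zpow₀]
  refine ⟨S35.PDiv.incl hle H.pdiv_u, S35.PDiv.incl hle H.pdiv_t,
    fun h => H.not_pow (isPow_of_incl hle hd h), ?_, ?_, ?_, ?_, heig u H.eig_u, heig t H.eig_t, ?_, ?_, ?_, ?_⟩
  · rw [normAlpha_incl q.2 hc hc' hle1 hle]
    exact isPow_incl hle1 H.nm_u
  · rw [S35.Wq_incl q.2 hc hc' hle1 hle, normAlpha_incl q.2 hc hc' hle1 hle]
    exact isPow_incl hle1 H.nmW_u
  · rw [normAlpha_incl q.2 hc hc' hle1 hle]
    exact isPow_incl hle1 H.nm_t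
  · rw [S35.Wq_incl q.2 hc hc' hle1 hle, normAlpha_incl q.2 hc hc' hle1 hle]
    exact isPow_incl hle1 H.nmW_t
  · intro σ hσ
    obtain ⟨k, hk⟩ := H.act_u σ hσ
    refine ⟨k, ?_⟩
    have := peq_incl hle hk
    rwa [map_mul, map_pow, ← S35.incl_gal] at this
  · intro σ hσ c hcy
    have := peq_incl hle (H.act_t σ hσ c hcy)
    rwa [map_pow, ← S35.incl_gal] at this
  · obtain ⟨σ₀, hσ₀, hmv, hfx⟩ := H.fix
    refine ⟨σ₀, hσ₀, hmv, ?_⟩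
    have := peq_incl hle hfx
    rwa [← S35.incl_gal] at this
  · intro ζ c0 hζ hc0 hpow hiff
    refine H.ntr ζ c0 hζ hc0 hpow (fun σ hσ hσζ => ?_)
    rw [hiff σ hσ hσζ, S35.incl_gal]
    exact ⟨fun h => peq_of_incl hle hd hu0 h, fun h => peq_incl hle h⟩

theorem rootDesc_lcm_two (hq2 : (q : ℕ) ≠ 2) :
    RootDesc (M1 * (q : ℕ)) (Nat.lcm M1 2 * (q : ℕ)) (q : ℕ) := by
  intro g hg hgm
  rw [← S35.lcm_mul_of_ne q.2 Nat.prime_two (Ne.symm hq2)] at hg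
  exact mem_of_pow_pow_mem_lcm_two q.2 hq2 1 g hg (by rwa [pow_one])

/-- the case `M1' = lcm M1 2` -/
theorem NewHyp.lcm_two (hq2 : (q : ℕ) ≠ 2) {hc : Nat.Coprime (q : ℕ) M1}
    {S : Set ℕ} {a : ℕ → ℤ} {u t : FN (M1 * (q : ℕ))} (H : NewHyp q M1 hc S a u t) :
    NewHyp q (Nat.lcm M1 2) (coprime_lcm_two q.2 hq2 hc) S a
      (S35.incl (Descent.bar_le (Nat.mul_dvd_mul_right (Nat.dvd_lcm_left M1 2) (q : ℕ))) u)
      (S35.incl (Descent.bar_le (Nat.mul_dvd_mul_right (Nat.dvd_lcm_left M1 2) (q : ℕ))) t) :=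
  NewHyp.incl (coprime_lcm_two q.2 hq2 hc) (Nat.dvd_lcm_left M1 2) (rootDesc_lcm_two hq2) H

end Fermat.Agent.S44.Geo
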