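import Fermat.Agent.S44.SP.HeckeRed
import Fermat.Agent.S33.Rat.H90
import Fermat.Agent.S34.Mod.IndepSer

/-!
# S44 / Geo / TlVal : `T_ℓ` versus `W_q`, leading coefficients and the two Gauss valuations
keys `S44/GEO-WQTL`, `S44/GEO-LCTL`, `S44/GEO-WTL`      (helper7)

* `Tl_const`  : `Tl N ℓ c = c ^ (ℓ + 1)` for constants;
* `lcF_Tl`    : `lcF (Tl N ℓ u) = ± (lcF u) ^ (ℓ + 1)`   (from `qExpand_Tl`);
* `wG_Tl`     : `wG (Tl N ℓ u) = (ℓ + 1) wG u`;
* `Wq_Tl`     : `W_q (Tl (M1 q) ℓ u) = Tl (M1 q) ℓ (W_q u)`  (the Atkin–Lehner involution `W'` at `q` of level `M1 ℓ q` commutes with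
  the two degeneracy maps `FN (M1 q) → FN (M1 q ℓ)`; norms are equivariant);
* `wZ_Tl`     : `wZ (Tl (M1 q) ℓ u) = (ℓ + 1) wZ u`.
-/

set_option autoImplicit false
set_option synthInstance.maxHeartbeats 400000

open HahnSeries ModularCurve AlgebraicCurve Fermat.Agent.S24 Fermat.Agent.S29 Fermat.Agent.S18
  Fermat.Agent.ES Fermat.Agent.ES.Alg Fermat.Agent.S34.Mod Fermat.Agent.S05 Fermat.Agent.S55.B ExtCitation
  Fermat.Agent.S33

noncomputable section

namespace Fermat.Agent.S44.Geo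

/-! ### series -/

section Series

variable {k : Type*} [Field k]

theorem tlv_lc_qExpand (l : ℕ) [NeZero l] (y : LaurentSeries k) :
    (qExpand k l y).leadingCoeff = y.leadingCoeff := by
  by_cases hy : y = 0
  · rw [hy, map_zero]
  · rw [HahnSeries.leadingCoeff_eq, HahnSeries.leadingCoeff_eq, Ser.order_qExpand l hy,
      qExpand_coeff_mul]

theorem tlv_twist_ne_zero (c : kˣ) {y : LaurentSeries k} (hy : y ≠ 0) : twist c y ≠ 0 := by
  intro h
  apply hy
  ext n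
  have h1 : (twist c y).coeff n = 0 := by rw [h, HahnSeries.coeff_zero]
  rw [twist_coeff] at h1
  rw [HahnSeries.coeff_zero]
  exact (Units.mul_right_eq_zero _).1 h1

theorem tlv_order_twist (c : kˣ) {y : LaurentSeries k} (hy : y ≠ 0) :
    (twist c y).order = y.order := by
  apply le_antisymm
  · apply HahnSeries.order_le_of_coeff_ne_zero
    rw [twist_coeff]
    exact mul_ne_zero (Units.ne_zero _) (HahnSeries.coeff_order_eq_zero.not.2 hy)
  · apply HahnSeries.order_le_of_coeff_ne_zero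
    have h := HahnSeries.coeff_order_eq_zero.not.2 (tlv_twist_ne_zero c hy)
    rw [twist_coeff] at h
    exact right_ne_zero_of_mul h

theorem tlv_lc_twist (c : kˣ) (y : LaurentSeries k) :
    (twist c y).leadingCoeff = ((c ^ y.order : kˣ) : k) * y.leadingCoeff := by
  by_cases hy : y = 0
  · rw [hy, map_zero, HahnSeries.leadingCoeff_zero, mul_zero]
  · rw [HahnSeries.leadingCoeff_eq, HahnSeries.leadingCoeff_eq, tlv_order_twist c hy, twist_coeff]

theorem tlv_qExpand_congr {m n : ℕ} [NeZero m] [NeZero n] (h : m = n) (f : LaurentSeries k) :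
    qExpand k m f = qExpand k n f := by
  subst h
  rfl

theorem tlv_qExpand_comm (m n : ℕ) [NeZero m] [NeZero n] (f : LaurentSeries k) :
    qExpand k m (qExpand k n f) = qExpand k n (qExpand k m f) := by
  rw [qExpand_qExpand, qExpand_qExpand]
  exact tlv_qExpand_congr (mul_comm m n) f

/-- the leading coefficient, as a monoid homomorphism -/
def tlvLc : LaurentSeries k →* k where
  toFun := HahnSeries.leadingCoeff
  map_one' := HahnSeries.leadingCoeff_one
  map_mul' _ _ := HahnSeries.leadingCoeff_mul _ _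

theorem tlv_sign {l : ℕ} {ζ : kˣ} (hζ : ζ ^ l = 1) (n : ℤ) :
    ((∏ j ∈ Finset.range l, (ζ ^ j) ^ n : kˣ) : k) = 1 ∨
      ((∏ j ∈ Finset.range l, (ζ ^ j) ^ n : kˣ) : k) = -1 := by
  have h1 : (∏ j ∈ Finset.range l, (ζ ^ j) ^ n : kˣ) = (ζ ^ (∑ j ∈ Finset.range l, j)) ^ n := by
    rw [Finset.prod_zpow, Finset.prod_pow_eq_pow_sum]
  have h2 : (∏ j ∈ Finset.range l, (ζ ^ j) ^ n : kˣ) * (∏ j ∈ Finset.range l, (ζ ^ j) ^ n : kˣ) = 1 := by
    rw [h1, ← mul_zpow, ← _root_.pow_add, ← mul_two, Finset.sum_range_id_mul_two, pow_mul, hζ, one_pow,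
      one_zpow]
  apply mul_self_eq_one_iff.1
  rw [← Units.val_mul, h2, Units.val_one]

end Series

/-! ### constants, leading coefficients -/

section Lc

variable {N l : ℕ} [NeZero N] [NeZero l]

theorem Tl_const (hl : l.Prime) (hlN : ¬ l ∣ N) (c : Kb) :
    Tl N l (algebraMap Kb (FN N) c) = algebraMap Kb (FN N) (c ^ (l + 1)) := by
  let _ := algebraAlong (heckeAlphaBar Kb N l)
  have hfr : Module.finrank (FN N) (FN (N * l)) = l + 1 := finrank_alpha N l hl hlN
  rw [Tl_apply, AlgHom.commutes, ← (heckeAlphaBar Kb N l).commutes c, map_pow, ← hfr]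
  exact Algebra.norm_algebraMap (S := FN (N * l)) (algebraMap Kb (FN N) c)

theorem exists_zeta (l : ℕ) [NeZero l] : ∃ ζ : Kbˣ, IsPrimitiveRoot ζ l := by
  obtain ⟨z, hz⟩ := HasEnoughRootsOfUnity.exists_primitiveRoot Kb l
  obtain ⟨ζ, rfl⟩ := hz.isUnit (NeZero.ne l)
  exact ⟨ζ, IsPrimitiveRoot.coe_units_iff.1 hz⟩

/-- [S44/GEO-LCTL] -/
theorem lcF_Tl (hl : l.Prime) (hlN : ¬ l ∣ N) (u : FN N) :
    lcF N (Tl N l u) = lcF N u ^ (l + 1) ∨ lcF N (Tl N l u) = - lcF N u ^ (l + 1) := by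
  obtain ⟨ζ, hζ⟩ := exists_zeta l
  have h := congrArg HahnSeries.leadingCoeff (qExpand_Tl N l hl hlN ζ hζ u)
  rw [tlv_lc_qExpand, HahnSeries.leadingCoeff_mul, tlv_lc_qExpand, tlv_lc_qExpand] at h
  have h2 : (∏ j ∈ Finset.range l, twist (ζ ^ j) (u : LaurentSeries Kb)).leadingCoeff =
      ((∏ j ∈ Finset.range l, (ζ ^ j) ^ (u : LaurentSeries Kb).order : Kbˣ) : Kb) *
        (u : LaurentSeries Kb).leadingCoeff ^ l := by
    have h3 := map_prod (tlvLc (k := Kb)) (fun j => twist (ζ ^ j) (u : LaurentSeries Kb))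
      (Finset.range l)
    have h4 : (∏ j ∈ Finset.range l, twist (ζ ^ j) (u : LaurentSeries Kb)).leadingCoeff =
        ∏ j ∈ Finset.range l, (twist (ζ ^ j) (u : LaurentSeries Kb)).leadingCoeff := h3
    rw [h4]
    simp only [tlv_lc_twist]
    rw [Finset.prod_mul_distrib, Finset.prod_const, Finset.card_range, Units.coe_prod]
  rw [h2] at h
  have e1 : lcF N (Tl N l u) = (Tl N l u : LaurentSeries Kb).leadingCoeff := rfl
  have e2 : lcF N u = (u : LaurentSeries Kb).leadingCoeff := rfl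
  rw [e1, e2, h]
  rcases tlv_sign hζ.pow_eq_one (u : LaurentSeries Kb).order with hs | hs
  · left
    rw [hs]
    ring
  · right
    rw [hs]
    ring

/-- [S44/GEO-WTL] -/
theorem wG_Tl {q : Nat.Primes} (hl : l.Prime) (hlN : ¬ l ∣ N) {u : FN N} (hu : u ≠ 0) :
    (wG q N).w (Tl N l u) = ((l : ℝ) + 1) * (wG q N).w u := by
  obtain ⟨c, x1, x2, r1, r2, hc, h1, h2, hr1, hr2, e⟩ := exists_intRed (AA q) u hu
  have E1 : (wG q N).EQ x1 0 := ratfAux_EQ_of_intRed h1 hr1
  have E2 : (wG q N).EQ x2 0 := ratfAux_EQ_of_intRed h2 hr2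
  obtain ⟨R1, hR1, hh1⟩ := SP.intRed_Tl hl hlN h1
  obtain ⟨R2, hR2, hh2⟩ := SP.intRed_Tl hl hlN h2
  have F1 : (wG q N).EQ (Tl N l x1) 0 := ratfAux_EQ_of_intRed hR1 (hh1.ne_zero hr1)
  have F2 : (wG q N).EQ (Tl N l x2) 0 := ratfAux_EQ_of_intRed hR2 (hh2.ne_zero hr2)
  have Ec : (wG q N).EQ (algebraMap Kb (FN N) c) ((wq q).w c) := ratfAux_EQ_algebraMap hc
  have Ec' : (wG q N).EQ (algebraMap Kb (FN N) (c ^ (l + 1))) ((wq q).w (c ^ (l + 1))) :=
    ratfAux_EQ_algebraMap (pow_ne_zero _ hc)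
  have Eu := RVal.EQ.of_mul_eq_left e E2 (Ec.mul E1)
  have e' : Tl N l u * Tl N l x2 = algebraMap Kb (FN N) (c ^ (l + 1)) * Tl N l x1 := by
    rw [← map_mul, e, map_mul, Tl_const hl hlN]
  have Eu' := RVal.EQ.of_mul_eq_left e' F2 (Ec'.mul F1)
  rw [Eu.2, Eu'.2, RVal.w_pow hc]
  push_cast
  ring

end Lc

/-! ### `W_q` -/

section W

theorem tlv_exists_W {n M q : ℕ} [NeZero M] [NeZero q] (h : n = M * q) (hc : Nat.Coprime q M) :
    ∃ W : FN n ≃ₐ[Kb] FN n,
      (∀ (f : FN M) (x : FN n), (x : LaurentSeries Kb) = (f : LaurentSeries Kb) →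
        ((W x : FN n) : LaurentSeries Kb) = qExpand Kb q (f : LaurentSeries Kb)) ∧
      (∀ (f : FN M) (x : FN n), (x : LaurentSeries Kb) = qExpand Kb q (f : LaurentSeries Kb) →
        ((W x : FN n) : LaurentSeries Kb) = (f : LaurentSeries Kb)) := by
  subst h
  refine ⟨Wq hc, fun f x hx => ?_, fun f x hx => ?_⟩
  · have e : x = heckeAlphaBar Kb M q f := Subtype.ext (by rw [hx, coe_heckeAlphaBar])
    rw [e, Wq_alpha, coe_heckeBetaBar]
  · have e : x = heckeBetaBar Kb M q f := Subtype.ext (by rw [hx, coe_heckeBetaBar])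
    rw [e, Wq_beta, coe_heckeAlphaBar]

variable {M1 q l : ℕ} [NeZero M1] [NeZero q] [NeZero l]

theorem tlv_exists_W' (hq : q.Prime) (hc : Nat.Coprime q M1) (hl : l.Prime) (hlN : ¬ l ∣ M1 * q) :
    ∃ W' : FN (M1 * q * l) ≃ₐ[Kb] FN (M1 * q * l),
      (∀ x : FN (M1 * q), W' (heckeAlphaBar Kb (M1 * q) l x) =
        heckeAlphaBar Kb (M1 * q) l (Wq hc x)) ∧
      (∀ x : FN (M1 * q), W' (heckeBetaBar Kb (M1 * q) l x) =
        heckeBetaBar Kb (M1 * q) l (Wq hc x)) := by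
  have hql : q ≠ l := by
    rintro rfl
    exact hlN (dvd_mul_left _ _)
  have hc' : Nat.Coprime q (M1 * l) :=
    Nat.Coprime.mul_right hc ((Nat.coprime_primes hq hl).2 hql)
  obtain ⟨W', hW1, hW2⟩ := tlv_exists_W (n := M1 * q * l) (M := M1 * l) (q := q) (by ring) hc'
  refine ⟨W', fun x => ?_, fun x => ?_⟩
  · refine induction_alpha_beta hq (P := fun x => W' (heckeAlphaBar Kb (M1 * q) l x) =
      heckeAlphaBar Kb (M1 * q) l (Wq hc x)) ?_ ?_ ?_ ?_ ?_ x
    · intro f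
      apply Subtype.ext
      rw [hW1 (heckeAlphaBar Kb M1 l f) _ (by simp only [coe_heckeAlphaBar]), Wq_alpha]
      simp only [coe_heckeAlphaBar, coe_heckeBetaBar]
    · intro f
      apply Subtype.ext
      rw [hW2 (heckeAlphaBar Kb M1 l f) _
        (by simp only [coe_heckeAlphaBar, coe_heckeBetaBar]), Wq_beta]
      simp only [coe_heckeAlphaBar]
    · intro x y hx hy
      simp only [map_add, hx, hy]
    · intro x y hx hy
      simp only [map_mul, hx, hy]
    · intro x hx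
      simp only [map_inv₀, hx]
  · refine induction_alpha_beta hq (P := fun x => W' (heckeBetaBar Kb (M1 * q) l x) =
      heckeBetaBar Kb (M1 * q) l (Wq hc x)) ?_ ?_ ?_ ?_ ?_ x
    · intro f
      apply Subtype.ext
      rw [hW1 (heckeBetaBar Kb M1 l f) _
        (by simp only [coe_heckeAlphaBar, coe_heckeBetaBar]), Wq_alpha]
      simp only [coe_heckeBetaBar]
      exact tlv_qExpand_comm q l _
    · intro f
      apply Subtype.ext
      rw [hW2 (heckeBetaBar Kb M1 l f) _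
        (by simp only [coe_heckeBetaBar]; exact tlv_qExpand_comm l q _), Wq_beta]
      simp only [coe_heckeAlphaBar, coe_heckeBetaBar]
    · intro x y hx hy
      simp only [map_add, hx, hy]
    · intro x y hx hy
      simp only [map_mul, hx, hy]
    · intro x hx
      simp only [map_inv₀, hx]

/-- [S44/GEO-WQTL] -/
theorem Wq_Tl (hq : q.Prime) (hc : Nat.Coprime q M1) (hl : l.Prime) (hlN : ¬ l ∣ M1 * q)
    (u : FN (M1 * q)) : Wq hc (Tl (M1 * q) l u) = Tl (M1 * q) l (Wq hc u) := by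
  obtain ⟨W', hα, hβ⟩ := tlv_exists_W' hq hc hl hlN
  have hnorm : ∀ x : FN (M1 * q * l),
      Wq hc (normAlpha (M1 * q) l x) = normAlpha (M1 * q) l (W' x) := by
    intro x
    let _ := algebraAlong (heckeAlphaBar Kb (M1 * q) l)
    have h := Algebra.norm_eq_of_equiv_equiv (Wq hc).toRingEquiv W'.toRingEquiv
      (RingHom.ext fun u => (hα u).symm) x
    show Wq hc (Algebra.norm (FN (M1 * q)) x) = Algebra.norm (FN (M1 * q)) (W' x)
    rw [h]
    exact RingEquiv.apply_symm_apply (Wq hc).toRingEquiv _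
  rw [Tl_apply, Tl_apply, hnorm, hβ]

end W

/-- [S44/GEO-WTL], second component -/
theorem wZ_Tl {q : Nat.Primes} {M1 l : ℕ} [NeZero M1] [NeZero (q : ℕ)] [NeZero l]
    (hc : Nat.Coprime (q : ℕ) M1) (hl : l.Prime) (hlN : ¬ l ∣ M1 * (q : ℕ))
    {u : FN (M1 * (q : ℕ))} (hu : u ≠ 0) :
    (wZ q hc).w (Tl (M1 * (q : ℕ)) l u) = ((l : ℝ) + 1) * (wZ q hc).w u := by
  rw [wZ_apply, wZ_apply, Wq_Tl q.2 hc hl hlN, wG_Tl hl hlN ((map_ne_zero _).2 hu)]

end Fermat.Agent.S44.Geo
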