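import Fermat.Agent.S44.Geo.Cartier
import Fermat.Agent.S34.Mod.Good
import Fermat.Agent.S37.BrCbar

/-!
# S44 / GEO-CARTIER : `κ = range (resInf A M1)` is closed under `q`-th roots in `k((Q))`          (helper12)

`Cartier.root_mem` with `W = k((Q))`, `t = t̄ = tq k r` (`t̄ ∉ W^q` : the coefficient of `Q^(-1)`), `κ = range (resInf A M1)` (a field: `inv_mem_Vinf`).
Every element of `κ` is algebraic over `k(t̄)`: `Vinf A M1 = VV` (`VV1_eq`): `S(t) z` is integral over `A[t]`, `S̄ ≠ 0`; reduce the monic equation.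
-/

set_option autoImplicit false
set_option synthInstance.maxHeartbeats 400000

open HahnSeries ModularCurve AlgebraicCurve Polynomial IntermediateField Fermat.Agent.S24 Fermat.Agent.S29
  Fermat.Agent.S18 Fermat.Agent.ES Fermat.Agent.ES.Alg Fermat.Agent.S34.Mod

noncomputable section

namespace Fermat.Agent.S44.Geo.Cartier

variable {M1 q r : ℕ} [NeZero M1] [NeZero q] [NeZero r] {A : ValuationSubring Kb}

theorem aeval_tq_eq (k : Type) [Field k] (r : ℕ) [NeZero r] (P : k[X]) :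
    aeval (tq k r) P = evk k r P := by
  rw [aeval_def, evk, coe_eval₂RingHom]
  congr 1
  ext c : 1
  rw [algebraMap_laurent_eq_single]
  rfl

theorem evk_mem (k : Type) [Field k] (r : ℕ) [NeZero r] (P : k[X]) :
    evk k r P ∈ k⟮tq k r⟯ := by
  rw [← aeval_tq_eq]
  exact (mem_adjoin_simple_iff k _).mpr ⟨P, 1, by simp⟩

/-- the residue field of the Gauss valuation at `∞`, inside `k((Q))` -/
def kapF (A : ValuationSubring Kb) (M1 : ℕ) [NeZero M1] :
    IntermediateField (kA A) (LaurentSeries (kA A)) where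
  toSubalgebra :=
    { (resInf A M1).range with
      algebraMap_mem' := fun c => by
        obtain ⟨a, rfl⟩ := IsLocalRing.residue_surjective c
        refine ⟨⟨algebraMap Kb (FN M1) a, algebraMap_mem_Vinf a⟩, ?_⟩
        rw [resInf_algebraMap, algebraMap_laurent_eq_single]
        rfl }
  inv_mem' := by
    rintro _ ⟨g, rfl⟩
    by_cases h0 : resInf A M1 g = 0
    · exact ⟨0, by rw [h0, inv_zero, map_zero]⟩
    · refine ⟨⟨(g : FN M1)⁻¹, inv_mem_Vinf h0⟩, ?_⟩
      have hg : (g : FN M1) ≠ 0 := by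
        intro h
        apply h0
        have : g = 0 := Subtype.ext h
        rw [this, map_zero]
      have h1 : g * ⟨(g : FN M1)⁻¹, inv_mem_Vinf h0⟩ = 1 := Subtype.ext (mul_inv_cancel₀ hg)
      have h2 := congrArg (resInf A M1) h1
      rw [map_mul, map_one] at h2
      exact eq_inv_of_mul_eq_one_right h2

theorem mem_kapF {x : LaurentSeries (kA A)} : x ∈ kapF A M1 ↔ ∃ g, resInf A M1 g = x := Iff.rfl

/-- evaluation `A[X] → Vinf A M1` -/
def evV (S : Setup M1 q r A) : (↥A)[X] →+* Vinf A M1 :=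
  (KL.evE A S.τ1 (FN M1)).codRestrict (Vinf A M1) fun P => evE1_mem_Vinf S P

theorem resInf_evV (S : Setup M1 q r A) (P : (↥A)[X]) : resInf A M1 (evV S P) = evk (kA A) r (KL.redP A P) :=
  resInf_evE1 S P

/-- elements of `κ` are algebraic over `k(t̄)` -/
theorem isIntegral_resInf (S : Setup M1 q r A) (z : Vinf A M1) :
    IsIntegral (kA A)⟮tq (kA A) r⟯ (resInf A M1 z) := by
  have hz : (z : FN M1) ∈ KL.VV A S.τ1 (FN M1) := by rw [VV1_eq S]; exact z.2
  obtain ⟨P, hP, Q, hQ, hQ0⟩ := hz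
  let ψ : (↥A)[X] →+* (kA A)⟮tq (kA A) r⟯ :=
    ((evk (kA A) r).comp (KL.redP A)).codRestrict (kA A)⟮tq (kA A) r⟯.toSubfield.toSubring
      (fun R => evk_mem (kA A) r _)
  have e1 : (algebraMap (kA A)⟮tq (kA A) r⟯ (LaurentSeries (kA A))).comp ψ =
      (resInf A M1).comp (evV S) := by
    refine RingHom.ext fun R => ?_
    exact (resInf_evV S R).symm
  have hw : IsIntegral (kA A)⟮tq (kA A) r⟯ (resInf A M1 (evV S P * z)) := by
    refine ⟨Q.map ψ, hQ.map ψ, ?_⟩
    rw [eval₂_map, e1, ← Polynomial.hom_eval₂]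
    have e2 : eval₂ (evV S) (evV S P * z) Q = 0 := by
      apply Subtype.ext
      have := Polynomial.hom_eval₂ Q (evV S) (Vinf A M1).subtype (evV S P * z)
      rw [Subring.coe_subtype] at this
      rw [this]
      exact hQ0
    rw [e2, map_zero]
  rw [map_mul, resInf_evV] at hw
  have hne : evk (kA A) r (KL.redP A P) ≠ 0 := evk_ne_zero hP
  have e3 : resInf A M1 z = algebraMap (kA A)⟮tq (kA A) r⟯ (LaurentSeries (kA A))
      (⟨evk (kA A) r (KL.redP A P), evk_mem _ _ _⟩ : (kA A)⟮tq (kA A) r⟯)⁻¹ *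
      (evk (kA A) r (KL.redP A P) * resInf A M1 z) := by
    rw [map_inv₀]
    show _ = (evk (kA A) r (KL.redP A P))⁻¹ * _
    rw [inv_mul_cancel_left₀ hne]
  rw [e3]
  exact isIntegral_algebraMap.mul hw

/-- [S44/GEO-CARTIER] -/
theorem root_mem_mod (S : Setup M1 q r A) (z : Vinf A M1) (y : LaurentSeries (kA A))
    (h : resInf A M1 z = y ^ q) : ∃ g : Vinf A M1, resInf A M1 g = y := by
  have : Fact q.Prime := ⟨S.hq⟩
  have : CharP (kA A) q := charP_kA S.hq S.hA
  have : CharP (LaurentSeries (kA A)) q :=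
    (RingHom.charP_iff (algebraMap (kA A) (LaurentSeries (kA A)))
      (algebraMap (kA A) (LaurentSeries (kA A))).injective q).mp inferInstance
  have : IsAlgClosed (kA A) := Fermat.Agent.S37.isAlgClosed_kk A
  have hk : ∀ c : kA A, ∃ b : kA A, b ^ q = c := fun c =>
    IsAlgClosed.exists_pow_nat_eq c S.hq.pos
  have ht : ∀ w : LaurentSeries (kA A), w ^ q ≠ tq (kA A) r := by
    intro w hw
    have h1 := congrArg (fun s => s.coeff (-1)) hw
    change (w ^ q).coeff (-1) = (tq (kA A) r).coeff (-1) at h1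
    rw [pow_char_eq_qExpand q, coeff_tq_neg_one, qExpand_coeff_of_not_dvd] at h1
    · exact zero_ne_one h1
    · intro hd
      have h2 : (q : ℤ) ∣ 1 := (dvd_neg.mp hd)
      have h3 : q ∣ 1 := by exact_mod_cast h2
      exact S.hq.one_lt.ne' (Nat.dvd_one.mp h3)
  have hy : IsAlgebraic (kA A)⟮tq (kA A) r⟯ y := by
    apply IsAlgebraic.of_pow S.hq.pos
    rw [← h]
    exact (isIntegral_resInf S z).isAlgebraic
  have htκ : tq (kA A) r ∈ kapF A M1 := ⟨⟨S.t1, t1_mem_Vinf S⟩, resInf_t1 S⟩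
  have hzκ : y ^ q ∈ kapF A M1 := ⟨z, h⟩
  exact root_mem q hk ht hy (kapF A M1) htκ hzκ

end Fermat.Agent.S44.Geo.Cartier
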