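import Fermat.Agent.S44.Geo.Defs
import Fermat.Agent.S44.Geo.TlVal
import Fermat.Agent.S33.M.Deep
import Fermat.Agent.S44.Geo.CartierMod

/-!
# S44/GEO : small keys used by `Geo/Node.lean`          (statements: helper2;  FREE KEYS, one theorem = one key)

`S0 : Setup M1 q r A`, `A = AA q`, `F = FN (M1 q)`, `W = Wq S0.hc`.

* [S44/GEO-SCALE] `exists_scale` : `u ≠ 0` ⟹ `∃ c ≠ 0`, `c u ∈ Vinf`, `resInf (c u) ≠ 0`.   [`ES.Alg.exists_intRed` / `S37.RedPkgAux.conv_input` / `SP.RedC.exists_redC`.]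
* [S44/GEO-LIFT] `exists_lift1` : every `v ∈ Vinf A (M1 q)` has `u1 ∈ Vinf A M1` with the same reduction.
   [`e := (twoComp S0).e` : `res₁ e = 1`, `res₂ e = 0`, so `w₀(e) > 0`; `Arch` ⟹ `e^n v ∈ VV` for `n` large (as `Geo.absorb`, helper1); `res_mem₁ S0 (e^n v)`; `res₁ (e^n v) = resInf v`.]
* [S44/GEO-REDNE] `red_ne_zero` : `resInf u1 ≠ 0 ⟹ red u1 ≠ 0`.   [`h.ker`, `S37.not_smV_of_intRed` / `SmV ⟹ resInf = 0` (`resInf_smul_eq_zero`).]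
* [S44/GEO-SYM] `NewHyp.Wq` : `NewHyp u t ⟹ NewHyp (W u) (W t)`.   [`PDiv.Wq`, `Wq_Wq`, `gal_Wq`, `Wq` is a field automorphism (so `IsPow`, `PEq` transport both ways), `Tl ∘ Wq = Wq ∘ Tl` (key GEO-WQTL).]
* [S44/GEO-CARTIER] `root_mem` : `z ∈ range (resInf A M1)`, `z = y^q`, `y ∈ k((Q))` ⟹ `y ∈ range (resInf A M1)`.
   [`κ = range (resInf A M1)` is a field, finite over `k(t̄)`, `t̄ = resInf t1 = tq k r`.  `κ^p = {g(Q^p) : g ∈ κ}` (`ch4_exists_twist` and its converse with the Frobenius lift `φ`).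
    `[κ : κ^p] = p` : `[κ : k(t̄^p)] = p [κ : k(t̄)] = [κ : κ^p] [κ^p : k(t̄)^p]` and Frobenius is an isomorphism `(κ, k(t̄)) ≅ (κ^p, k(t̄^p))`.
    `κ ∩ k((Q^p))` is a field between `κ^p` and `κ`, `≠ κ` because `t̄ ∉ k((Q^p))` (`t̄ = Q^(-1) + ...` or `Q + ...`); the degree `p` is prime: `κ ∩ k((Q^p)) = κ^p`.
    `z = y^p ∈ κ ∩ k((Q^p))`, so `z = g^p`, `g ∈ κ`, `y = g`.]
* [S44/GEO-UC2] `uc2_of_pow` : if the reductions of `c u` and of `c' W u` are `q`-th powers in `k((Q))` then `∃ h ≠ 0, UC2 (u h^q)`.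
   [`root_mem` + `exists_lift1`-type lifts: `y₁ = resInf g₁`, `y₂ = resInf g₂`, `g_i ∈ Vinf A M1`, units.  `G₁ := α^* g₁`, `G₂ := W (α^* g₂)`;
    weak approximation `S33.M.weak_approx` (`S33/M/Deep.lean`): `h` with `w∞(h G₁ - 1) > 0`, `w₀(h G₂ - 1) > 0`.  Then `c u h^q ≡ 1` at `∞`, `c' W(u h^q) ≡ 1` at `∞`;
    `c, c'` need not be units: `UC2` wants units `a : Aˣ`: since `w∞(u h^q) = - w(c)`, replace `h` by `h * c^(1/q)`-type constants?  NO: the SAME `h` is used at both places, so first choose `h` by weak approximation with `w∞(h G₁ c₁ - 1) > 0`, `w₀(h G₂ c₂ - 1) > 0`, `c₁^q = c⁻¹`... i.e. absorb `c^(1/q)`, `c'^(1/q) ∈ Kb` in `G₁`, `G₂`.  Then `a = 1`.]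
-/

set_option autoImplicit false
set_option synthInstance.maxHeartbeats 400000

open HahnSeries ModularCurve AlgebraicCurve Fermat.Agent.S24 Fermat.Agent.S29 Fermat.Agent.S18
  Fermat.Agent.ES Fermat.Agent.ES.Alg Fermat.Agent.S34.Mod Fermat.Agent.S05 Fermat.Agent.S55.B ExtCitation
  Fermat.Agent.S33 Fermat.Agent.S37 CongruenceSubgroup
open Fermat.Agent.S55 (Dq Iq)

noncomputable section

namespace Fermat.Agent.S44.Geo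

section General

variable {M1 q r : ℕ} [NeZero M1] [NeZero q] [NeZero r] {A : ValuationSubring Kb}

/-- [S44/GEO-SCALE] -/
theorem exists_scale (S0 : Setup M1 q r A) {u : FN (M1 * q)} (hu : u ≠ 0) :
    ∃ (c : Kb) (v : Vinf A (M1 * q)), c ≠ 0 ∧ (v : FN (M1 * q)) = algebraMap Kb (FN (M1 * q)) c * u ∧
      resInf A (M1 * q) v ≠ 0 := by
  obtain ⟨c, w, z1, z2, hc, hxw, hw, h1, -, -⟩ := exists_unit_scale (A := A) u hu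
  refine ⟨c⁻¹, ⟨w, ⟨_, _, hw⟩⟩, inv_ne_zero hc, ?_, ?_⟩
  · show w = _
    rw [hxw, ← mul_assoc, ← map_mul, inv_mul_cancel₀ hc, map_one, one_mul]
  · rw [resInf_eq (x := ⟨w, ⟨_, _, hw⟩⟩) hw]
    exact div_ne_zero h1 hw.2

/-- [S44/GEO-LIFT] -/
theorem exists_lift1 (S0 : Setup M1 q r A) (v : Vinf A (M1 * q)) :
    ∃ u1 : Vinf A M1, resInf A M1 u1 = resInf A (M1 * q) v := by
  obtain ⟨e, he1, he2⟩ := exists_e S0
  obtain ⟨a, ha0, ha⟩ := absorbAux_scale (A := A) (Wq S0.hc (v : FN (M1 * q)))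
  have hWE : resInf A (M1 * q) ⟨Wq S0.hc (e : FN (M1 * q)), e.2.2⟩ = 0 := he2
  obtain ⟨a₀, ha₀, z, hz, e'⟩ := exists_smul_of_resInf_eq_zero hWE
  obtain ⟨n, a', hn⟩ := Arch.arch A S0.hq S0.hA a₀ ha₀ a ha0
  have e'' : Wq S0.hc (e : FN (M1 * q)) = algebraMap Kb (FN (M1 * q)) (a₀ : Kb) * z := e'
  have hn' : ((a₀ : Kb)) ^ n = (a : Kb) * (a' : Kb) := congrArg Subtype.val hn
  have e2 : Wq S0.hc ((e : FN (M1 * q)) ^ n * v) =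
      algebraMap Kb (FN (M1 * q)) (a' : Kb) * z ^ n * (algebraMap Kb (FN (M1 * q)) (a : Kb) * Wq S0.hc (v : FN (M1 * q))) := by
    rw [map_mul, map_pow, e'', mul_pow, ← map_pow, hn', map_mul]
    ring
  have hmem : (e : FN (M1 * q)) ^ n * v ∈ V2 A S0.hc := by
    rw [mem_V2]
    refine ⟨mul_mem (pow_mem e.2.1 n) v.2, ?_⟩
    rw [e2]
    exact mul_mem (mul_mem (algebraMap_mem_Vinf a') (pow_mem hz n)) ha
  obtain ⟨x', hx'⟩ := res_mem₁ S0 ⟨_, (VV_eq S0).ge hmem⟩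
  refine ⟨x', hx'.trans ?_⟩
  have h3 : (twoComp S0).res₁ ⟨_, (VV_eq S0).ge hmem⟩ = r1 A S0.hc ⟨_, hmem⟩ := rfl
  rw [h3, r1_mk]
  have h4 : (⟨(e : FN (M1 * q)) ^ n * v, hmem.1⟩ : Vinf A (M1 * q)) = ⟨e, e.2.1⟩ ^ n * v := rfl
  have h5 : resInf A (M1 * q) ⟨e, e.2.1⟩ = 1 := he1
  rw [h4, map_mul, map_pow, h5, one_pow, one_mul]

/-- [S44/GEO-REDNE] -/
theorem red_ne_zero (S0 : Setup M1 q r A) {Ft : Type} [Field Ft] [Algebra (KL.kk A) Ft]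
    {O : Subring (FN M1)} {red : O →+* Ft} (h : RedData A S0.τ1 (FN M1) O red)
    (u1 : O) (hu1 : (u1 : FN M1) ∈ Vinf A M1) (hne : resInf A M1 ⟨u1, hu1⟩ ≠ 0) : red u1 ≠ 0 := by
  intro h0
  exact hne ((SmV1_iff S0 ⟨u1, hu1⟩).mp ((h.ker u1).mp h0))

/-- [S44/GEO-CARTIER] -/
theorem root_mem (S0 : Setup M1 q r A) (z : Vinf A M1) (y : LaurentSeries (kA A))
    (h : resInf A M1 z = y ^ q) : ∃ g : Vinf A M1, resInf A M1 g = y :=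
  Cartier.root_mem_mod S0 z y h

end General

variable {q : Nat.Primes} {M1 r : ℕ} [NeZero M1] [NeZero (q : ℕ)] [NeZero r]

theorem symAux_peq {hc : Nat.Coprime (q : ℕ) M1} {x y : FN (M1 * (q : ℕ))} :
    PEq (q : ℕ) (Wq hc x) (Wq hc y) ↔ PEq (q : ℕ) x y := by
  constructor
  · rintro ⟨h, e⟩
    refine ⟨Wq hc h, ?_⟩
    have := congrArg (Wq hc) e
    rwa [Wq_Wq, map_mul, Wq_Wq, map_pow] at this
  · rintro ⟨h, e⟩
    exact ⟨Wq hc h, by rw [e, map_mul, map_pow]⟩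

/-- [S44/GEO-SYM] -/
theorem NewHyp.Wq {hc : Nat.Coprime (q : ℕ) M1} {S : Set ℕ} {a : ℕ → ℤ} {u t : FN (M1 * (q : ℕ))}
    (H : NewHyp q M1 hc S a u t) : NewHyp q M1 hc S a (Wq hc u) (Wq hc t) where
  pdiv_u := PDiv.Wq hc H.pdiv_u
  pdiv_t := PDiv.Wq hc H.pdiv_t
  not_pow := by
    rintro ⟨g, hg⟩
    refine H.not_pow ⟨Fermat.Agent.S34.Mod.Wq hc g, ?_⟩
    have := congrArg (Fermat.Agent.S34.Mod.Wq hc) hg
    rwa [Wq_Wq, map_pow] at this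
  nm_u := H.nmW_u
  nmW_u := by rw [Wq_Wq]; exact H.nm_u
  nm_t := H.nmW_t
  nmW_t := by rw [Wq_Wq]; exact H.nm_t
  eig_u := by
    intro ℓ hℓ hℓN hℓS
    obtain ⟨g, hg⟩ := H.eig_u ℓ hℓ hℓN hℓS
    have : NeZero ℓ := ⟨hℓ.ne_zero⟩
    refine ⟨Fermat.Agent.S34.Mod.Wq hc g, ?_⟩
    have h1 := Wq_Tl q.2 hc hℓ hℓN u
    rw [← h1, hg, map_mul, map_zpow₀, map_pow]
  eig_t := by
    intro ℓ hℓ hℓN hℓS
    obtain ⟨g, hg⟩ := H.eig_t ℓ hℓ hℓN hℓS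
    have : NeZero ℓ := ⟨hℓ.ne_zero⟩
    refine ⟨Fermat.Agent.S34.Mod.Wq hc g, ?_⟩
    have h1 := Wq_Tl q.2 hc hℓ hℓN t
    rw [← h1, hg, map_mul, map_zpow₀, map_pow]
  act_u := by
    intro σ hσ
    obtain ⟨k, hk⟩ := H.act_u σ hσ
    refine ⟨k, ?_⟩
    rw [gal_Wq q.2 hc, ← map_pow, ← map_mul, symAux_peq]
    exact hk
  act_t := by
    intro σ hσ c hcyc
    rw [gal_Wq q.2 hc, ← map_pow, symAux_peq]
    exact H.act_t σ hσ c hcyc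
  fix := by
    obtain ⟨σ₀, h1, h2, h3⟩ := H.fix
    refine ⟨σ₀, h1, h2, ?_⟩
    rw [gal_Wq q.2 hc, symAux_peq]
    exact h3
  ntr := by
    intro ζ c0 hζ hc0 h1 h2
    refine H.ntr ζ c0 hζ hc0 h1 (fun σ hσ hσζ => ?_)
    rw [h2 σ hσ hσζ, gal_Wq q.2 hc, symAux_peq]

/-- an integral function whose reduction is a nonzero `q`-th power in `k((Q))` is congruent to the `q`-th power of a function coming from
level `M1` -/
theorem uc2Aux_root (S0 : Setup M1 (q : ℕ) r (AA q)) (v : Vinf (AA q) (M1 * (q : ℕ)))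
    (hne : resInf (AA q) (M1 * (q : ℕ)) v ≠ 0)
    (hp : ∃ y : LaurentSeries (kA (AA q)), resInf (AA q) (M1 * (q : ℕ)) v = y ^ (q : ℕ)) :
    ∃ G : FN (M1 * (q : ℕ)), G ≠ 0 ∧ Cong (AA q) (M1 * (q : ℕ)) ((v : FN (M1 * (q : ℕ))) * G⁻¹ ^ (q : ℕ)) := by
  obtain ⟨y, hy⟩ := hp
  obtain ⟨u1, hu1⟩ := exists_lift1 S0 v
  obtain ⟨g, hg⟩ := root_mem S0 u1 y (hu1.trans hy)
  have hy0 : y ≠ 0 := by
    rintro rfl
    rw [zero_pow q.2.ne_zero] at hy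
    exact hne hy
  have hGV : heckeAlphaBar Kb M1 (q : ℕ) (g : FN M1) ∈ Vinf (AA q) (M1 * (q : ℕ)) := alpha_mem_Vinf g.2
  have hGr : resInf (AA q) (M1 * (q : ℕ)) ⟨_, hGV⟩ = y := (resInf_alpha g).trans hg
  have hGi := inv_mem_Vinf (x := ⟨_, hGV⟩) (by rw [hGr]; exact hy0)
  have hG0 : heckeAlphaBar Kb M1 (q : ℕ) (g : FN M1) ≠ 0 := by
    intro h
    have h2 : (⟨_, hGV⟩ : Vinf (AA q) (M1 * (q : ℕ))) = 0 := Subtype.ext h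
    rw [h2, map_zero] at hGr
    exact hy0 hGr.symm
  have hmul : (⟨_, hGV⟩ : Vinf (AA q) (M1 * (q : ℕ))) * ⟨_, hGi⟩ = 1 := Subtype.ext (mul_inv_cancel₀ hG0)
  have hri : y * resInf (AA q) (M1 * (q : ℕ)) ⟨_, hGi⟩ = 1 := by
    have := congrArg (resInf (AA q) (M1 * (q : ℕ))) hmul
    rwa [map_mul, hGr, map_one] at this
  refine ⟨_, hG0, cong_iff.2 ⟨mul_mem v.2 (pow_mem hGi _), ?_⟩⟩
  have e : (⟨_, mul_mem v.2 (pow_mem hGi (q : ℕ))⟩ : Vinf (AA q) (M1 * (q : ℕ))) =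
      v * (⟨_, hGi⟩ : Vinf (AA q) (M1 * (q : ℕ))) ^ (q : ℕ) := rfl
  rw [e, map_mul, map_pow, hy, ← mul_pow, hri, one_pow]

/-- [S44/GEO-UC2] -/
theorem uc2_of_pow (S0 : Setup M1 (q : ℕ) r (AA q)) {u : FN (M1 * (q : ℕ))} (hu : u ≠ 0)
    (c c' : Kb) (hc : c ≠ 0) (hc' : c' ≠ 0) (v v' : Vinf (AA q) (M1 * (q : ℕ)))
    (hv : (v : FN (M1 * (q : ℕ))) = algebraMap Kb (FN (M1 * (q : ℕ))) c * u)
    (hv' : (v' : FN (M1 * (q : ℕ))) = algebraMap Kb (FN (M1 * (q : ℕ))) c' * Wq S0.hc u)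
    (hne : resInf (AA q) (M1 * (q : ℕ)) v ≠ 0) (hne' : resInf (AA q) (M1 * (q : ℕ)) v' ≠ 0)
    (hp : ∃ y : LaurentSeries (kA (AA q)), resInf (AA q) (M1 * (q : ℕ)) v = y ^ (q : ℕ))
    (hp' : ∃ y : LaurentSeries (kA (AA q)), resInf (AA q) (M1 * (q : ℕ)) v' = y ^ (q : ℕ)) :
    ∃ h : FN (M1 * (q : ℕ)), h ≠ 0 ∧ UC2 (AA q) M1 S0.hc (u * h ^ (q : ℕ)) := by
  obtain ⟨G₁, hG₁, K1⟩ := uc2Aux_root S0 v hne hp
  obtain ⟨G₂, hG₂, K2⟩ := uc2Aux_root S0 v' hne' hp'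
  obtain ⟨c₁, hc₁⟩ := IsAlgClosed.exists_pow_nat_eq c q.2.pos
  obtain ⟨c₂, hc₂⟩ := IsAlgClosed.exists_pow_nat_eq c' q.2.pos
  have hc₁0 : c₁ ≠ 0 := by
    rintro rfl
    rw [zero_pow q.2.ne_zero] at hc₁
    exact hc hc₁.symm
  have hc₂0 : c₂ ≠ 0 := by
    rintro rfl
    rw [zero_pow q.2.ne_zero] at hc₂
    exact hc' hc₂.symm
  have ha₁ : algebraMap Kb (FN (M1 * (q : ℕ))) c₁ ≠ 0 := by simpa using hc₁0
  have ha₂ : algebraMap Kb (FN (M1 * (q : ℕ))) c₂ ≠ 0 := by simpa using hc₂0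
  have hWG₂ : Wq S0.hc G₂ ≠ 0 := (map_ne_zero _).2 hG₂
  set g : FN (M1 * (q : ℕ)) := (G₁ * (algebraMap Kb (FN (M1 * (q : ℕ))) c₁)⁻¹) * (algebraMap Kb (FN (M1 * (q : ℕ))) c₂ * (Wq S0.hc G₂)⁻¹) with hg
  have hg0 : g ≠ 0 := mul_ne_zero (mul_ne_zero hG₁ (inv_ne_zero ha₁)) (mul_ne_zero ha₂ (inv_ne_zero hWG₂))
  obtain ⟨h₀, h1, h2⟩ := M.weak_approx S0 g (max 1 ((wZ q S0.hc).w g + 1))
  have C0 : Cong (AA q) (M1 * (q : ℕ)) h₀ := by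
    rw [cong_iff_GT]
    rcases h1 with h1 | h1
    · exact Or.inl h1
    · exact Or.inr (lt_of_lt_of_le one_pos ((le_max_left _ _).trans h1))
  have C1 : Cong (AA q) (M1 * (q : ℕ)) (Wq S0.hc (h₀ * g⁻¹)) := by
    rw [cong_iff_GT]
    have e : Wq S0.hc (h₀ * g⁻¹) - 1 = Wq S0.hc ((h₀ - g) * g⁻¹) := by
      rw [sub_mul, mul_inv_cancel₀ hg0, map_sub, map_one]
    rw [e, ← wZ_GT_iff]
    rcases h2 with h2 | h2
    · exact Or.inl (by rw [h2, zero_mul])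
    · by_cases h3 : h₀ - g = 0
      · exact Or.inl (by rw [h3, zero_mul])
      · refine Or.inr ?_
        rw [(wZ q S0.hc).map_mul _ _ h3 (inv_ne_zero hg0), RVal.w_inv hg0]
        have := (le_max_right 1 ((wZ q S0.hc).w g + 1)).trans h2
        linarith
  have hh₀ : h₀ ≠ 0 := C0.ne_zero
  refine ⟨h₀ * (algebraMap Kb (FN (M1 * (q : ℕ))) c₁ * G₁⁻¹), mul_ne_zero hh₀ (mul_ne_zero ha₁ (inv_ne_zero hG₁)), ⟨1, ?_⟩, ⟨1, ?_⟩⟩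
  · have e : algebraMap Kb (FN (M1 * (q : ℕ))) (((1 : (AA q)ˣ) : AA q) : Kb) * (u * (h₀ * (algebraMap Kb (FN (M1 * (q : ℕ))) c₁ * G₁⁻¹)) ^ (q : ℕ)) =
        ((v : FN (M1 * (q : ℕ))) * G₁⁻¹ ^ (q : ℕ)) * h₀ ^ (q : ℕ) := by
      rw [hv, ← hc₁, map_pow]
      simp only [Units.val_one, OneMemClass.coe_one, map_one, one_mul, mul_pow]
      ring
    rw [e]
    exact K1.mul (C0.pow _)
  · have e0 : Wq S0.hc (h₀ * (algebraMap Kb (FN (M1 * (q : ℕ))) c₁ * G₁⁻¹)) = Wq S0.hc (h₀ * g⁻¹) * (algebraMap Kb (FN (M1 * (q : ℕ))) c₂ * G₂⁻¹) := by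
      have e1 : h₀ * (algebraMap Kb (FN (M1 * (q : ℕ))) c₁ * G₁⁻¹) = (h₀ * g⁻¹) * (algebraMap Kb (FN (M1 * (q : ℕ))) c₂ * (Wq S0.hc G₂)⁻¹) := by
        rw [hg]
        field_simp
      rw [e1, map_mul (Wq S0.hc) (h₀ * g⁻¹), map_mul (Wq S0.hc) (algebraMap Kb (FN (M1 * (q : ℕ))) c₂), map_inv₀, Wq_Wq, AlgEquiv.commutes]
    have e : algebraMap Kb (FN (M1 * (q : ℕ))) (((1 : (AA q)ˣ) : AA q) : Kb) * Wq S0.hc (u * (h₀ * (algebraMap Kb (FN (M1 * (q : ℕ))) c₁ * G₁⁻¹)) ^ (q : ℕ)) =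
        ((v' : FN (M1 * (q : ℕ))) * G₂⁻¹ ^ (q : ℕ)) * (Wq S0.hc (h₀ * g⁻¹)) ^ (q : ℕ) := by
      rw [map_mul, map_pow, e0, hv', ← hc₂, map_pow]
      simp only [Units.val_one, OneMemClass.coe_one, map_one, one_mul, mul_pow]
      ring
    rw [e]
    exact K2.mul (C1.pow _)

end Fermat.Agent.S44.Geo
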