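import Fermat.Agent.S44.Geo.Defs
import Fermat.Agent.S44.Geo.LvlUp
import Fermat.Agent.S44.Geo.TlVal
import Fermat.Agent.S44.SP.OutX
import Fermat.Agent.S44.SP.IfDesc

/-!
# S44/GEO : the interface with SP + DESC          (statement: helper2;  PROOF: helper20 (assembly), `DESC` = `SP/IfDesc.lean om_desc` = helper10)

`M' = lcm M1 2`, `S0 : Setup M' q 2 A`, `u : FN (M1 q)` with `NewHyp` AT LEVEL `M1`, `iu = incl u : FN (M' q)`.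
INPUT `NodeOut S0 iu` : `v = c * iu` or `c * Wq iu`, `v ∈ Vinf A (M' q)`, `u1 ∈ Vinf A M'` with the same reduction `ub ∈ k((Q))`,
`q ∣ ord_x (red u1)` for EVERY reduction datum `(Ft, O, red)` of level `M'` and every place `x`, `ub` not a `q`-th power in `k((Q))`.
OUTPUT `SpOut q M1 S a` AT LEVEL `M1`.

## WARNING (helper2): `SpOut q (lcm M1 2) S a → SpOut q M1 S a` is FALSE in general (level raising at 2: the class of level `2 M1` may be 2-new).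
The descent must be done on `uz`, BEFORE the Hecke algebra argument, as in lead's #1285 [LEVEL]:
1. `v = incl v0`, `v0 = c u` or `c Wq u : FN (M1 q)` (`S35.Wq_incl`); `v0` is `T_ℓ`-eigen mod `q`-th powers at level `M1 q` for ALL `ℓ ∈ S`, `ℓ ∤ M1 q` (also `ℓ = 2`):
   `H.eig_u`, `Tl (c x) = c^(ℓ+1) Tl x`, constants are `q`-th powers, `Tl ∘ Wq = Wq ∘ Tl` (key GEO-WQTL).  So `HRel (zb A ℓ) ℓ ub (ub^(a ℓ) gb^q)`.
2. `core_haupt` at level `M'` : `uz : FN M'`, `red uz = c ub^(p^n) hb^(p^(n+1))`, `p^(n+1) ∣ div uz`.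
3. If `2 ∣ M1` : `M' = M1`, done (`Om A M1 p n ub uz 1`).  Otherwise `M' = M1 * 2`, `uz' := normAlpha M1 2 uz : FN M1`, `p^(n+1) ∣ div uz'`, and CLAIM `Om A M1 p n ub uz' 3`.
   `qExpand 2 (Nm x) = qExpand 2 x * ∏_j twist (ζ^j) (W₂ x)` (`S37.qExpand_normAlpha`).  Needs
   (W) `W₂` preserves the Gauss valuation at `∞` at the levels `2 M1` and `2 M1 q` (so `W̄₂` is defined on reductions and is multiplicative);
       [`W₂ τ = c/τ`, `c` a `p`-unit, so `W₂` preserves the Gauss ring of `K(τ)`, hence `VV`; at level `2 M1 q` : `W₂` commutes with `Wq` and with `α_q^*`, `β_q^*`.]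
   (N) `normAlpha (M1 q) 2 (incl v0) = v0^3`, so `∏_j twist (ζ^j) (W̄₂ ub) = qExpand 2 (ub^2)`;   `α_q^* u1 ≡ incl v0` at `∞`, so `red (W₂ u1) = W̄₂ ub`.
   Hence `qExpand 2 (red uz') = c^3 qExpand 2 (ub^(3 p^n)) * Y^(p^(n+1))`, and `Y ∈ k((Q^2))` (`Y(-Q)^P = Y(Q)^P`, `P`-th roots are unique in char `p`).
4. `sp_alg` at level `M1` with the exponent `e = 3` (`p ∤ 3`).
-/

set_option autoImplicit false
set_option synthInstance.maxHeartbeats 400000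

open HahnSeries ModularCurve AlgebraicCurve Fermat.Agent.S24 Fermat.Agent.S29 Fermat.Agent.S18
  Fermat.Agent.ES Fermat.Agent.ES.Alg Fermat.Agent.S34.Mod Fermat.Agent.S05 Fermat.Agent.S55.B ExtCitation
  Fermat.Agent.S33 Fermat.Agent.S37 CongruenceSubgroup
open Fermat.Agent.S55 (Dq Iq)

noncomputable section

namespace Fermat.Agent.S44.Geo

/-- eigenfunctions modulo `p`-th powers: multiplication by a constant -/
theorem eig_const {N p : ℕ} [NeZero N] (hp : 0 < p) {S : Set ℕ} {a : ℕ → ℤ} {x : FN N} {c : Kb}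
    (hc : c ≠ 0)
    (hx : ∀ (ℓ : ℕ) (hℓ : ℓ.Prime), ¬ ℓ ∣ N → ℓ ∈ S →
      ∃ g : FN N, @Tl N ℓ _ ⟨hℓ.ne_zero⟩ x = x ^ (a ℓ) * g ^ p) :
    ∀ (ℓ : ℕ) (hℓ : ℓ.Prime), ¬ ℓ ∣ N → ℓ ∈ S →
      ∃ g : FN N, @Tl N ℓ _ ⟨hℓ.ne_zero⟩ (algebraMap Kb (FN N) c * x) =
        (algebraMap Kb (FN N) c * x) ^ (a ℓ) * g ^ p := by
  intro ℓ hℓ hN hS
  have : NeZero ℓ := ⟨hℓ.ne_zero⟩
  obtain ⟨g, hg⟩ := hx ℓ hℓ hN hS
  obtain ⟨d, hd⟩ := IsAlgClosed.exists_pow_nat_eq (c ^ (ℓ + 1) * (c ^ (a ℓ))⁻¹) hp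
  refine ⟨algebraMap Kb (FN N) d * g, ?_⟩
  have hca : c ^ (a ℓ) ≠ 0 := zpow_ne_zero _ hc
  have e1 : algebraMap Kb (FN N) (c ^ (ℓ + 1)) =
      (algebraMap Kb (FN N) c) ^ (a ℓ) * (algebraMap Kb (FN N) d) ^ p := by
    rw [← map_zpow₀, ← map_pow, ← map_mul, hd, mul_comm (c ^ (ℓ + 1)), mul_inv_cancel_left₀ hca]
  rw [map_mul, Tl_const hℓ hN, hg, e1, mul_zpow, mul_pow]
  ring

variable {q : Nat.Primes} {M1 : ℕ} [NeZero M1] [NeZero (q : ℕ)]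

/-- eigenfunctions modulo `p`-th powers: `Wq` -/
theorem eig_Wq (hc : Nat.Coprime (q : ℕ) M1) {p : ℕ} {S : Set ℕ} {a : ℕ → ℤ}
    {x : FN (M1 * (q : ℕ))}
    (hx : ∀ (ℓ : ℕ) (hℓ : ℓ.Prime), ¬ ℓ ∣ M1 * (q : ℕ) → ℓ ∈ S →
      ∃ g : FN (M1 * (q : ℕ)), @Tl (M1 * (q : ℕ)) ℓ _ ⟨hℓ.ne_zero⟩ x = x ^ (a ℓ) * g ^ p) :
    ∀ (ℓ : ℕ) (hℓ : ℓ.Prime), ¬ ℓ ∣ M1 * (q : ℕ) → ℓ ∈ S →
      ∃ g : FN (M1 * (q : ℕ)), @Tl (M1 * (q : ℕ)) ℓ _ ⟨hℓ.ne_zero⟩ (Wq hc x) =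
        (Wq hc x) ^ (a ℓ) * g ^ p := by
  intro ℓ hℓ hN hS
  have : NeZero ℓ := ⟨hℓ.ne_zero⟩
  obtain ⟨g, hg⟩ := hx ℓ hℓ hN hS
  exact ⟨Wq hc g, by rw [← Wq_Tl q.2 hc hℓ hN, hg, map_mul, map_zpow₀, map_pow]⟩

/-- `Vinf` and `resInf` only depend on the `q`-expansion -/
theorem redC_of_incl {A : ValuationSubring Kb} {N N' : ℕ} [NeZero N] [NeZero N']
    (hle : modularFunctionFieldBar N ≤ modularFunctionFieldBar N') {v0 : FN N} (v : Vinf A N')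
    (hv : (v : FN N') = S35.incl hle v0) (hne : resInf A N' v ≠ 0) :
    SP.RedC A N v0 (resInf A N' v) := by
  obtain ⟨y1, y2, hq⟩ := v.2
  have hq0 : IsQuo A N v0 y1 y2 := ⟨by rw [← S35.coe_incl hle v0, ← hv]; exact hq.1, hq.2⟩
  have e : resInf A N ⟨v0, ⟨y1, y2, hq0⟩⟩ = resInf A N' v := by
    rw [resInf_eq (x := ⟨v0, ⟨y1, y2, hq0⟩⟩) hq0, resInf_eq hq]
  have := SP.redC_of_Vinf (⟨v0, ⟨y1, y2, hq0⟩⟩ : Vinf A N) (by rw [e]; exact hne)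
  rwa [e] at this

theorem if_sp_aux {M' : ℕ} [NeZero M'] (hq5 : 5 ≤ (q : ℕ)) (hc : Nat.Coprime (q : ℕ) M1)
    (hM' : M' = M1 ∨ (¬ 2 ∣ M1 ∧ M' = M1 * 2)) (hdvd : M1 ∣ M')
    (S0 : Setup M' (q : ℕ) 2 (AA q)) (S : Set ℕ) (a : ℕ → ℤ)
    {u t : FN (M1 * (q : ℕ))} (H : NewHyp q M1 hc S a u t)
    (h : NodeOut S0 (S35.incl (Descent.bar_le (Nat.mul_dvd_mul_right hdvd (q : ℕ))) u)) :
    SpOut q M1 S a := by
  haveI : CharP (kA (AA q)) (q : ℕ) := charP_kA q.2 S0.hA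
  haveI : IsAlgClosed (kA (AA q)) := S37.isAlgClosed_kk (AA q)
  have hk : ∀ x : kA (AA q), ∃ b, b ^ (q : ℕ) = x := fun x => IsAlgClosed.exists_pow_nat_eq x q.2.pos
  obtain ⟨c, v, u1, hc0, hv, hres, hP, hnp⟩ := h
  set hle := Descent.bar_le (Nat.mul_dvd_mul_right hdvd (q : ℕ)) with hle_def
  have hle1 : modularFunctionFieldBar M1 ≤ modularFunctionFieldBar M' := Descent.bar_le hdvd
  have hne : resInf (AA q) (M' * (q : ℕ)) v ≠ 0 := by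
    intro h0
    exact hnp ⟨0, by rw [h0, zero_pow q.2.ne_zero]⟩
  -- the function of level `M1 q`
  obtain ⟨v0, hv0, hT⟩ : ∃ v0 : FN (M1 * (q : ℕ)), (v : FN (M' * (q : ℕ))) = S35.incl hle v0 ∧
      ∀ (ℓ : ℕ) (hℓ : ℓ.Prime), ¬ ℓ ∣ M1 * (q : ℕ) → ℓ ∈ S →
        ∃ g : FN (M1 * (q : ℕ)), @Tl (M1 * (q : ℕ)) ℓ _ ⟨hℓ.ne_zero⟩ v0 =
          v0 ^ (a ℓ) * g ^ (q : ℕ) := by
    rcases hv with hv | hv
    · refine ⟨algebraMap Kb _ c * u, ?_, eig_const q.2.pos hc0 H.eig_u⟩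
      rw [hv, map_mul, AlgHom.commutes]
    · refine ⟨algebraMap Kb _ c * Wq hc u, ?_, eig_const q.2.pos hc0 (eig_Wq hc H.eig_u)⟩
      rw [hv, map_mul, AlgHom.commutes, S35.Wq_incl q.2 hc S0.hc hle1 hle]
  have hR : SP.RedC (AA q) (M1 * (q : ℕ)) v0 (resInf (AA q) (M' * (q : ℕ)) v) :=
    redC_of_incl hle v hv0 hne
  have hne1 : resInf (AA q) M' u1 ≠ 0 := by rw [hres]; exact hne
  obtain ⟨n, uz, hh, c', hh0, hc', hz, hO3⟩ := SP.sp_core3 S0 u1 hne1 hP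
  have hO := SP.om_of_core3 u1 hne1 hh0 hc' hO3
  rw [hres] at hO
  rcases hM' with rfl | ⟨h2, rfl⟩
  · refine SP.spOut_of_om' hk hnp hR hT (e := 1) ?_ ⟨n, uz, hz, hO⟩
    intro hd
    have := Int.le_of_dvd one_pos hd
    have h5 : (5 : ℤ) ≤ ((q : ℕ) : ℤ) := by exact_mod_cast hq5
    omega
  · obtain ⟨hz', hO'⟩ := SP.om_desc hq5 h2 S0 hR u1 hres hz hh0 hc' hO3
    refine SP.spOut_of_om' hk hnp hR hT (e := 3) ?_ ⟨n, _, hz', hO'⟩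
    intro hd
    have := Int.le_of_dvd (by norm_num) hd
    have h5 : (5 : ℤ) ≤ ((q : ℕ) : ℤ) := by exact_mod_cast hq5
    omega

/-- **SP + DESC** -/
theorem if_sp (hq5 : 5 ≤ (q : ℕ)) (hc : Nat.Coprime (q : ℕ) M1)
    (S0 : Setup (Nat.lcm M1 2) (q : ℕ) 2 (AA q)) (S : Set ℕ) (a : ℕ → ℤ)
    {u t : FN (M1 * (q : ℕ))} (H : NewHyp q M1 hc S a u t)
    (h : NodeOut S0
      (S35.incl (Descent.bar_le (Nat.mul_dvd_mul_right (Nat.dvd_lcm_left M1 2) (q : ℕ))) u)) :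
    SpOut q M1 S a := by
  refine if_sp_aux hq5 hc ?_ (Nat.dvd_lcm_left M1 2) S0 S a H h
  by_cases h2 : 2 ∣ M1
  · exact Or.inl (Nat.lcm_eq_left h2)
  · refine Or.inr ⟨h2, ?_⟩
    exact Nat.Coprime.lcm_eq_mul ((Nat.Prime.coprime_iff_not_dvd Nat.prime_two).2 h2).symm

end Fermat.Agent.S44.Geo
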