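import Fermat.Agent.S44.Geo.Node
import Fermat.Agent.S44.Geo.IfSP
import Fermat.Agent.S44.Top.Cl

/-!
# S44/GEO : `geo_main` = GEO from `if_node` (NODE), `if_sp` (SP + DESC), `NewHyp.lcm_two` (LVL-UP) and `Top.uc2_false`          (helper2)
-/

set_option autoImplicit false
set_option synthInstance.maxHeartbeats 400000

open HahnSeries ModularCurve AlgebraicCurve Fermat.Agent.S24 Fermat.Agent.S29 Fermat.Agent.S18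
  Fermat.Agent.ES Fermat.Agent.ES.Alg Fermat.Agent.S34.Mod Fermat.Agent.S05 Fermat.Agent.S55.B ExtCitation
  Fermat.Agent.S33 Fermat.Agent.S37 CongruenceSubgroup
open Fermat.Agent.S55 (Dq Iq)

noncomputable section

namespace Fermat.Agent.S44.Geo

variable {q : Nat.Primes} {M1 : ℕ} [NeZero M1] [NeZero (q : ℕ)]

theorem geo_main (hq5 : 5 ≤ (q : ℕ)) (hc : Nat.Coprime (q : ℕ) M1) (S : Set ℕ) (a : ℕ → ℤ)
    (hEis : ∃ ℓ : ℕ, ℓ.Prime ∧ ¬ ℓ ∣ 6 * (M1 * (q : ℕ)) ∧ ℓ ∈ S ∧ ¬ ((q : ℕ) : ℤ) ∣ a ℓ - (ℓ + 1))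
    {u t : FN (M1 * (q : ℕ))} (H : NewHyp q M1 hc S a u t) : SpOut q M1 S a := by
  have hq2 : (q : ℕ) ≠ 2 := by omega
  have S0 : Setup (Nat.lcm M1 2) (q : ℕ) 2 (AA q) :=
    ⟨Or.inl rfl, Nat.dvd_lcm_right M1 2, q.2, coprime_lcm_two q.2 hq2 hc,
      Fermat.Agent.S55.D.liesOverPrime_primeLocalPlace q⟩
  have H' := NewHyp.lcm_two hq2 H
  have hEis' : ∃ ℓ : ℕ, ℓ.Prime ∧ ¬ ℓ ∣ 6 * (Nat.lcm M1 2 * (q : ℕ)) ∧ ℓ ∈ S ∧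
      ¬ ((q : ℕ) : ℤ) ∣ a ℓ - (ℓ + 1) := by
    obtain ⟨ℓ, hℓ, hnd, hS, hn⟩ := hEis
    refine ⟨ℓ, hℓ, fun hd => hnd ?_, hS, hn⟩
    -- `ℓ ∣ 6 * lcm(M1,2) * q ∣ 6 * (M1 * 2) * q`, so `ℓ ∣ 6`, `M1`, `2` or `q`
    have h1 : ℓ ∣ 6 * (M1 * 2 * (q : ℕ)) :=
      hd.trans (Nat.mul_dvd_mul_left 6 (Nat.mul_dvd_mul_right (Nat.lcm_dvd_mul M1 2) _))
    have h2 : 6 * (M1 * 2 * (q : ℕ)) = 2 * (6 * (M1 * (q : ℕ))) := by ring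
    rw [h2] at h1
    rcases (Nat.Prime.dvd_mul hℓ).1 h1 with h3 | h3
    · exact (h3.trans (by norm_num : (2 : ℕ) ∣ 6)).mul_right _
    · exact h3
  rcases if_node S0 hq5 S a hEis' H' with hU | hN
  · exact (Top.uc2_false hq2 _ H' hU).elim
  · exact if_sp hq5 hc S0 S a H hN

end Fermat.Agent.S44.Geo
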