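import Fermat.Agent.S44.IfTop
import Fermat.Agent.S44.Geo.Main

/-!
# S44/GEO : the final statement of GEO (= NODE + TR + MOD + SP), consumed by `S44/Top/Main.lean`

THE ONLY STUB BETWEEN TOP AND `S44.result`.  Owner of the proof: the GEO owner (helper2).  Add your imports here
(anything that does not import `S44/Top/Main.lean`) and replace the `sorry`.
-/

set_option autoImplicit false
set_option synthInstance.maxHeartbeats 400000

open HahnSeries ModularCurve AlgebraicCurve Fermat.Agent.S24 Fermat.Agent.S29 Fermat.Agent.S18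
  Fermat.Agent.ES Fermat.Agent.ES.Alg Fermat.Agent.S34.Mod Fermat.Agent.S05 Fermat.Agent.S55.B ExtCitation
  Fermat.Agent.S33 CongruenceSubgroup
open Fermat.Agent.S55 (Dq Iq)

noncomputable section

namespace Fermat.Agent.S44

variable {q : Nat.Primes} {M1 : ℕ} [NeZero M1] [NeZero (q : ℕ)]

/-- **GEO** (NODE + TR + MOD + SP) -/
theorem geo_final (hq5 : 5 ≤ (q : ℕ)) (hc : Nat.Coprime (q : ℕ) M1) (S : Set ℕ) (a : ℕ → ℤ)
    (hEis : ∃ ℓ : ℕ, ℓ.Prime ∧ ¬ ℓ ∣ 6 * (M1 * (q : ℕ)) ∧ ℓ ∈ S ∧ ¬ ((q : ℕ) : ℤ) ∣ a ℓ - (ℓ + 1))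
    {u t : FN (M1 * (q : ℕ))} (H : NewHyp q M1 hc S a u t) :
    (∃ h : FN (M1 * (q : ℕ)), h ≠ 0 ∧ UC2 (AA q) M1 hc (u * h ^ (q : ℕ))) ∨ RegOut q M1 S a ∨
      SpOut q M1 S a :=
  Or.inr (Or.inr (Geo.geo_main hq5 hc S a hEis H))

end Fermat.Agent.S44
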