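import Mathlib

/-!
# S44 / GEO-CARTIER, abstract part (Mathlib only)          (helper12)

`W` a field of characteristic `p`, `k ⊆ W` perfect, `t ∈ W`, `t ∉ W^p`.  If `y ∈ W` is algebraic over `k(t)` then `y ∈ k(t, y^p)` (MacLane's criterion).

* `li` : `1, t, …, t^(p-1)` are linearly independent over `W^p` (`X^p - t` is irreducible; evaluate through the Frobenius).
* `dec_poly`, `dec_field` : every `c ∈ k(t)` is `∑_{j<p} a_j^p t^j`, `a_j ∈ k(t)`.
* `root_mem` : `n = [k(t)(y) : k(t)]`; the `n` elements `y^(p i)` are linearly independent over `k(t)`: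
  `∑ g_i y^(p i) = ∑_j (∑_i a_ij y^i)^p t^j`; so they span `k(t)(y)`, and `y = ∑ c_i (y^p)^i`.
-/

set_option autoImplicit false

open Polynomial IntermediateField

namespace Fermat.Agent.S44.Geo.Cartier

variable {W : Type*} [Field W] (p : ℕ) [hp : Fact p.Prime] [CharP W p]

/-- `1, t, …, t^(p-1)` are linearly independent over `W^p` if `t ∉ W^p` -/
theorem li {t : W} (ht : ∀ w : W, w ^ p ≠ t) (b : Fin p → W)
    (h : ∑ j : Fin p, b j ^ p * t ^ (j : ℕ) = 0) : ∀ j, b j = 0 := by
  set P : W[X] := ∑ j : Fin p, C (b j) * X ^ (j : ℕ) with hP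
  have hirr : Irreducible (X ^ p - C t : W[X]) := X_pow_sub_C_irreducible_of_prime hp.out ht
  have hdeg : P.degree < p := degree_sum_fin_lt b
  have hev : P.eval₂ (frobenius W p) t = 0 := by
    rw [hP, eval₂_finsetSum, ← h]
    refine Finset.sum_congr rfl fun j _ => ?_
    rw [eval₂_mul, eval₂_C, eval₂_pow, eval₂_X, frobenius_def]
  have hev' : (X ^ p - C t : W[X]).eval₂ (frobenius W p) t = 0 := by
    rw [eval₂_sub, eval₂_pow, eval₂_X, eval₂_C, frobenius_def, sub_self]
  have hP0 : P = 0 := by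
    by_contra hne
    have hnd : ¬ (X ^ p - C t : W[X]) ∣ P := by
      intro hd
      have h1 := degree_le_of_dvd hd hne
      rw [degree_X_pow_sub_C hp.out.pos] at h1
      exact absurd hdeg (not_lt.mpr h1)
    obtain ⟨u, v, huv⟩ := (hirr.coprime_iff_not_dvd).mpr hnd
    have h2 := congrArg (eval₂ (frobenius W p) t) huv
    rw [eval₂_add, eval₂_mul, eval₂_mul, hev, hev', mul_zero, mul_zero, add_zero, eval₂_one] at h2
    exact zero_ne_one h2
  intro j
  have h3 := congrArg (fun Q : W[X] => Q.coeff (j : ℕ)) hP0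
  simp only [hP, finsetSum_coeff, coeff_C_mul, coeff_X_pow, coeff_zero] at h3
  rw [Finset.sum_eq_single j] at h3
  · simpa using h3
  · intro i _ hij
    rw [if_neg (fun e => hij (Fin.ext e.symm)), mul_zero]
  · exact fun h' => absurd (Finset.mem_univ _) h'

variable {k : Type*} [Field k]

/-- decomposition of polynomials over a perfect field -/
theorem dec_poly [CharP k p] (hk : ∀ c : k, ∃ b : k, b ^ p = c) (R : k[X]) :
    ∃ a : Fin p → k[X], R = ∑ j : Fin p, a j ^ p * X ^ (j : ℕ) := by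
  induction R using Polynomial.induction_on' with
  | add R S hR hS =>
    obtain ⟨a, rfl⟩ := hR
    obtain ⟨a', rfl⟩ := hS
    refine ⟨a + a', ?_⟩
    rw [← Finset.sum_add_distrib]
    refine Finset.sum_congr rfl fun j _ => ?_
    rw [Pi.add_apply, add_pow_char, add_mul]
  | monomial n c =>
    obtain ⟨b, rfl⟩ := hk c
    refine ⟨Pi.single ⟨n % p, Nat.mod_lt _ hp.out.pos⟩ (C b * X ^ (n / p)), ?_⟩
    have e : n / p * p + n % p = n := by
      rw [mul_comm]
      exact Nat.div_add_mod n p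
    rw [Finset.sum_eq_single (⟨n % p, Nat.mod_lt _ hp.out.pos⟩ : Fin p)]
    · rw [Pi.single_eq_same, mul_pow, ← pow_mul, mul_assoc, ← pow_add, ← C_pow,
        C_mul_X_pow_eq_monomial]
      show monomial n (b ^ p) = monomial (n / p * p + n % p) (b ^ p)
      rw [e]
    · intro j _ hj
      rw [Pi.single_eq_of_ne hj, zero_pow hp.out.ne_zero, zero_mul]
    · exact fun h' => absurd (Finset.mem_univ _) h'

variable [Algebra k W]

/-- decomposition of the elements of `k(t)` -/
theorem dec_field (hk : ∀ c : k, ∃ b : k, b ^ p = c) (t : W) (c : k⟮t⟯) :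
    ∃ a : Fin p → k⟮t⟯, (c : W) = ∑ j : Fin p, (a j : W) ^ p * t ^ (j : ℕ) := by
  have : CharP k p :=
    (RingHom.charP_iff (algebraMap k W) (algebraMap k W).injective p).mpr inferInstance
  obtain ⟨r, s, hrs⟩ := (mem_adjoin_simple_iff k (c : W)).mp c.2
  obtain ⟨a, ha⟩ := dec_poly p hk (r * s ^ (p - 1))
  have hmem : ∀ Q : k[X], aeval t Q ∈ k⟮t⟯ := fun Q =>
    (mem_adjoin_simple_iff k _).mpr ⟨Q, 1, by simp⟩
  refine ⟨fun j => ⟨aeval t (a j) / aeval t s, div_mem (hmem _) (hmem _)⟩, ?_⟩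
  show (c : W) = ∑ j : Fin p, (aeval t (a j) / aeval t s) ^ p * t ^ (j : ℕ)
  by_cases hs : aeval t s = 0
  · simp only [hrs, hs, div_zero, zero_pow hp.out.ne_zero, zero_mul, Finset.sum_const_zero]
  · have h1 := congrArg (aeval t) ha
    rw [map_mul, map_pow, map_sum] at h1
    have h2 : aeval t r / aeval t s = aeval t r * aeval t s ^ (p - 1) / aeval t s ^ p := by
      rw [div_eq_div_iff hs (pow_ne_zero _ hs)]
      have : aeval t s ^ p = aeval t s ^ (p - 1) * aeval t s := by
        rw [← pow_succ, Nat.sub_add_cancel hp.out.one_le]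
      rw [this]
      ring
    rw [hrs, h2, h1, Finset.sum_div]
    refine Finset.sum_congr rfl fun j _ => ?_
    simp only [map_mul, map_pow, aeval_X, div_pow]
    ring

/-- **the Cartier-type lemma** -/
theorem root_mem (hk : ∀ c : k, ∃ b : k, b ^ p = c) {t : W} (ht : ∀ w : W, w ^ p ≠ t) {y : W}
    (hy : IsAlgebraic k⟮t⟯ y) (κ : IntermediateField k W) (htκ : t ∈ κ) (hz : y ^ p ∈ κ) :
    y ∈ κ := by
  classical
  have hint : IsIntegral k⟮t⟯ y := hy.isIntegral
  obtain ⟨pb, hgen⟩ : ∃ pb : PowerBasis k⟮t⟯ k⟮t⟯⟮y⟯, (pb.gen : W) = y :=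
    ⟨adjoin.powerBasis hint, by
      rw [adjoin.powerBasis_gen]
      exact AdjoinSimple.coe_gen _ _⟩
  have := pb.finite
  have hsm : ∀ (c : k⟮t⟯) (m : ℕ), ((c • pb.gen ^ m : k⟮t⟯⟮y⟯) : W) = (c : W) * y ^ m := by
    intro c m
    have h0 : ((c • pb.gen ^ m : k⟮t⟯⟮y⟯) : W) = (c : W) * (pb.gen : W) ^ m := rfl
    rw [h0, hgen]
  -- the family `y^(p i)`
  have hli : LinearIndependent k⟮t⟯ (fun i : Fin pb.dim => pb.gen ^ (p * (i : ℕ))) := by
    rw [Fintype.linearIndependent_iff]
    intro g hg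
    choose a ha using fun i => dec_field p hk t (g i)
    have h1 : ∑ i : Fin pb.dim, (g i : W) * y ^ (p * (i : ℕ)) = 0 := by
      have := congrArg (fun x : k⟮t⟯⟮y⟯ => (x : W)) hg
      simp only [AddSubmonoidClass.coe_finsetSum, ZeroMemClass.coe_zero, hsm] at this
      exact this
    have h2 : ∑ j : Fin p, (∑ i : Fin pb.dim, (a i j : W) * y ^ (i : ℕ)) ^ p * t ^ (j : ℕ) = 0 := by
      rw [← h1]
      simp_rw [sum_pow_char, ha, Finset.sum_mul]
      rw [Finset.sum_comm]
      refine Finset.sum_congr rfl fun i _ => Finset.sum_congr rfl fun j _ => ?_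
      rw [mul_pow, ← pow_mul, mul_comm (i : ℕ) p]
      ring
    have h3 := li p ht _ h2
    have h4 : ∀ j i, a i j = 0 := by
      intro j
      have h5 : ∑ i : Fin pb.dim, a i j • pb.gen ^ (i : ℕ) = 0 := by
        apply Subtype.ext
        simp only [AddSubmonoidClass.coe_finsetSum, ZeroMemClass.coe_zero, hsm]
        exact h3 j
      have h6 := Fintype.linearIndependent_iff.mp pb.basis.linearIndependent (fun i => a i j)
      simp only [PowerBasis.coe_basis] at h6
      exact h6 h5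
    intro i
    apply Subtype.ext
    rw [ha i]
    simp [h4, hp.out.ne_zero]
  have hspan := hli.span_eq_top_of_card_eq_finrank' (by
    rw [Fintype.card_fin, pb.finrank])
  have hmem : pb.gen ∈ Submodule.span k⟮t⟯ (Set.range fun i : Fin pb.dim => pb.gen ^ (p * (i : ℕ))) := by
    rw [hspan]; trivial
  obtain ⟨c, hc⟩ := (Submodule.mem_span_range_iff_exists_fun _).mp hmem
  have hK : ∀ x : k⟮t⟯, (x : W) ∈ κ := fun x =>
    (adjoin_simple_le_iff.mpr htκ) x.2
  have h7 : y = ∑ i : Fin pb.dim, (c i : W) * (y ^ p) ^ (i : ℕ) := by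
    have := congrArg (fun x : k⟮t⟯⟮y⟯ => (x : W)) hc
    simp only [AddSubmonoidClass.coe_finsetSum, hsm, hgen] at this
    exact this.symm.trans (Finset.sum_congr rfl fun i _ => by rw [← pow_mul])
  rw [h7]
  exact sum_mem fun i _ => mul_mem (hK _) (pow_mem hz _)

end Fermat.Agent.S44.Geo.Cartier
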