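import Fermat.Agent.S34.Mod.Core
import Fermat.Agent.S37.BrMain

/-!
# S44 / GEO-SMOOTH, key [SM-M1] `absorb`, key [SM-M4] `exists_frac`

`absorb`.  `W = Wq S.hc`.  `y = 0` trivial.  `W y ≠ 0`: `exists_unit_scale`: `W y = c * w`, `w ∈ Vinf`; if `c ∈ A` put `a = 1`, else `a = c⁻¹ ∈ A`: in both cases `a ≠ 0`, `a * W y ∈ Vinf`.
`ρ2 E = resInf (W E) = 0` (`res₂_apply`), so `W E = a₀ * z`, `a₀ ∈ 𝔪_A`, `z ∈ Vinf` (`exists_smul_of_resInf_eq_zero`).  `Arch.arch A S.hq S.hA` : `a ∣ a₀ ^ n`, `a₀ ^ n = a * a'`.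
`W (E ^ n * y) = a₀^n z^n W y = a' z^n (a W y) ∈ Vinf`; `E ^ n * y ∈ Vinf` (`C0M_le`, `mem_Vinf_of_mem_VV`).  So `E ^ n * y ∈ V2 = VV A τM` (`VV_eq`, `mem_V2`) `= VV A (θM b)`
(`KL.VV_inv`), and it is in `B0` (`KL.C0_le_B0`); `KL.mem_C0_of_mem_B0_VV A (ch5_transcendental S b) (ch5_isGen S b)`.

`exists_frac`.  `F = Frac B0` (`S37.isFractionRing_B0 (ch5_transcendental S b) (ch5_isGen S b)`): `u = a₀ / c₀`, `a₀ c₀ ∈ B0`, `c₀ ≠ 0`.  `exists_unit_scale c₀`: `c₀ = λ w`, `w` a unit of `Vinf`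
(`resInf w ≠ 0`), and `w = λ⁻¹ c₀ ∈ B0`, `u w = λ⁻¹ a₀ ∈ B0 ∩ Vinf`.  `absorb` twice: `E^n w`, `E^m (u w) ∈ C0`; `c := E^(n+m) w`, `a := E^(n+m) u w`; `ρ1 c = (ρ1 E)^(n+m) resInf w ≠ 0`
(`res₁_apply`: `ρ1 = resInf` on `C0M b`), the same for `a`.
-/

set_option autoImplicit false
set_option synthInstance.maxHeartbeats 400000
set_option linter.unusedSectionVars false

open HahnSeries ModularCurve AlgebraicCurve Polynomial Fermat.Agent.S24 Fermat.Agent.S29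
  Fermat.Agent.S18 Fermat.Agent.ES Fermat.Agent.ES.Alg Fermat.Agent.S34.T Fermat.Agent.S34.Mod
  Fermat.Agent.S37

noncomputable section

namespace Fermat.Agent.S44.Geo

variable {M1 q r : ℕ} [NeZero M1] [NeZero q] [NeZero r] {A : ValuationSubring Kb}
variable (S : Setup M1 q r A)

/-- every function becomes integral after multiplication by a nonzero constant of `A` -/
theorem absorbAux_scale {N : ℕ} [NeZero N] (y : FN N) :
    ∃ a : A, a ≠ 0 ∧ algebraMap Kb (FN N) (a : Kb) * y ∈ Vinf A N := by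
  by_cases hy : y = 0
  · exact ⟨1, one_ne_zero, by rw [hy, mul_zero]; exact zero_mem _⟩
  obtain ⟨c, w, z1, z2, hc, hxw, hw, -, -, -⟩ := exists_unit_scale (A := A) y hy
  have hwV : w ∈ Vinf A N := ⟨_, _, hw⟩
  rcases A.mem_or_inv_mem c with h | h
  · refine ⟨1, one_ne_zero, ?_⟩
    rw [hxw]
    exact mul_mem (algebraMap_mem_Vinf 1) (mul_mem (algebraMap_mem_Vinf ⟨c, h⟩) hwV)
  · refine ⟨⟨c⁻¹, h⟩, ?_, ?_⟩
    · intro h0
      exact inv_ne_zero hc (congrArg Subtype.val h0)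
    · rw [hxw, ← mul_assoc, ← map_mul, inv_mul_cancel₀ hc, map_one, one_mul]
      exact hwV

theorem absorbAux_mem_C0 (b : Bool) {y : FN (M1 * q)} (hB : y ∈ KL.B0 Kb (S.θM b) (FN (M1 * q)))
    (h1 : y ∈ Vinf A (M1 * q)) (h2 : Wq S.hc y ∈ Vinf A (M1 * q)) :
    y ∈ KL.C0 A (S.θM b) (FN (M1 * q)) := by
  have hV : y ∈ KL.VV A S.τM (FN (M1 * q)) := by
    rw [VV_eq S, mem_V2]
    exact ⟨h1, h2⟩
  have hV' : y ∈ KL.VV A (S.θM b) (FN (M1 * q)) := by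
    cases b
    · exact hV
    · show y ∈ KL.VV A S.τM⁻¹ _
      rw [KL.VV_inv _ (transcendental_τM S)]
      exact hV
  exact KL.mem_C0_of_mem_B0_VV _ (ch5_transcendental S b) (ch5_isGen S b) hB hV'

/-- [SM-M1] powers of `E` absorb the poles along the component `0` -/
theorem absorb (b : Bool) (E : KL.C0 A (S.θM b) (FN (M1 * q))) (hE : ρ2 S b E = 0)
    (y : FN (M1 * q)) (hB : y ∈ KL.B0 Kb (S.θM b) (FN (M1 * q))) (hV : y ∈ Vinf A (M1 * q)) :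
    ∃ n : ℕ, (E : FN (M1 * q)) ^ n * y ∈ KL.C0 A (S.θM b) (FN (M1 * q)) := by
  obtain ⟨a, ha0, ha⟩ := absorbAux_scale (A := A) (Wq S.hc y)
  have hEV : (E : FN (M1 * q)) ∈ KL.VV A S.τM (FN (M1 * q)) := C0M_le S b E.2
  have hWE : resInf A (M1 * q) ⟨Wq S.hc (E : FN (M1 * q)), Wq_mem_Vinf_of_mem_VV S hEV⟩ = 0 := hE
  obtain ⟨a₀, ha₀, z, hz, e⟩ := exists_smul_of_resInf_eq_zero hWE
  obtain ⟨n, a', hn⟩ := Arch.arch A S.hq S.hA a₀ ha₀ a ha0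
  refine ⟨n, absorbAux_mem_C0 S b (mul_mem (pow_mem (KL.C0_le_B0 _ E.2) n) hB)
    (mul_mem (pow_mem (mem_Vinf_of_mem_VV S hEV) n) hV) ?_⟩
  have e' : Wq S.hc (E : FN (M1 * q)) = algebraMap Kb (FN (M1 * q)) (a₀ : Kb) * z := e
  have hn' : ((a₀ : Kb)) ^ n = (a : Kb) * (a' : Kb) := congrArg Subtype.val hn
  have e2 : Wq S.hc ((E : FN (M1 * q)) ^ n * y) =
      algebraMap Kb (FN (M1 * q)) (a' : Kb) * z ^ n * (algebraMap Kb (FN (M1 * q)) (a : Kb) * Wq S.hc y) := by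
    rw [map_mul, map_pow, e', mul_pow, ← map_pow, hn', map_mul]
    ring
  rw [e2]
  exact mul_mem (mul_mem (algebraMap_mem_Vinf a') (pow_mem hz n)) ha

/-- [SM-M3] fractions -/
theorem exists_frac (b : Bool) (E : KL.C0 A (S.θM b) (FN (M1 * q))) (hE2 : ρ2 S b E = 0)
    (hE1 : ρ1 S b E ≠ 0) (u : Vinf A (M1 * q)) (hu : resInf A (M1 * q) u ≠ 0) :
    ∃ a c : KL.C0 A (S.θM b) (FN (M1 * q)), ρ1 S b a ≠ 0 ∧ ρ1 S b c ≠ 0 ∧
      (u : FN (M1 * q)) * c = a := by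
  have hfr := isFractionRing_B0 (F := FN (M1 * q)) (ch5_transcendental S b) (ch5_isGen S b)
  obtain ⟨a₀, c₀, hc₀, hac⟩ := IsFractionRing.div_surjective (A := KL.B0 Kb (S.θM b) (FN (M1 * q)))
    (u : FN (M1 * q))
  have hc0 : (c₀ : FN (M1 * q)) ≠ 0 := by
    intro h
    exact nonZeroDivisors.ne_zero hc₀ (Subtype.ext h)
  have hac' : (a₀ : FN (M1 * q)) / (c₀ : FN (M1 * q)) = u := hac
  obtain ⟨l, w, z1, z2, hl, hxw, hw, h1, -, -⟩ := exists_unit_scale (A := A) (c₀ : FN (M1 * q)) hc0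
  have hwV : w ∈ Vinf A (M1 * q) := ⟨_, _, hw⟩
  have hwi : w⁻¹ ∈ Vinf A (M1 * q) := ⟨_, _, hw.inv h1⟩
  have hl' : algebraMap Kb (FN (M1 * q)) l ≠ 0 := by simpa using hl
  have hw0 : w ≠ 0 := by
    rintro rfl
    rw [mul_zero] at hxw
    exact hc0 hxw
  have hres : resInf A (M1 * q) ⟨w, hwV⟩ ≠ 0 := by
    intro h
    have h2 : (⟨w, hwV⟩ : Vinf A (M1 * q)) * ⟨w⁻¹, hwi⟩ = 1 := Subtype.ext (mul_inv_cancel₀ hw0)
    have h3 := congrArg (resInf A (M1 * q)) h2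
    rw [map_mul, h, zero_mul, map_one] at h3
    exact zero_ne_one h3
  have hwB : w ∈ KL.B0 Kb (S.θM b) (FN (M1 * q)) := by
    have : w = algebraMap Kb (FN (M1 * q)) l⁻¹ * c₀ := by
      rw [hxw, ← mul_assoc, ← map_mul, inv_mul_cancel₀ hl, map_one, one_mul]
    rw [this]
    exact mul_mem (KL.SatB.const_mem_B0 l⁻¹) c₀.2
  have huw : (u : FN (M1 * q)) * w = algebraMap Kb (FN (M1 * q)) l⁻¹ * a₀ := by
    rw [← hac', hxw, map_inv₀]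
    field_simp
  have huwB : (u : FN (M1 * q)) * w ∈ KL.B0 Kb (S.θM b) (FN (M1 * q)) := by
    rw [huw]
    exact mul_mem (KL.SatB.const_mem_B0 l⁻¹) a₀.2
  obtain ⟨n, hn⟩ := absorb S b E hE2 w hwB hwV
  obtain ⟨m, hm⟩ := absorb S b E hE2 _ huwB (mul_mem u.2 hwV)
  have hc : (E : FN (M1 * q)) ^ (n + m) * w ∈ KL.C0 A (S.θM b) (FN (M1 * q)) := by
    have : (E : FN (M1 * q)) ^ (n + m) * w = (E : FN (M1 * q)) ^ m * ((E : FN (M1 * q)) ^ n * w) := by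
      rw [_root_.pow_add]; ring
    rw [this]
    exact mul_mem (pow_mem E.2 m) hn
  have ha : (E : FN (M1 * q)) ^ (n + m) * ((u : FN (M1 * q)) * w) ∈ KL.C0 A (S.θM b) (FN (M1 * q)) := by
    have : (E : FN (M1 * q)) ^ (n + m) * ((u : FN (M1 * q)) * w) =
        (E : FN (M1 * q)) ^ n * ((E : FN (M1 * q)) ^ m * ((u : FN (M1 * q)) * w)) := by
      rw [_root_.pow_add]; ring
    rw [this]
    exact mul_mem (pow_mem E.2 n) hm
  have hEV : (E : FN (M1 * q)) ∈ Vinf A (M1 * q) := mem_Vinf_of_mem_VV S (C0M_le S b E.2)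
  have hρE : ρ1 S b E = resInf A (M1 * q) ⟨E, hEV⟩ := rfl
  refine ⟨⟨_, ha⟩, ⟨_, hc⟩, ?_, ?_, ?_⟩
  · have e : ρ1 S b ⟨_, ha⟩ = resInf A (M1 * q) (⟨E, hEV⟩ ^ (n + m) * (u * ⟨w, hwV⟩)) := rfl
    rw [e, map_mul, map_pow, map_mul, ← hρE]
    exact mul_ne_zero (pow_ne_zero _ hE1) (mul_ne_zero hu hres)
  · have e : ρ1 S b ⟨_, hc⟩ = resInf A (M1 * q) (⟨E, hEV⟩ ^ (n + m) * ⟨w, hwV⟩) := rfl
    rw [e, map_mul, map_pow, ← hρE]
    exact mul_ne_zero (pow_ne_zero _ hE1) hres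
  · show (u : FN (M1 * q)) * ((E : FN (M1 * q)) ^ (n + m) * w) =
      (E : FN (M1 * q)) ^ (n + m) * ((u : FN (M1 * q)) * w)
    ring

end Fermat.Agent.S44.Geo
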