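import Fermat.Agent.S44.Geo.SmoothAbs
import Fermat.Agent.S44.Geo.SmoothM1

/-!
# S44 / GEO-SMOOTH, key [SM-M2] : `rhoL`, `locHyp`

* `jBar_injective`: `ρ S b c = 0` ⟹ `SmV A τ1 c` (`SmV1_iff`) ⟹ `SmV A (θ1 b) c` (`g2_SmV_iff`) ⟹ `Sm0` (`KL.Sm0_of_SmV A (g2_transcendental S b) (g2_isGen S b)`) ⟹ `mk c = 0` (`KL.mk_eq_zero_iff`).
* `exists_factor`: `e := RingEquiv.ofBijective j.rangeRestrict`, `g := e.symm ∘ f.codRestrict j.range`.
* `locHyp` (compare `S37.chartHyp`, `S37/BrHyp.lean`, from which `A_mem`, `fg`, `span` can be copied):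
  `fg`: `FgC0 A (θM b) F` from `WBasis.fgC0` + `exists_wbasis` + `(VV_eq_and_onb S).2` (`ONB.inv` for `b = true`) + `fgBarM S b` + `Arch.arch A S.hq S.hA`;
  `rd_surj`: `mk c' = rhoL (al c')` by `jBar_injective`, `jBar_rhoL`, `ρ1_alpha`, `alpha_mem_C0`;
  `rd_alg`: apply `jBar_injective`; `ρ1 (const a) = C (residue a)` (`res₁_cst`/`resInf_algebraMap`) and `jBar (algebraMap k Cbar (residue a)) = ρ (toC0 (C a)) = C (residue a)` (`ch5_ρ_C`, `KL.algebraMap_redP`, `redP_C`);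
  `ker`: `rhoL y = 0` ⟹ `ρ1 y = 0` ⟹ `ρ1 (E y) = 0 = ρ2 (E y)` ⟹ `Sm0 (E y)` (`ch5_ker`);
  `sat`: `a = 0`: `c = 0`.  `a ≠ 0`: `z := a⁻¹ c = b f⁻¹ ∈ B0 ∩ Vinf` (`inv_mem_Vinf`, `ρ1 f = resInf f ≠ 0`); `absorb`: `E^n z ∈ C0`;
  `resK` = `S37.resK_B0`; `resk` = `S37.resk_Cbar` with the `GoodBasis` of `g2_data S b`.
-/

set_option autoImplicit false
set_option synthInstance.maxHeartbeats 400000
set_option linter.unusedSectionVars false

open HahnSeries ModularCurve AlgebraicCurve Polynomial Fermat.Agent.S24 Fermat.Agent.S29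
  Fermat.Agent.S18 Fermat.Agent.ES Fermat.Agent.ES.Alg Fermat.Agent.S34.T Fermat.Agent.S34.Mod
  Fermat.Agent.S37

noncomputable section

namespace Fermat.Agent.S44.Geo

section Abs

variable {K : Type*} [Field K] {A : ValuationSubring K}
variable {L : Type*} [Field L] [Algebra K L] {τ : L}
variable {F : Type*} [Field F] [Algebra L F] [Algebra K F] [IsScalarTower K L F]

/-- the field `fg` of `S37.chartHyp` -/
theorem fg_CC (hfg : KL.FgC0 A τ F) : ∃ G : Finset ↥(KL.B0 K τ F), (∀ g ∈ G, g ∈ CC A τ F) ∧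
    ∀ y ∈ CC A τ F, y ∈ Subring.closure
      (Set.range (fun a : A => algebraMap K ↥(KL.B0 K τ F) (a : K)) ∪ (G : Set ↥(KL.B0 K τ F))) := by
  classical
  obtain ⟨G0, hG0, hspan⟩ := hfg
  let gB : {g // g ∈ G0} → ↥(KL.B0 K τ F) := fun g => ⟨g.1, KL.C0_le_B0 A (hG0 g.1 g.2)⟩
  refine ⟨insert (evB A τ F X) (G0.attach.image gB), ?_, ?_⟩
  · intro g hg
    rw [Finset.mem_insert, Finset.mem_image] at hg
    rcases hg with rfl | ⟨g', -, rfl⟩
    · exact KL.evE_mem_C0 A τ F X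
    · exact hG0 g'.1 g'.2
  · intro y hy
    set S := Subring.closure (Set.range (fun a : A => algebraMap K ↥(KL.B0 K τ F) (a : K)) ∪
      ((insert (evB A τ F X) (G0.attach.image gB) : Finset ↥(KL.B0 K τ F)) : Set ↥(KL.B0 K τ F)))
      with hS
    obtain ⟨c, hc⟩ := hspan (y : F) hy
    have hy' : y = ∑ g ∈ G0.attach, evB A τ F (c g.1) * gB g := by
      apply Subtype.ext
      rw [hc, AddSubmonoidClass.coe_finsetSum, ← Finset.sum_attach]
      rfl
    rw [hy']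
    refine S.sum_mem fun g _ => S.mul_mem (evB_mem_closure S ?_ ?_ _) ?_
    · exact fun a => Subring.subset_closure (Or.inl ⟨a, rfl⟩)
    · exact Subring.subset_closure (Or.inr (by simp))
    · refine Subring.subset_closure (Or.inr ?_)
      rw [Finset.mem_coe, Finset.mem_insert, Finset.mem_image]
      exact Or.inr ⟨g, Finset.mem_attach _ _, rfl⟩

/-- the field `span` of `S37.chartHyp` -/
theorem span_CC (b : ↥(KL.B0 K τ F)) :
    ∃ a : A, a ≠ 0 ∧ algebraMap K ↥(KL.B0 K τ F) (a : K) * b ∈ CC A τ F := by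
  obtain ⟨a, ha, hab⟩ := KL.exists_smul_mem_C0 A b.2
  refine ⟨a, ha, ?_⟩
  rw [evE_C_eq] at hab
  exact hab

end Abs

variable {M1 q r : ℕ} [NeZero M1] [NeZero q] [NeZero r] {A : ValuationSubring Kb}
variable (S : Setup M1 q r A)

/-- the reduction at level `M1` on `Cbar` -/
def jBar (b : Bool) : KL.Cbar A (S.θ1 b) (FN M1) →+* LaurentSeries (kA A) :=
  Ideal.Quotient.lift (KL.mC0 A (S.θ1 b) (FN M1)) (ρ S b)
    (fun y hy => ch5_ρ_sm S b y ((KL.mem_mC0 A (S.θ1 b) (FN M1)).mp hy))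

@[simp] theorem jBar_mk (b : Bool) (c : KL.C0 A (S.θ1 b) (FN M1)) :
    jBar S b (Ideal.Quotient.mk _ c) = ρ S b c := rfl

/-- [SM-M2] -/
theorem jBar_injective (b : Bool) : Function.Injective (jBar S b) := by
  rw [injective_iff_map_eq_zero]
  intro X hX
  obtain ⟨c, rfl⟩ := Ideal.Quotient.mk_surjective X
  rw [jBar_mk] at hX
  rw [KL.mk_eq_zero_iff]
  refine KL.Sm0_of_SmV A (g2_transcendental S b) (g2_isGen S b) c.2 ?_
  rw [g2_SmV_iff]
  exact (SmV1_iff S (Subring.inclusion (C01_le S b) c)).mpr hX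

/-- [SM-M2] abstract nonsense -/
theorem exists_factor {R Λ Ω : Type*} [CommRing R] [CommRing Λ] [CommRing Ω] (f : R →+* Ω)
    (j : Λ →+* Ω) (hj : Function.Injective j) (h : ∀ y, ∃ z, j z = f y) :
    ∃ g : R →+* Λ, ∀ y, j (g y) = f y := by
  choose g hg using h
  exact ⟨{ toFun := g
           map_one' := hj (by rw [hg, map_one, map_one])
           map_mul' := fun x y => hj (by rw [hg, map_mul, map_mul, hg, hg])
           map_zero' := hj (by rw [hg, map_zero, map_zero])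
           map_add' := fun x y => hj (by rw [hg, map_add, map_add, hg, hg]) }, hg⟩

/-- the reduction `ρ1` with values in `Cbar` of level `M1` -/
def rhoL (b : Bool) : CC A (S.θM b) (FN (M1 * q)) →+* KL.Cbar A (S.θ1 b) (FN M1) :=
  (exists_factor ((ρ1 S b).comp (CCtoC0 A (S.θM b) (FN (M1 * q)))) (jBar S b) (jBar_injective S b)
    (fun y => by
      obtain ⟨c', hc'⟩ := exists_level1₁ S b (CCtoC0 A (S.θM b) (FN (M1 * q)) y)
      exact ⟨Ideal.Quotient.mk _ c', hc'⟩)).choose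

theorem jBar_rhoL (b : Bool) (y : CC A (S.θM b) (FN (M1 * q))) :
    jBar S b (rhoL S b y) = ρ1 S b (CCtoC0 A (S.θM b) (FN (M1 * q)) y) :=
  (exists_factor ((ρ1 S b).comp (CCtoC0 A (S.θM b) (FN (M1 * q)))) (jBar S b) (jBar_injective S b)
    (fun y => by
      obtain ⟨c', hc'⟩ := exists_level1₁ S b (CCtoC0 A (S.θM b) (FN (M1 * q)) y)
      exact ⟨Ideal.Quotient.mk _ c', hc'⟩)).choose_spec y

theorem fgC0M (b : Bool) : KL.FgC0 A (S.θM b) (FN (M1 * q)) := by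
  obtain ⟨o⟩ := (VV_eq_and_onb S).2
  have hA := Arch.arch A S.hq S.hA
  cases b
  · obtain ⟨wb⟩ := exists_wbasis (ch5_transcendental S false) (ch5_isGen S false) o (fgBarM S false)
    exact wb.fgC0 (ch5_transcendental S false) (ch5_isGen S false) hA
  · obtain ⟨wb⟩ := exists_wbasis (ch5_transcendental S true) (ch5_isGen S true)
      (o.inv (transcendental_τM S)) (fgBarM S true)
    exact wb.fgC0 (ch5_transcendental S true) (ch5_isGen S true) hA

set_option maxHeartbeats 3200000 in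
/-- [SM-M2] the half chart -/
theorem locHyp (b : Bool) [IsDedekindDomain ↥(KL.B0 Kb (S.θM b) (FN (M1 * q)))]
    [IsDedekindDomain (KL.Cbar A (S.θ1 b) (FN M1))]
    (E : CC A (S.θM b) (FN (M1 * q)))
    (hE2 : ρ2 S b (CCtoC0 A (S.θM b) (FN (M1 * q)) E) = 0)
    (hE1 : ρ1 S b (CCtoC0 A (S.θM b) (FN (M1 * q)) E) ≠ 0) :
    LocHyp A (IsLocalRing.residue A) (CC A (S.θM b) (FN (M1 * q))) (rhoL S b) E := by
  classical
  have hτ := ch5_transcendental S b
  have hgen := ch5_isGen S b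
  have hAmem : ∀ a : A, algebraMap Kb ↥(KL.B0 Kb (S.θM b) (FN (M1 * q))) (a : Kb) ∈
      CC A (S.θM b) (FN (M1 * q)) := fun a => algebraMap_mem_C0 A (S.θM b) (FN (M1 * q)) a
  have hfg := fgC0M S b
  obtain ⟨n, gb, -, -, -⟩ := g2_data S b
  refine ⟨hAmem, ?_, ?_, IsLocalRing.residue_surjective, ?_, ?_, ?_, ?_,
    resK_B0 hτ hgen, resk_Cbar (g2_transcendental S b) (g2_isGen S b) gb, ?_⟩
  · exact fg_CC hfg
  · exact span_CC
  · -- rd_surj
    intro X
    obtain ⟨c', rfl⟩ := Ideal.Quotient.mk_surjective X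
    refine ⟨ofC0 A (S.θM b) (FN (M1 * q)) ⟨_, alpha_mem_C0 S b c'⟩, jBar_injective S b ?_⟩
    rw [jBar_rhoL, CCtoC0_ofC0, ρ1_alpha, jBar_mk]
  · -- rd_alg
    intro a
    apply jBar_injective S b
    have h1 : algebraMap (KL.kk A) (KL.Cbar A (S.θ1 b) (FN M1)) (IsLocalRing.residue A a) =
        Ideal.Quotient.mk (KL.mC0 A (S.θ1 b) (FN M1)) (KL.toC0 A (S.θ1 b) (FN M1) (C a)) := by
      rw [← KL.algebraMap_redP, KL.redP_C]
      rfl
    rw [jBar_rhoL, h1, jBar_mk, ← ch5_ρ1_ev]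
    congr 1
    exact Subtype.ext (evE_C_eq A (S.θM b) (FN (M1 * q)) a).symm
  · -- ker
    intro y hy
    have h1 : ρ1 S b (CCtoC0 A (S.θM b) (FN (M1 * q)) y) = 0 := by
      rw [← jBar_rhoL, hy, map_zero]
    obtain ⟨a, ha, y0, hy0, hyy⟩ := ch5_ker S b (CCtoC0 A (S.θM b) (FN (M1 * q)) (E * y))
      (by rw [map_mul, map_mul, h1, mul_zero]) (by rw [map_mul, map_mul, hE2, zero_mul])
    refine ⟨a, (IsLocalRing.residue_eq_zero_iff a).mpr ha,
      ofC0 A (S.θM b) (FN (M1 * q)) ⟨y0, hy0⟩, ?_⟩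
    apply Subtype.ext
    rw [evE_C_eq] at hyy
    exact hyy
  · -- sat
    intro a f c b' hf hfc
    have hfc' : ((f : ↥(KL.B0 Kb (S.θM b) (FN (M1 * q)))) : FN (M1 * q)) *
        ((c : ↥(KL.B0 Kb (S.θM b) (FN (M1 * q)))) : FN (M1 * q)) =
        algebraMap Kb (FN (M1 * q)) (a : Kb) *
          ((b' : ↥(KL.B0 Kb (S.θM b) (FN (M1 * q)))) : FN (M1 * q)) := congrArg Subtype.val hfc
    have hf0 : ((f : ↥(KL.B0 Kb (S.θM b) (FN (M1 * q)))) : FN (M1 * q)) ≠ 0 := by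
      intro h0
      apply hf
      have : f = 0 := Subtype.ext (Subtype.ext h0)
      rw [this, map_zero]
    by_cases ha : a = 0
    · refine ⟨0, 0, ?_⟩
      apply Subtype.ext
      rw [ha] at hfc'
      simp only [ZeroMemClass.coe_zero, map_zero, zero_mul, mul_eq_zero] at hfc'
      rcases hfc' with h1 | h1
      · exact absurd h1 hf0
      · have : (c : ↥(KL.B0 Kb (S.θM b) (FN (M1 * q)))) = 0 := Subtype.ext h1
        rw [this]; simp
    · have haK : (a : Kb) ≠ 0 := fun h0 => ha (Subtype.ext h0)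
      have haF : algebraMap Kb (FN (M1 * q)) (a : Kb) ≠ 0 := (_root_.map_ne_zero _).mpr haK
      set z : FN (M1 * q) := algebraMap Kb (FN (M1 * q)) (a : Kb)⁻¹ *
        ((c : ↥(KL.B0 Kb (S.θM b) (FN (M1 * q)))) : FN (M1 * q)) with hz
      have hzB : z ∈ KL.B0 Kb (S.θM b) (FN (M1 * q)) :=
        (KL.B0 Kb (S.θM b) (FN (M1 * q))).mul_mem (algebraMap_mem_B0 (S.θM b) (FN (M1 * q)) _)
          (c : ↥(KL.B0 Kb (S.θM b) (FN (M1 * q)))).2
      have hfV : ((f : ↥(KL.B0 Kb (S.θM b) (FN (M1 * q)))) : FN (M1 * q)) ∈ Vinf A (M1 * q) :=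
        mem_Vinf_of_mem_VV S (C0M_le S b f.2)
      have hres : resInf A (M1 * q) ⟨_, hfV⟩ ≠ 0 := by
        intro h0
        apply hf
        apply jBar_injective S b
        rw [jBar_rhoL, map_zero]
        exact h0
      have hfinv := inv_mem_Vinf hres
      have hzeq : z = ((b' : ↥(KL.B0 Kb (S.θM b) (FN (M1 * q)))) : FN (M1 * q)) *
          ((f : ↥(KL.B0 Kb (S.θM b) (FN (M1 * q)))) : FN (M1 * q))⁻¹ := by
        rw [hz, map_inv₀, eq_mul_inv_iff_mul_eq₀ hf0, mul_assoc,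
          mul_comm _ ((f : ↥(KL.B0 Kb (S.θM b) (FN (M1 * q)))) : FN (M1 * q)),
          hfc', ← mul_assoc, inv_mul_cancel₀ haF, one_mul]
      have hzV : z ∈ Vinf A (M1 * q) := by
        rw [hzeq]
        exact (Vinf A (M1 * q)).mul_mem (mem_Vinf_of_mem_VV S (C0M_le S b b'.2)) hfinv
      obtain ⟨n, hn⟩ := absorb S b (CCtoC0 A (S.θM b) (FN (M1 * q)) E) hE2 z hzB hzV
      refine ⟨n, ofC0 A (S.θM b) (FN (M1 * q)) ⟨_, hn⟩, ?_⟩
      apply Subtype.ext
      show ((E : ↥(KL.B0 Kb (S.θM b) (FN (M1 * q)))) : FN (M1 * q)) ^ n *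
          ((c : ↥(KL.B0 Kb (S.θM b) (FN (M1 * q)))) : FN (M1 * q)) =
        algebraMap Kb (FN (M1 * q)) (a : Kb) *
          (((E : ↥(KL.B0 Kb (S.θM b) (FN (M1 * q)))) : FN (M1 * q)) ^ n * z)
      rw [hz, map_inv₀]
      field_simp
  · -- hE
    intro h0
    apply hE1
    rw [← jBar_rhoL, h0, map_zero]

end Fermat.Agent.S44.Geo
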