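import Fermat.Agent.S44.Geo.SmoothFin
import Fermat.Agent.S44.Geo.SmoothM2

/-!
# S44 / GEO-SMOOTH : `n ∣ div u ⟹ n ∣ ord_x (red_∞ u)` at the points `x` of the component `∞` of `X₀(M1 q)` mod `q` which are not crossing points  (helper1)

`S : Setup M1 q r A`, `F = FN (M1 q)`.  Charts `b : Bool` (`θM b = t^{±1}`), `C0M b = C0 A (θM b) F`, `ρ1 ρ2 : C0M b → k((Q))` the two reductions,
`ρ : C0 A (θ1 b) (FN M1) → k((Q))` the reduction at level `M1`; `ρ1 (C0M b) = ρ (C0 (θ1 b))` (S34 `exists_level1₁`, `ρ1_alpha`).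
`(O, red, Ft)` : ANY reduction datum at level `M1` (`S37.RedData A S.τ1 (FN M1) O red`), as in `S37.exists_reduction` / `S44.SP`.

* `absorb`   : `y ∈ B0 ∩ Vinf`, `E ∈ C0M b`, `ρ2 E = 0` ⟹ `E ^ n * y ∈ C0M b` for some `n`.
* `rhoL b`   : `CC A (θM b) F →+* Cbar A (θ1 b) (FN M1)`, the reduction `ρ1` with values in `Λ = Cbar` (level `M1`).
* `locHyp`   : `Geo.LocHyp` for `(B0, CC, Λ, rhoL, E)`.
* `IsCross x`: `x` is a crossing point: every `E` with `ρ2 E = 0` vanishes at `x`.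
* `smooth`   : the theorem.  For the component `0` apply it to `Wq u` (`PDiv.Wq`).
-/

set_option autoImplicit false
set_option synthInstance.maxHeartbeats 400000
set_option linter.unusedSectionVars false
set_option linter.style.haveILetI false
set_option maxHeartbeats 1600000

open HahnSeries ModularCurve AlgebraicCurve Polynomial Fermat.Agent.S24 Fermat.Agent.S29
  Fermat.Agent.S18 Fermat.Agent.ES Fermat.Agent.ES.Alg Fermat.Agent.S34.T Fermat.Agent.S34.Mod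
  Fermat.Agent.S37

noncomputable section

namespace Fermat.Agent.S44.Geo

variable {M1 q r : ℕ} [NeZero M1] [NeZero q] [NeZero r] {A : ValuationSubring Kb}
variable (S : Setup M1 q r A)

variable {Ft : Type} [Field Ft] [Algebra (KL.kk A) Ft] {O : Subring (FN M1)} {red : O →+* Ft}

theorem C01_le_O (h : RedData A S.τ1 (FN M1) O red) (b : Bool) :
    KL.C0 A (S.θ1 b) (FN M1) ≤ O := by
  rw [h.hO, VV1_eq S]
  exact C01_le S b

/-- `x` lies in the chart `b` -/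
def InChart (h : RedData A S.τ1 (FN M1) O red) (b : Bool) (x : Place (KL.kk A) Ft) : Prop :=
  ∀ c : KL.C0 A (S.θ1 b) (FN M1), red ⟨c, C01_le_O S h b c.2⟩ ∈ x.toValuationSubring

/-- `x` is a crossing point: all functions which vanish on the other component vanish at `x`
(`Glue.Van x f` : `f = 0` or `f⁻¹ ∉ O_x`) -/
def IsCross (h : RedData A S.τ1 (FN M1) O red) (x : Place (KL.kk A) Ft) : Prop :=
  ∀ b : Bool, InChart S h b x → ∀ (E : KL.C0 A (S.θM b) (FN (M1 * q)))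
    (E1 : KL.C0 A (S.θ1 b) (FN M1)), ρ2 S b E = 0 → ρ1 S b E = ρ S b E1 →
    Glue.Van x (red ⟨E1, C01_le_O S h b E1.2⟩)

theorem O_le_Vinf (h : RedData A S.τ1 (FN M1) O red) : O ≤ Vinf A M1 := by
  rw [h.hO, VV1_eq S]

/-- the `q`-expansion reduction on `O` -/
def rO (h : RedData A S.τ1 (FN M1) O red) : O →+* LaurentSeries (kA A) :=
  (resInf A M1).comp (Subring.inclusion (O_le_Vinf S h))

theorem rO_mk (h : RedData A S.τ1 (FN M1) O red) (b : Bool) (y : KL.C0 A (S.θ1 b) (FN M1)) :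
    rO S h ⟨y, C01_le_O S h b y.2⟩ = ρ S b y := rfl

theorem red_eq_zero_iff (h : RedData A S.τ1 (FN M1) O red) (z : O) :
    red z = 0 ↔ rO S h z = 0 :=
  (h.ker z).trans (SmV1_iff S (Subring.inclusion (O_le_Vinf S h) z))

theorem red_eq_of_rO_eq (h : RedData A S.τ1 (FN M1) O red) (z z' : O)
    (e : rO S h z = rO S h z') : red z = red z' := by
  rw [← sub_eq_zero, ← map_sub, red_eq_zero_iff S h, map_sub, e, sub_self]

theorem red_eq_of_rho_eq (h : RedData A S.τ1 (FN M1) O red) (b : Bool)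
    (y y' : KL.C0 A (S.θ1 b) (FN M1)) (e : ρ S b y = ρ S b y') :
    red ⟨y, C01_le_O S h b y.2⟩ = red ⟨y', C01_le_O S h b y'.2⟩ :=
  red_eq_of_rO_eq S h ⟨y, C01_le_O S h b y.2⟩ ⟨y', C01_le_O S h b y'.2⟩ e

theorem red_ne_zero_of_rho (h : RedData A S.τ1 (FN M1) O red) (b : Bool)
    (y : KL.C0 A (S.θ1 b) (FN M1)) (e : ρ S b y ≠ 0) : red ⟨y, C01_le_O S h b y.2⟩ ≠ 0 :=
  fun h0 => e ((red_eq_zero_iff S h ⟨y, C01_le_O S h b y.2⟩).1 h0)

theorem rho_ne_zero_of_red (h : RedData A S.τ1 (FN M1) O red) (b : Bool)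
    (y : KL.C0 A (S.θ1 b) (FN M1)) (e : red ⟨y, C01_le_O S h b y.2⟩ ≠ 0) : ρ S b y ≠ 0 :=
  fun h0 => e ((red_eq_zero_iff S h ⟨y, C01_le_O S h b y.2⟩).2 h0)

/-- the reduction datum in the chart `b` -/
theorem redData_chart (h : RedData A S.τ1 (FN M1) O red) (b : Bool) :
    RedData A (S.θ1 b) (FN M1) O red := by
  cases b
  · exact h
  · exact h.inv (g1_transcendental_τ1 S)

/-- [SM-M3] every place lies in one of the two charts -/
theorem exists_inChart (h : RedData A S.τ1 (FN M1) O red) (x : Place (KL.kk A) Ft) :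
    ∃ b, InChart S h b x := by
  have key : ∀ b : Bool, red ⟨KL.toC0 A (S.θ1 b) (FN M1) X,
      C01_le_O S h b (KL.toC0 A (S.θ1 b) (FN M1) X).2⟩ ∈ x.toValuationSubring →
      InChart S h b x := by
    intro b hb c
    have hb' := redData_chart S h b
    obtain ⟨n, gb, -⟩ := g2_data S b
    letI : Algebra (KL.Cbar A (S.θ1 b) (FN M1)) Ft := hb'.barToFt.toAlgebra
    have hbar : BarCompat A (S.θ1 b) (FN M1) O red := hb'.barCompat
    haveI : IsScalarTower (KL.kk A) (KL.Cbar A (S.θ1 b) (FN M1)) Ft :=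
      isScalarTower_Cbar hb' hbar
    exact br4_coord_bar (g2_transcendental S b) (g2_isGen S b) gb x hb (Ideal.Quotient.mk _ c)
  have e0 : ((KL.toC0 A (S.θ1 false) (FN M1) X : KL.C0 A (S.θ1 false) (FN M1)) : FN M1) = S.t1 :=
    evE_X_eq_t1 S
  have e1 : ((KL.toC0 A (S.θ1 true) (FN M1) X : KL.C0 A (S.θ1 true) (FN M1)) : FN M1) =
      S.t1⁻¹ := by
    show KL.evE A S.τ1⁻¹ (FN M1) X = S.t1⁻¹
    simp only [KL.evE, KL.evL, RingHom.comp_apply, coe_eval₂RingHom, eval₂_X]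
    rw [map_inv₀]
    rfl
  set z0 : O := ⟨KL.toC0 A (S.θ1 false) (FN M1) X,
      C01_le_O S h false (KL.toC0 A (S.θ1 false) (FN M1) X).2⟩ with hz0
  set z1 : O := ⟨KL.toC0 A (S.θ1 true) (FN M1) X,
      C01_le_O S h true (KL.toC0 A (S.θ1 true) (FN M1) X).2⟩ with hz1
  have ht0 : S.t1 ≠ 0 := by
    intro h0
    have h2 := resInf_t1 S
    have h3 : (⟨S.t1, t1_mem_Vinf S⟩ : Vinf A M1) = 0 := Subtype.ext h0
    rw [h3, map_zero] at h2
    have h4 := order_tq_neg (kA A) r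
    rw [← h2, HahnSeries.order_zero] at h4
    exact lt_irrefl _ h4
  have hmul : red z0 * red z1 = 1 := by
    rw [← map_mul, ← map_one red]
    congr 1
    apply Subtype.ext
    show ((KL.toC0 A (S.θ1 false) (FN M1) X : KL.C0 A (S.θ1 false) (FN M1)) : FN M1) *
      ((KL.toC0 A (S.θ1 true) (FN M1) X : KL.C0 A (S.θ1 true) (FN M1)) : FN M1) = 1
    rw [e0, e1, mul_inv_cancel₀ ht0]
  rcases x.toValuationSubring.mem_or_inv_mem (red z0) with h0 | h0
  · exact ⟨false, key false h0⟩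
  · refine ⟨true, key true ?_⟩
    rw [← eq_inv_of_mul_eq_one_right hmul] at h0
    exact h0

/-- [SM-M3] **smooth specialisation** -/
theorem smooth (h : RedData A S.τ1 (FN M1) O red) (n : ℕ) (u : Vinf A (M1 * q))
    (hu : PDiv Kb (FN (M1 * q)) n (u : FN (M1 * q))) (u1 : O)
    (hres : rO S h u1 = resInf A (M1 * q) u) (hne : red u1 ≠ 0)
    (x : Place (KL.kk A) Ft) (hx : ¬ IsCross S h x) : (n : ℤ) ∣ x.ord (red u1) := by
  unfold IsCross at hx
  push Not at hx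
  obtain ⟨b, hb, E, E1, hE2, hE1, hvan⟩ := hx
  have hb' := redData_chart S h b
  obtain ⟨m, gb, θ, hθ, hD⟩ := g2_data S b
  have hτ := g2_transcendental S b
  have hgen := g2_isGen S b
  haveI : IsDedekindDomain ↥(KL.B0 Kb (S.θM b) (FN (M1 * q))) :=
    isDedekindDomain_B0 (ch5_transcendental S b) (ch5_isGen S b)
  haveI : IsFractionRing ↥(KL.B0 Kb (S.θM b) (FN (M1 * q))) (FN (M1 * q)) :=
    isFractionRing_B0 (ch5_transcendental S b) (ch5_isGen S b)
  haveI := isDomain_Cbar hτ hgen hb'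
  haveI : IsDedekindDomain (KL.Cbar A (S.θ1 b) (FN M1)) :=
    isDedekindDomain_Cbar hτ hgen gb θ hθ hD
  letI : Algebra (KL.Cbar A (S.θ1 b) (FN M1)) Ft := hb'.barToFt.toAlgebra
  have hbar : BarCompat A (S.θ1 b) (FN M1) O red := hb'.barCompat
  haveI : IsFractionRing (KL.Cbar A (S.θ1 b) (FN M1)) Ft := isFractionRing_Cbar hτ hgen hb' hbar
  haveI : IsScalarTower (KL.kk A) (KL.Cbar A (S.θ1 b) (FN M1)) Ft := isScalarTower_Cbar hb' hbar
  -- `E1` is a unit at `x`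
  rw [Glue.van_iff] at hvan
  push Not at hvan
  obtain ⟨hE10, hE1inv⟩ := hvan
  have hordE : x.ord (red ⟨E1, C01_le_O S h b E1.2⟩) = 0 := by
    have h1 := S24.ord_nonneg_of_mem x (hb E1)
    have h2 := S24.ord_nonneg_of_mem x hE1inv
    rw [Place.ord_inv] at h2
    omega
  have hρE1 : ρ S b E1 ≠ 0 := rho_ne_zero_of_red S h b E1 hE10
  have hE1' : ρ1 S b E ≠ 0 := by rw [hE1]; exact hρE1
  have hures : resInf A (M1 * q) u ≠ 0 := by
    rw [← hres]
    exact fun h0 => hne ((red_eq_zero_iff S h u1).2 h0)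
  obtain ⟨a, c, ha, hc, hac⟩ := exists_frac S b E hE2 hE1' u hures
  have hloc := locHyp S b (ofC0 A (S.θM b) (FN (M1 * q)) E) hE2 hE1'
  have hne0 : ∀ y : KL.C0 A (S.θM b) (FN (M1 * q)), ρ1 S b y ≠ 0 →
      rhoL S b (ofC0 A (S.θM b) (FN (M1 * q)) y) ≠ 0 := by
    intro y hy h0
    apply hy
    have := jBar_rhoL S b (ofC0 A (S.θM b) (FN (M1 * q)) y)
    rw [h0, map_zero] at this
    exact this.symm
  have hc0 : (c : FN (M1 * q)) ≠ 0 := by
    intro h0
    apply hc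
    have : c = 0 := Subtype.ext h0
    rw [this, map_zero]
  -- lifts to level `M1`
  have hlift : ∀ y : KL.C0 A (S.θM b) (FN (M1 * q)), ∃ y' : KL.C0 A (S.θ1 b) (FN M1),
      ρ S b y' = ρ1 S b y ∧ algebraMap (KL.Cbar A (S.θ1 b) (FN M1)) Ft
        (rhoL S b (ofC0 A (S.θM b) (FN (M1 * q)) y)) = red ⟨y', C01_le_O S h b y'.2⟩ := by
    intro y
    obtain ⟨y', hy'⟩ := Ideal.Quotient.mk_surjective (rhoL S b (ofC0 A (S.θM b) (FN (M1 * q)) y))
    refine ⟨y', ?_, ?_⟩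
    · rw [← jBar_mk, hy', jBar_rhoL]; rfl
    · rw [← hy']; rfl
  obtain ⟨a', ha1, ha2⟩ := hlift a
  obtain ⟨c', hc1, hc2⟩ := hlift c
  obtain ⟨E', hE'1, hE'2⟩ := hlift E
  have key := smooth_abs (F := FN (M1 * q)) (Ft := Ft) hloc (ofC0 A (S.θM b) (FN (M1 * q)) a)
    (ofC0 A (S.θM b) (FN (M1 * q)) c) (hne0 a ha) (hne0 c hc) (n : ℤ)
    (fun P => by
      have e : algebraMap ↥(KL.B0 Kb (S.θM b) (FN (M1 * q))) (FN (M1 * q))
          (ofC0 A (S.θM b) (FN (M1 * q)) a : ↥(KL.B0 Kb (S.θM b) (FN (M1 * q)))) /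
          algebraMap ↥(KL.B0 Kb (S.θM b) (FN (M1 * q))) (FN (M1 * q))
          (ofC0 A (S.θM b) (FN (M1 * q)) c : ↥(KL.B0 Kb (S.θM b) (FN (M1 * q)))) =
          (u : FN (M1 * q)) := by
        show (a : FN (M1 * q)) / (c : FN (M1 * q)) = _
        rw [← hac, mul_div_cancel_right₀ _ hc0]
      rw [e]
      exact hu.2 P) x
    (fun y => by
      obtain ⟨y', rfl⟩ := Ideal.Quotient.mk_surjective y
      exact hb y')
    (by
      rw [hE'2, red_eq_of_rho_eq S h b E' E1 (hE'1.trans hE1)]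
      exact hordE)
  rw [ha2, hc2] at key
  have hc'0 : red ⟨c', C01_le_O S h b c'.2⟩ ≠ 0 :=
    red_ne_zero_of_rho S h b c' (by rw [hc1]; exact hc)
  have hfin : red ⟨a', C01_le_O S h b a'.2⟩ / red ⟨c', C01_le_O S h b c'.2⟩ = red u1 := by
    rw [div_eq_iff hc'0, ← map_mul]
    apply red_eq_of_rO_eq S h
    rw [map_mul, rO_mk, rO_mk, hres, ha1, hc1]
    show resInf A (M1 * q) ⟨a, _⟩ = resInf A (M1 * q) u * resInf A (M1 * q) ⟨c, _⟩
    rw [← map_mul]
    congr 1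
    exact Subtype.ext hac.symm
  rw [hfin] at key
  exact key

end Fermat.Agent.S44.Geo
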