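import Fermat.Agent.S44.IfTop
import Fermat.Agent.S44.Geo.Smooth

/-!
# S44/GEO : the vocabulary of the interfaces NODE / SMOOTH / SP          (helper2, owner of S44/GEO)

`S0 : Setup M1 q r A` (`r ∈ {2,3}`, `r ∣ M1`, `q ∤ M1`), `A = AA q`, `k = kk A = kA A`.
The component `∞` of `X₀(M1 q)_k` is `X₀(M1)_k`: every `v ∈ Vinf A (M1 q)` has a lift `u1 ∈ Vinf A M1` of its reduction (`S34.Mod.res_mem₁`).
As in `Geo/Smooth.lean` (helper1) and `SP/Inst.lean core_haupt` (helper18) divisors on `X₀(M1)_k` are expressed with an ARBITRARY reduction datum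
`(Ft, O, red)`, `h : S37.RedData A S0.τ1 (FN M1) O red`, and `x : Place (kk A) Ft`.

* `PDivRed S0 p u1` : `p ∣ ord_x (red u1)` for every reduction datum and every place `x`.
* `NodeOut S0 u`  : what NODE hands over to SP.
-/

set_option autoImplicit false
set_option synthInstance.maxHeartbeats 400000

open HahnSeries ModularCurve AlgebraicCurve Fermat.Agent.S24 Fermat.Agent.S29 Fermat.Agent.S18
  Fermat.Agent.ES Fermat.Agent.ES.Alg Fermat.Agent.S34.Mod Fermat.Agent.S05 Fermat.Agent.S55.B ExtCitation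
  Fermat.Agent.S33 Fermat.Agent.S37 CongruenceSubgroup
open Fermat.Agent.S55 (Dq Iq)

noncomputable section

namespace Fermat.Agent.S44.Geo

/-- the divisor of the reduction of `u1 : FN M1` is divisible by `p` -/
def PDivRed {M1 q r : ℕ} [NeZero M1] [NeZero q] [NeZero r] {A : ValuationSubring Kb}
    (S0 : Setup M1 q r A) (p : ℕ) (u1 : FN M1) : Prop :=
  ∀ (Ft : Type) [Field Ft] [Algebra (KL.kk A) Ft] (O : Subring (FN M1)) (red : O →+* Ft),
    RedData A S0.τ1 (FN M1) O red → ∀ (h1 : u1 ∈ O) (x : Place (KL.kk A) Ft),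
      (p : ℤ) ∣ x.ord (red ⟨u1, h1⟩)

/-- what NODE hands over to SP : a constant multiple `v` of `u` or of `Wq u`, integral at `∞`, whose reduction on the component `∞`
(`= red u1`, `u1` of level `M1`) has divisor divisible by `q` and is not a `q`-th power in `k((Q))` -/
def NodeOut {q : Nat.Primes} {M1 r : ℕ} [NeZero M1] [NeZero (q : ℕ)] [NeZero r]
    (S0 : Setup M1 (q : ℕ) r (AA q)) (u : FN (M1 * (q : ℕ))) : Prop :=
  ∃ (c : Kb) (v : Vinf (AA q) (M1 * (q : ℕ))) (u1 : Vinf (AA q) M1), c ≠ 0 ∧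
    ((v : FN (M1 * (q : ℕ))) = algebraMap Kb (FN (M1 * (q : ℕ))) c * u ∨
      (v : FN (M1 * (q : ℕ))) = algebraMap Kb (FN (M1 * (q : ℕ))) c * Wq S0.hc u) ∧
    resInf (AA q) M1 u1 = resInf (AA q) (M1 * (q : ℕ)) v ∧
    PDivRed S0 (q : ℕ) (u1 : FN M1) ∧
    ¬ ∃ y : LaurentSeries (kA (AA q)), resInf (AA q) (M1 * (q : ℕ)) v = y ^ (q : ℕ)

end Fermat.Agent.S44.Geo
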