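import Fermat.Agent.S44.Geo.Defs
import Fermat.Agent.S44.IfMod
import Fermat.Agent.S44.Geo.NodeAux

/-!
# S44/GEO : the point `𝔫_x` of the rational chart and the function `ν_x = ord_x ∘ red_∞ mod q` on `FN (M1 q)`          (statements: helper2; FREE KEYS)

`S0 : Setup M1 q r A`, `(Ft, O, red)`, `h : RedData A S0.τ1 (FN M1) O red`, `x : Place (kk A) Ft`.

* [S44/GEO-NX] `exists_nx` : for a crossing point `x` in the chart `b` : `𝔫 := {β ∈ B : red c1 = 0 ∨ 0 < ord_x (red c1)}` where `c1 ∈ C0 (θ1 b) (FN M1)` is any lift of `r1 β` (`ρ S0 b c1 = r1 β`; exists by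
  `exists_level1₁`; `red c1` does not depend on the choice: `ρ c1 = ρ c1' ⟹ resInf (c1 - c1') = 0 ⟹ SmV ⟹ red (c1 - c1') = 0` (`h.ker`, `jBar_injective`-type argument / `S37.smV_of_intRed_zero`)).
  It is an ideal (`InChart` gives `0 ≤ ord_x (red c1)`), prime (`ord_x` is additive), `≠ ⊤`, contains `ker r1` (lift `c1 = 0`) and `ker r2` (`IsCross`); `q ∈ ker r1`;
  maximal by `(Mod.nodalModel S0 b).dim₁` (`ker r1 < 𝔫` by `sep`).
* [S44/GEO-NU] `exists_nu` : `ν f := (ord_x (red f1) : ZMod q)`, where `c f ∈ Vinf`, `resInf (c f) ≠ 0` (`exists_scale`), `f1 ∈ Vinf A M1 = O` a lift (`exists_lift1`; `O = VV = Vinf A M1` : `h.hO`, `VV1_eq`).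
  Independence of the choices: `c` is unique up to a unit of `A`, whose reduction is a nonzero constant (`ord_x = 0`); `red f1` depends only on `resInf f1` (as above).
  Multiplicative because `resInf`, `red` are ring homs and `ord_x` is additive.  `wG (f - 1) > 0 ⟹ resInf f = 1`, lift `f1 = 1`.
-/

set_option autoImplicit false
set_option synthInstance.maxHeartbeats 400000

open HahnSeries ModularCurve AlgebraicCurve Fermat.Agent.S24 Fermat.Agent.S29 Fermat.Agent.S18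
  Fermat.Agent.ES Fermat.Agent.ES.Alg Fermat.Agent.S34.Mod Fermat.Agent.S05 Fermat.Agent.S55.B ExtCitation
  Fermat.Agent.S33 Fermat.Agent.S37 CongruenceSubgroup
open Fermat.Agent.S55 (Dq Iq)

noncomputable section

namespace Fermat.Agent.S44.Geo

variable {q : Nat.Primes} {M1 r : ℕ} [NeZero M1] [NeZero (q : ℕ)] [NeZero r]
variable {Ft : Type} [Field Ft] [Algebra (KL.kk (AA q)) Ft] {O : Subring (FN M1)} {red : O →+* Ft}

/-- a lift of `r1 β` to level `M1` -/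
def nxLift (S0 : Setup M1 (q : ℕ) r (AA q)) (b : Bool) (β : Mod.BB S0 b) :
    KL.C0 (AA q) (S0.θ1 b) (FN M1) :=
  (exists_level1₁ S0 b (Mod.inc S0 b β)).choose

theorem nxLift_spec (S0 : Setup M1 (q : ℕ) r (AA q)) (b : Bool) (β : Mod.BB S0 b) :
    ρ S0 b (nxLift S0 b β) = Mod.r1 S0 b β :=
  (exists_level1₁ S0 b (Mod.inc S0 b β)).choose_spec

/-- `β ↦ red_∞ β ∈ O_x` -/
def nxHom (S0 : Setup M1 (q : ℕ) r (AA q)) (h : RedData (AA q) S0.τ1 (FN M1) O red)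
    (x : Place (KL.kk (AA q)) Ft) (b : Bool) (hb : InChart S0 h b x) :
    Mod.BB S0 b →+* x.toValuationSubring where
  toFun β := ⟨red ⟨nxLift S0 b β, C01_le_O S0 h b (nxLift S0 b β).2⟩, hb _⟩
  map_one' := by
    apply Subtype.ext
    show red ⟨nxLift S0 b 1, C01_le_O S0 h b (nxLift S0 b 1).2⟩ = 1
    rw [red_eq_of_rho_eq S0 h b (nxLift S0 b 1) 1 (by rw [nxLift_spec, map_one, map_one])]
    exact map_one red
  map_zero' := by
    apply Subtype.ext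
    show red ⟨nxLift S0 b 0, C01_le_O S0 h b (nxLift S0 b 0).2⟩ = 0
    rw [red_eq_of_rho_eq S0 h b (nxLift S0 b 0) 0 (by rw [nxLift_spec, map_zero, map_zero])]
    exact map_zero red
  map_mul' β γ := by
    apply Subtype.ext
    show red ⟨nxLift S0 b (β * γ), C01_le_O S0 h b (nxLift S0 b (β * γ)).2⟩ =
      red ⟨nxLift S0 b β, C01_le_O S0 h b (nxLift S0 b β).2⟩ *
        red ⟨nxLift S0 b γ, C01_le_O S0 h b (nxLift S0 b γ).2⟩
    rw [red_eq_of_rho_eq S0 h b (nxLift S0 b (β * γ)) (nxLift S0 b β * nxLift S0 b γ)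
      (by rw [nxLift_spec, map_mul, map_mul, nxLift_spec, nxLift_spec]), ← map_mul]
    rfl
  map_add' β γ := by
    apply Subtype.ext
    show red ⟨nxLift S0 b (β + γ), C01_le_O S0 h b (nxLift S0 b (β + γ)).2⟩ =
      red ⟨nxLift S0 b β, C01_le_O S0 h b (nxLift S0 b β).2⟩ +
        red ⟨nxLift S0 b γ, C01_le_O S0 h b (nxLift S0 b γ).2⟩
    rw [red_eq_of_rho_eq S0 h b (nxLift S0 b (β + γ)) (nxLift S0 b β + nxLift S0 b γ)
      (by rw [nxLift_spec, map_add, map_add, nxLift_spec, nxLift_spec]), ← map_add]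
    rfl

theorem nxHom_eq (S0 : Setup M1 (q : ℕ) r (AA q)) (h : RedData (AA q) S0.τ1 (FN M1) O red)
    (x : Place (KL.kk (AA q)) Ft) (b : Bool) (hb : InChart S0 h b x) (β : Mod.BB S0 b)
    (c1 : KL.C0 (AA q) (S0.θ1 b) (FN M1)) (e : ρ S0 b c1 = Mod.r1 S0 b β) :
    ((nxHom S0 h x b hb β : x.toValuationSubring) : Ft) = red ⟨c1, C01_le_O S0 h b c1.2⟩ :=
  red_eq_of_rho_eq S0 h b _ _ ((nxLift_spec S0 b β).trans e.symm)

/-- [S44/GEO-NX] -/
theorem exists_nx (S0 : Setup M1 (q : ℕ) r (AA q)) (h : RedData (AA q) S0.τ1 (FN M1) O red)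
    (x : Place (KL.kk (AA q)) Ft) (b : Bool) (hb : InChart S0 h b x) (hx : IsCross S0 h x) :
    ∃ 𝔫 : Ideal (Mod.BB S0 b), 𝔫.IsMaximal ∧ RingHom.ker (Mod.r1 S0 b) ≤ 𝔫 ∧
      RingHom.ker (Mod.r2 S0 b) ≤ 𝔫 ∧
      ∀ (β : Mod.BB S0 b) (c1 : KL.C0 (AA q) (S0.θ1 b) (FN M1)), ρ S0 b c1 = Mod.r1 S0 b β → β ∉ 𝔫 →
        red ⟨c1, C01_le_O S0 h b c1.2⟩ ≠ 0 ∧ x.ord (red ⟨c1, C01_le_O S0 h b c1.2⟩) = 0 := by
  have hk1 : RingHom.ker (Mod.r1 S0 b) ≤
      (IsLocalRing.maximalIdeal x.toValuationSubring).comap (nxHom S0 h x b hb) := by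
    intro β hβ
    rw [Ideal.mem_comap]
    have e : nxHom S0 h x b hb β = 0 := by
      apply Subtype.ext
      rw [nxHom_eq S0 h x b hb β 0 (by rw [map_zero]; exact hβ.symm)]
      exact map_zero red
    rw [e]
    exact zero_mem _
  have hk2 : RingHom.ker (Mod.r2 S0 b) ≤
      (IsLocalRing.maximalIdeal x.toValuationSubring).comap (nxHom S0 h x b hb) := by
    intro β hβ
    rw [Ideal.mem_comap]
    have hv := hx b hb (Mod.inc S0 b β) (nxLift S0 b β) hβ (nxLift_spec S0 b β).symm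
    rw [IsLocalRing.mem_maximalIdeal, mem_nonunits_iff]
    intro hu
    have := (ValuationSubring.valuation_eq_one_iff _ _).1 hu
    exact absurd hv (by unfold Glue.Van; rw [not_lt]; exact this.ge)
  have hprime : ((IsLocalRing.maximalIdeal x.toValuationSubring).comap (nxHom S0 h x b hb)).IsPrime :=
    Ideal.comap_isPrime _ _
  refine ⟨(IsLocalRing.maximalIdeal x.toValuationSubring).comap (nxHom S0 h x b hb), ?_, hk1, hk2, ?_⟩
  · apply (Mod.nodalModel S0 b).dim₁ _ hprime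
    refine lt_of_le_of_ne hk1 ?_
    intro e
    obtain ⟨c, hc2, hc1⟩ := (Mod.nodalModel S0 b).sep
    have : c ∈ RingHom.ker (Mod.r1 S0 b) := by
      rw [e]; exact hk2 hc2
    exact hc1 this
  · intro β c1 e hβ
    rw [Ideal.mem_comap, IsLocalRing.mem_maximalIdeal, mem_nonunits_iff, not_not] at hβ
    rw [← nxHom_eq S0 h x b hb β c1 e]
    refine ⟨?_, ?_⟩
    · intro h0
      have : nxHom S0 h x b hb β = 0 := Subtype.ext h0
      rw [this] at hβ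
      exact not_isUnit_zero hβ
    · exact x.ord_coe_unit hβ.unit

/-- the relation `n = ord_x (red_∞ f)` -/
def nuRel (S0 : Setup M1 (q : ℕ) r (AA q)) (h : RedData (AA q) S0.τ1 (FN M1) O red)
    (x : Place (KL.kk (AA q)) Ft) (f : FN (M1 * (q : ℕ))) (n : ℤ) : Prop :=
  ∃ (c : Kb) (v : Vinf (AA q) (M1 * (q : ℕ))) (u1 : O), c ≠ 0 ∧
    (v : FN (M1 * (q : ℕ))) = algebraMap Kb (FN (M1 * (q : ℕ))) c * f ∧
    rO S0 h u1 = resInf (AA q) (M1 * (q : ℕ)) v ∧ red u1 ≠ 0 ∧ n = x.ord (red u1)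

theorem nuRel_exists (S0 : Setup M1 (q : ℕ) r (AA q)) (h : RedData (AA q) S0.τ1 (FN M1) O red)
    (x : Place (KL.kk (AA q)) Ft) {f : FN (M1 * (q : ℕ))} (hf : f ≠ 0) : ∃ n, nuRel S0 h x f n := by
  obtain ⟨c, v, hc, hv, hne⟩ := exists_scale S0 hf
  obtain ⟨u1, hu1⟩ := exists_lift1 S0 v
  have hO : (u1 : FN M1) ∈ O := by
    rw [h.hO, VV1_eq S0]; exact u1.2
  have e : rO S0 h ⟨u1, hO⟩ = resInf (AA q) (M1 * (q : ℕ)) v := hu1
  refine ⟨_, c, v, ⟨u1, hO⟩, hc, hv, e, ?_, rfl⟩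
  intro h0
  rw [red_eq_zero_iff S0 h, e] at h0
  exact hne h0

theorem nuRel_mul (S0 : Setup M1 (q : ℕ) r (AA q)) (h : RedData (AA q) S0.τ1 (FN M1) O red)
    (x : Place (KL.kk (AA q)) Ft) {f g : FN (M1 * (q : ℕ))} {n m : ℤ}
    (hf : nuRel S0 h x f n) (hg : nuRel S0 h x g m) : nuRel S0 h x (f * g) (n + m) := by
  obtain ⟨c, v, u1, hc, hv, e, hne, rfl⟩ := hf
  obtain ⟨c', v', u1', hc', hv', e', hne', rfl⟩ := hg
  refine ⟨c * c', v * v', u1 * u1', mul_ne_zero hc hc', ?_, ?_, ?_, ?_⟩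
  · show (v : FN (M1 * (q : ℕ))) * (v' : FN (M1 * (q : ℕ))) = _
    rw [hv, hv', map_mul]; ring
  · rw [map_mul, map_mul, e, e']
  · rw [map_mul]; exact mul_ne_zero hne hne'
  · rw [map_mul, Place.ord_mul _ hne hne']

theorem nuRel_unique (S0 : Setup M1 (q : ℕ) r (AA q)) (h : RedData (AA q) S0.τ1 (FN M1) O red)
    (x : Place (KL.kk (AA q)) Ft) {f : FN (M1 * (q : ℕ))} {n m : ℤ}
    (hf : nuRel S0 h x f n) (hg : nuRel S0 h x f m) : n = m := by
  obtain ⟨c, v, u1, hc, hv, e, hne, rfl⟩ := hf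
  obtain ⟨c', v', u1', hc', hv', e', hne', rfl⟩ := hg
  have hrv : resInf (AA q) (M1 * (q : ℕ)) v ≠ 0 := by
    rw [← e]; exact fun h0 => hne ((red_eq_zero_iff S0 h u1).2 h0)
  have hv0 : (v : FN (M1 * (q : ℕ))) ≠ 0 := by
    intro h0
    have : v = 0 := Subtype.ext h0
    rw [this, map_zero] at hrv
    exact hrv rfl
  have hca : algebraMap Kb (FN (M1 * (q : ℕ))) c ≠ 0 := by simpa using hc
  have hvi := inv_mem_Vinf hrv
  have e1 : algebraMap Kb (FN (M1 * (q : ℕ))) (c' * c⁻¹) = (v' : FN (M1 * (q : ℕ))) * (v : FN (M1 * (q : ℕ)))⁻¹ := by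
    have hf0 : f ≠ 0 := by
      rintro rfl
      rw [mul_zero] at hv
      exact hv0 hv
    rw [hv, hv', map_mul, map_inv₀]
    field_simp
  have haV : algebraMap Kb (FN (M1 * (q : ℕ))) (c' * c⁻¹) ∈ Vinf (AA q) (M1 * (q : ℕ)) := by
    rw [e1]; exact mul_mem v'.2 hvi
  have haA : c' * c⁻¹ ∈ AA q := mem_of_algebraMap_mem_Vinf haV
  have e2 : v' = ⟨algebraMap Kb (FN (M1 * (q : ℕ))) ((⟨c' * c⁻¹, haA⟩ : AA q) : Kb), algebraMap_mem_Vinf _⟩ * v := by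
    apply Subtype.ext
    show (v' : FN (M1 * (q : ℕ))) = algebraMap Kb (FN (M1 * (q : ℕ))) (c' * c⁻¹) * (v : FN (M1 * (q : ℕ)))
    rw [e1, mul_assoc, inv_mul_cancel₀ hv0, mul_one]
  have hO : algebraMap Kb (FN M1) ((⟨c' * c⁻¹, haA⟩ : AA q) : Kb) ∈ O := by
    rw [h.hO, VV1_eq S0]; exact algebraMap_mem_Vinf _
  have e3 : rO S0 h ⟨_, hO⟩ = HahnSeries.C (IsLocalRing.residue (AA q) ⟨c' * c⁻¹, haA⟩) :=
    resInf_algebraMap _
  have e4 : red u1' = red ⟨_, hO⟩ * red u1 := by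
    rw [← map_mul]
    apply red_eq_of_rO_eq S0 h
    rw [map_mul, e3, e, e', e2, map_mul, resInf_algebraMap]
  have h5 : red ⟨_, hO⟩ ≠ 0 := by
    intro h0
    rw [h0, zero_mul] at e4
    exact hne' e4
  rw [e4, Place.ord_mul _ h5 hne, h.alg, Diff.ord_algebraMap, zero_add]


/-- [S44/GEO-NU] -/
theorem exists_nu (S0 : Setup M1 (q : ℕ) r (AA q)) (h : RedData (AA q) S0.τ1 (FN M1) O red)
    (x : Place (KL.kk (AA q)) Ft) :
    ∃ ν : FN (M1 * (q : ℕ)) → ZMod (q : ℕ),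
      (∀ f g, f ≠ 0 → g ≠ 0 → ν (f * g) = ν f + ν g) ∧
      (∀ c : Kb, c ≠ 0 → ν (algebraMap Kb (FN (M1 * (q : ℕ))) c) = 0) ∧
      (∀ f, (wG q (M1 * (q : ℕ))).GT (f - 1) 0 → ν f = 0) ∧
      (∀ (v : Vinf (AA q) (M1 * (q : ℕ))) (u1 : O) (hu1 : (u1 : FN M1) ∈ Vinf (AA q) M1),
        resInf (AA q) M1 ⟨u1, hu1⟩ = resInf (AA q) (M1 * (q : ℕ)) v → red u1 ≠ 0 →
        ν (v : FN (M1 * (q : ℕ))) = ((x.ord (red u1) : ℤ) : ZMod (q : ℕ))) := by
  classical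
  let ν : FN (M1 * (q : ℕ)) → ZMod (q : ℕ) := fun f =>
    if hf : ∃ n, nuRel S0 h x f n then ((hf.choose : ℤ) : ZMod (q : ℕ)) else 0
  have key : ∀ f n, nuRel S0 h x f n → ν f = ((n : ℤ) : ZMod (q : ℕ)) := by
    intro f n hn
    have hf : ∃ n, nuRel S0 h x f n := ⟨n, hn⟩
    show (if hf : ∃ n, nuRel S0 h x f n then ((hf.choose : ℤ) : ZMod (q : ℕ)) else 0) = _
    rw [dif_pos hf, nuRel_unique S0 h x hf.choose_spec hn]
  have hone : red (1 : O) ≠ 0 := by rw [map_one]; exact one_ne_zero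
  refine ⟨ν, ?_, ?_, ?_, ?_⟩
  · intro f g hf hg
    obtain ⟨n, hn⟩ := nuRel_exists S0 h x hf
    obtain ⟨m, hm⟩ := nuRel_exists S0 h x hg
    rw [key _ _ hn, key _ _ hm, key _ _ (nuRel_mul S0 h x hn hm), Int.cast_add]
  · intro c hc
    rw [key _ 0 ⟨c⁻¹, 1, 1, inv_ne_zero hc, ?_, ?_, hone, ?_⟩, Int.cast_zero]
    · show (1 : FN (M1 * (q : ℕ))) = _
      rw [← map_mul, inv_mul_cancel₀ hc, map_one]
    · rw [map_one, map_one]
    · rw [map_one, Place.ord_one]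
  · intro f hf
    obtain ⟨hfV, hf1⟩ := cong_iff.1 (cong_iff_GT.2 hf)
    rw [key _ 0 ⟨1, ⟨f, hfV⟩, 1, one_ne_zero, ?_, ?_, hone, ?_⟩, Int.cast_zero]
    · show f = _
      rw [map_one, one_mul]
    · rw [map_one, hf1]
    · rw [map_one, Place.ord_one]
  · intro v u1 hu1 e hne
    exact key _ _ ⟨1, v, u1, one_ne_zero, by rw [map_one, one_mul], e, hne, rfl⟩

end Fermat.Agent.S44.Geo
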