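import Fermat.Agent.S44.Geo.IfRel
import Fermat.Agent.S44.Geo.Nu

/-!
# S44/GEO : the interface with the COVER chain (C1-C5 + MOD + ALG)          (statement: helper2;  wiring C5 = helper2 + helper27)

`S0 : Setup M1 q r A`, `NewHyp u t`, `hEis`.  `v = c u ∈ Vinf A (M1 q)` with nonzero reduction, `u1` a lift of the reduction to level `M1`,
`(Ft, O, red)` any reduction datum of level `M1`, `x` a CROSSING point (`Geo.IsCross`, helper1).  Then `q ∣ ord_x (red u1)`.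

Proof (helper22 #1392, lead #1385/#1401).
0. EIS-UPFRONT: `ℓ0` from `hEis`, `m = a ℓ0 - ℓ0 - 1`, `p ∤ m`.  `(u°, t°) := (Tl u / u^(ℓ0+1), Tl t / t^(ℓ0+1))`; `u° = u^m g^p`: it is enough to treat `u°`.
1. `t°` deep, `F' = F(y')`, `E' = F'^I`, `δ`, `ι0`, the `2p` sheet valuations (C1, C2).
2. H90: `ũ = u° h^p ∈ E'`; `ntr` ⟹ all sheets over `∞` (resp. `0`) agree mod `p`; leading coefficients + [CUSP] ⟹ `w'_0(ũ) ≡ w'_∞(ũ) mod p` (C4).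
3. `R = (B_b)_𝔫`, `𝔫` = the closed point `x`; `NodalModel.node` (MOD + ALG-LOC), Sheet datum `e` (C3), `Sheet.node_rel_thick` (ALG):
   `ũ^M t = a X'^i Y'^j w^p`, `p ∣ i - j`, `p ∤ M`.
4. DICT (C5): `red'(ũ / p^a)^M = unit_x * (p-th power)`, `red' ũ = const * ū° * h̄^p`.
-/

set_option autoImplicit false
set_option synthInstance.maxHeartbeats 400000

open HahnSeries ModularCurve AlgebraicCurve Fermat.Agent.S24 Fermat.Agent.S29 Fermat.Agent.S18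
  Fermat.Agent.ES Fermat.Agent.ES.Alg Fermat.Agent.S34.Mod Fermat.Agent.S05 Fermat.Agent.S55.B ExtCitation
  Fermat.Agent.S33 Fermat.Agent.S37 CongruenceSubgroup
open Fermat.Agent.S55 (Dq Iq)

noncomputable section

namespace Fermat.Agent.S44.Geo

variable {q : Nat.Primes} {M1 r : ℕ} [NeZero M1] [NeZero (q : ℕ)] [NeZero r]

/-- **CROSS** : divisibility at the crossing points -/
theorem cross (S0 : Setup M1 (q : ℕ) r (AA q)) (hq5 : 5 ≤ (q : ℕ)) (S : Set ℕ) (a : ℕ → ℤ)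
    (hEis : ∃ ℓ : ℕ, ℓ.Prime ∧ ¬ ℓ ∣ 6 * (M1 * (q : ℕ)) ∧ ℓ ∈ S ∧ ¬ ((q : ℕ) : ℤ) ∣ a ℓ - (ℓ + 1))
    {u t : FN (M1 * (q : ℕ))} (H : NewHyp q M1 S0.hc S a u t)
    {Ft : Type} [Field Ft] [Algebra (KL.kk (AA q)) Ft] {O : Subring (FN M1)} {red : O →+* Ft}
    (h : RedData (AA q) S0.τ1 (FN M1) O red)
    (c : Kb) (hc0 : c ≠ 0) (v : Vinf (AA q) (M1 * (q : ℕ)))
    (hv : (v : FN (M1 * (q : ℕ))) = algebraMap Kb (FN (M1 * (q : ℕ))) c * u)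
    (u1 : O) (hu1 : (u1 : FN M1) ∈ Vinf (AA q) M1)
    (hres : resInf (AA q) M1 ⟨u1, hu1⟩ = resInf (AA q) (M1 * (q : ℕ)) v) (hne : red u1 ≠ 0)
    (x : Place (KL.kk (AA q)) Ft) (hx : IsCross S0 h x) : ((q : ℕ) : ℤ) ∣ x.ord (red u1) := by
  have : Fact (q : ℕ).Prime := ⟨q.2⟩
  obtain ⟨b, hb⟩ := exists_inChart S0 h x
  obtain ⟨𝔫, hmax, hk1, hk2, h𝔫⟩ := exists_nx S0 h x b hb hx
  obtain ⟨ν, νmul, νc, ν1, νv⟩ := exists_nu S0 h x
  obtain ⟨M, β, s, f, ε, c', hM, hβ, hs, hf, hc', hε, hrel⟩ := cover_rel S0 hq5 S a hEis H b 𝔫 hmax hk1 hk2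
  have hu0 : u ≠ 0 := H.pdiv_u.1
  -- `ν` on elements of `B \ 𝔫`
  have νB : ∀ β : Mod.BB S0 b, β ∉ 𝔫 → ((β : Mod.EE q M1) : FN (M1 * (q : ℕ))) ≠ 0 ∧
      ν ((β : Mod.EE q M1) : FN (M1 * (q : ℕ))) = 0 := by
    intro β hβ
    obtain ⟨c1, hc1⟩ := exists_level1₁ S0 b (Mod.inc S0 b β)
    obtain ⟨hne1, hord⟩ := h𝔫 β c1 hc1 hβ
    refine ⟨fun h0 => hβ ?_, ?_⟩
    · have : β = 0 := Subtype.ext (Subtype.ext h0)
      rw [this]; exact 𝔫.zero_mem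
    · have := νv ⟨((β : Mod.EE q M1) : FN (M1 * (q : ℕ))),
        mem_Vinf_of_mem_VV S0 (C0M_le S0 b β.2)⟩ ⟨c1, C01_le_O S0 h b c1.2⟩ (C01_le S0 b c1.2) hc1 hne1
      rw [this, hord, Int.cast_zero]
  have νpow : ∀ (g : FN (M1 * (q : ℕ))), g ≠ 0 → ∀ n : ℕ, ν (g ^ n) = n • ν g := by
    intro g hg n
    induction n with
    | zero =>
      rw [pow_zero, zero_smul]
      exact ν1 1 (by rw [sub_self]; exact (wG q (M1 * (q : ℕ))).GT_zero 0)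
    | succ n ih => rw [pow_succ, νmul _ _ (pow_ne_zero n hg) hg, ih, succ_nsmul]
  obtain ⟨hβ0, νβ⟩ := νB β hβ
  obtain ⟨hs0, νs⟩ := νB s hs
  have hε0 : ε ≠ 0 := by
    rintro rfl
    rw [zero_sub] at hε
    rcases hε with h0 | h0
    · exact one_ne_zero (neg_eq_zero.1 h0)
    · rw [RVal.w_neg_one] at h0
      exact lt_irrefl _ h0
  have hcF : algebraMap Kb (FN (M1 * (q : ℕ))) c' ≠ 0 := by rw [Ne, map_eq_zero]; exact hc'
  have hcF0 : algebraMap Kb (FN (M1 * (q : ℕ))) c ≠ 0 := by rw [Ne, map_eq_zero]; exact hc0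
  have e1 := congrArg ν hrel
  rw [νmul _ _ (mul_ne_zero (pow_ne_zero M hu0) hs0) (pow_ne_zero _ hf),
    νmul _ _ (pow_ne_zero M hu0) hs0, νpow u hu0, νpow f hf, νs,
    νmul _ _ (mul_ne_zero hcF hβ0) hε0, νmul _ _ hcF hβ0, νc c' hc', νβ, ν1 ε hε] at e1
  have e2 : (M : ZMod (q : ℕ)) * ν u = 0 := by
    have : ((q : ℕ) : ℕ) • ν f = 0 := by
      rw [nsmul_eq_mul, ZMod.natCast_self, zero_mul]
    rw [this, nsmul_eq_mul] at e1
    simpa using e1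
  have hM' : (M : ZMod (q : ℕ)) ≠ 0 := by
    rw [Ne, ZMod.natCast_eq_zero_iff]
    exact hM
  have e3 : ν u = 0 := (mul_eq_zero.1 e2).resolve_left hM'
  have e4 := νv v u1 hu1 hres hne
  rw [hv, νmul _ _ hcF0 hu0, νc c hc0, e3, zero_add] at e4
  exact (ZMod.intCast_zmod_eq_zero_iff_dvd _ _).1 e4.symm

end Fermat.Agent.S44.Geo
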