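import Fermat.Agent.S44.Geo.Defs
import Fermat.Agent.S44.IfMod
import Fermat.Agent.S44.Geo.Cov.Rel
import Fermat.Agent.S44.Geo.Cov.TrMain

/-!
# S44/GEO : `cover_rel` = THE EXPORT OF THE COVER CHAIN (C1-C5 + MOD + ALG), a statement at level `N = M1 q` only          (statement: helper2)

`S0 : Setup M1 q r A`, `B = Mod.BB S0 b` (the `K₀`-rational chart ring), `𝔫` a maximal ideal of `B` which is a CROSSING point (`ker r1, ker r2 ≤ 𝔫`).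
Then some power `u^M`, `q ∤ M`, is (unit of `B_𝔫`) * (constant) * (`q`-th power) * (principal unit for the Gauss valuation `wG` at `∞`).

## Proof.
1. (C4, `exists_tr`)  `t'` good, `F'`, `C : Cov q M1 hc t' F'`, `z ∈ E' = C.Ep`, `z = u^m g^q h^q` (`h ∈ F'`, `g ∈ F`, `q ∤ m`), and all `2q` sheet valuations of `z` are congruent mod `q`:
   `C.V₂ k' z - C.V₁ k z ∈ q ℤ`.
2. `R := B_𝔫 ⊆ E`; `Mod.nodalModel S0 b`, `Alg.NodalModel.node` : `X, Y, x, x', u`.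
3. (C3, `exists_sheet`)  `D : Alg.Sheet R E' q`, `k₁ k₂` with `W₁ (δ^k₁ e - 1) > 0`, `W₂ (δ^k₂ e - 1) > 0`.
4. hypothesis `H` of `Alg.Sheet.node_rel_thick` : `Alg.unr_pow` (`K0 = Fx (Iq q)`; `hgen` : `F' = Kb E'`; `hdiv` : `q ∣ ord_P z` for the places `P` of `F'/Kb`, because `z = u^m (g h)^q` and `PDiv u`
   (restriction of `P` to `F` is a place or trivial); `hK` : `V ∋ q⁻¹`, `V ⊇ O0`).
5. `node_rel_thick` : `z^M₀ t = a X'^i Y'^j w^q`, `q ∤ M₀`, `X' Y' = c q^e`, `e ∣ 12`.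
6. `val₁ := W₁ ∘ δ^k₁`, `val₂ := W₂ ∘ δ^k₂`.  On `F` they are `wG`, `wZ`.  Units of `R` have `val_i = 0` (`β ∉ 𝔫 ⟹ r1 β ≠ 0 ≠ r2 β`; `Mod.r1_eq_zero_iff`).
   Integral elements over `R` have `val_i ≥ 0`.  `e (a - ra) ∈ q R'` and `val_i e = 0` ⟹ `val_i (a - ra) ≥ 1` ⟹ `val_i a = 0`; the same for `t`.
   `val₁ X' = 0` (`X' ≡ X mod q`, `r1 X ≠ 0` because `𝔪 = Pi ⊔ (X) ≠ Pi`), `val₂ Y' = 0`, so `val₁ Y' = e = val₂ X'`.   `val_i w, val_i z ∈ ℤ` (`w, z ∈ E'`).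
   `M₀ val₁ z = e j + q val₁ w`, `M₀ val₂ z = e i + q val₂ w` ⟹ `q ∣ e (i - j)` ⟹ `i = j + q l`.
7. `z^M₀ t = a (c q^e)^j (X'^l w)^q`.  Apply `δ^k₁` (it fixes `F`): `u^(m M₀) δt = δa c^j q^(e j) y^q`, `y = X'^l δw / (g δh)^M₀ ∈ F'`.
   `δa ≈ ra`, `δt ≈ rt` for `W₁`; density of `F` in `F'` for `W₁` : `y ≈ f ∈ F`.   So `u^(m M₀) = (ra c^j / rt) q^(e j) f^q ε`, `ε ∈ F`, `wG (ε - 1) > 0`; `ra c^j / rt ∈ Rˣ` is `β / s`.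
   `M := |m M₀|` (if `m M₀ < 0` invert the relation).
-/

set_option autoImplicit false
set_option synthInstance.maxHeartbeats 400000

open HahnSeries ModularCurve AlgebraicCurve Fermat.Agent.S24 Fermat.Agent.S29 Fermat.Agent.S18
  Fermat.Agent.ES Fermat.Agent.ES.Alg Fermat.Agent.S34.Mod Fermat.Agent.S05 Fermat.Agent.S55.B ExtCitation
  Fermat.Agent.S33 Fermat.Agent.S37 CongruenceSubgroup
open Fermat.Agent.S55 (Dq Iq)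

noncomputable section

namespace Fermat.Agent.S44.Geo

variable {q : Nat.Primes} {M1 r : ℕ} [NeZero M1] [NeZero (q : ℕ)] [NeZero r]

/-- **COVER-REL** -/
theorem cover_rel (S0 : Setup M1 (q : ℕ) r (AA q)) (hq5 : 5 ≤ (q : ℕ)) (S : Set ℕ) (a : ℕ → ℤ)
    (hEis : ∃ ℓ : ℕ, ℓ.Prime ∧ ¬ ℓ ∣ 6 * (M1 * (q : ℕ)) ∧ ℓ ∈ S ∧ ¬ ((q : ℕ) : ℤ) ∣ a ℓ - (ℓ + 1))
    {u t : FN (M1 * (q : ℕ))} (H : NewHyp q M1 S0.hc S a u t)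
    (b : Bool) (𝔫 : Ideal (Mod.BB S0 b)) (hmax : 𝔫.IsMaximal)
    (h1 : RingHom.ker (Mod.r1 S0 b) ≤ 𝔫) (h2 : RingHom.ker (Mod.r2 S0 b) ≤ 𝔫) :
    ∃ (M : ℕ) (β s : Mod.BB S0 b) (f ε : FN (M1 * (q : ℕ))) (c : Kb), ¬ (q : ℕ) ∣ M ∧ β ∉ 𝔫 ∧ s ∉ 𝔫 ∧
      f ≠ 0 ∧ c ≠ 0 ∧ (wG q (M1 * (q : ℕ))).GT (ε - 1) 0 ∧
      u ^ M * ((s : Mod.EE q M1) : FN (M1 * (q : ℕ))) * f ^ (q : ℕ) =
        algebraMap Kb (FN (M1 * (q : ℕ))) c * ((β : Mod.EE q M1) : FN (M1 * (q : ℕ))) * ε := by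
  obtain ⟨t', F', _, _, C, z, h, m, g, hT, hzE, hh, hg, hm, hz, hV⟩ :=
    Cov.exists_tr_main S0 hq5 S a hEis H b 𝔫 hmax h1 h2
  have := hmax
  have hq : ((q : ℕ) : Mod.BB S0 b) ∈ 𝔫 := h1 (Mod.r_q S0 b).1
  obtain ⟨D, hD⟩ := Cov.exists_sheet S0 hq5 hT C b 𝔫 hq
  exact Cov.cover_rel_aux S0 b 𝔫 C hq5 h1 h2 H.pdiv_u D hD hzE hh hg hm hz hV

end Fermat.Agent.S44.Geo
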