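import Fermat.Agent.S44.Geo.IfCross
import Fermat.Agent.S44.Geo.NodeAux

/-!
# S44/GEO : `if_node` (NODE export) from SMOOTH (helper1), CROSS (cover chain) and the small keys of `Geo/NodeAux.lean`          (helper2)
-/

set_option autoImplicit false
set_option synthInstance.maxHeartbeats 400000

open HahnSeries ModularCurve AlgebraicCurve Fermat.Agent.S24 Fermat.Agent.S29 Fermat.Agent.S18
  Fermat.Agent.ES Fermat.Agent.ES.Alg Fermat.Agent.S34.Mod Fermat.Agent.S05 Fermat.Agent.S55.B ExtCitation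
  Fermat.Agent.S33 Fermat.Agent.S37 CongruenceSubgroup
open Fermat.Agent.S55 (Dq Iq)

noncomputable section

namespace Fermat.Agent.S44.Geo

variable {q : Nat.Primes} {M1 r : ℕ} [NeZero M1] [NeZero (q : ℕ)] [NeZero r]

/-- the divisor of the reduction of `c u` is divisible by `q` -/
theorem pdivRed (S0 : Setup M1 (q : ℕ) r (AA q)) (hq5 : 5 ≤ (q : ℕ)) (S : Set ℕ) (a : ℕ → ℤ)
    (hEis : ∃ ℓ : ℕ, ℓ.Prime ∧ ¬ ℓ ∣ 6 * (M1 * (q : ℕ)) ∧ ℓ ∈ S ∧ ¬ ((q : ℕ) : ℤ) ∣ a ℓ - (ℓ + 1))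
    {u t : FN (M1 * (q : ℕ))} (H : NewHyp q M1 S0.hc S a u t)
    (c : Kb) (hc0 : c ≠ 0) (v : Vinf (AA q) (M1 * (q : ℕ)))
    (hv : (v : FN (M1 * (q : ℕ))) = algebraMap Kb (FN (M1 * (q : ℕ))) c * u)
    (hne : resInf (AA q) (M1 * (q : ℕ)) v ≠ 0)
    (u1 : Vinf (AA q) M1) (hres : resInf (AA q) M1 u1 = resInf (AA q) (M1 * (q : ℕ)) v) :
    PDivRed S0 (q : ℕ) (u1 : FN M1) := by
  intro Ft _ _ O red h h1 x
  have hne1 : red ⟨(u1 : FN M1), h1⟩ ≠ 0 :=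
    red_ne_zero S0 h ⟨(u1 : FN M1), h1⟩ u1.2 (by rw [hres]; exact hne)
  by_cases hx : IsCross S0 h x
  · exact cross S0 hq5 S a hEis H h c hc0 v hv ⟨(u1 : FN M1), h1⟩ u1.2 hres hne1 x hx
  · refine smooth S0 h (q : ℕ) v ?_ ⟨(u1 : FN M1), h1⟩ hres hne1 x hx
    rw [hv]
    have hc' : algebraMap Kb (FN (M1 * (q : ℕ))) c ≠ 0 := by rw [Ne, map_eq_zero]; exact hc0
    refine ⟨mul_ne_zero hc' H.pdiv_u.1, fun P => ?_⟩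
    rw [P.ord_mul hc' H.pdiv_u.1, Fermat.Agent.S24.Diff.ord_algebraMap, zero_add]
    exact H.pdiv_u.2 P

/-- **NODE** -/
theorem if_node (S0 : Setup M1 (q : ℕ) r (AA q)) (hq5 : 5 ≤ (q : ℕ)) (S : Set ℕ) (a : ℕ → ℤ)
    (hEis : ∃ ℓ : ℕ, ℓ.Prime ∧ ¬ ℓ ∣ 6 * (M1 * (q : ℕ)) ∧ ℓ ∈ S ∧ ¬ ((q : ℕ) : ℤ) ∣ a ℓ - (ℓ + 1))
    {u t : FN (M1 * (q : ℕ))} (H : NewHyp q M1 S0.hc S a u t) :
    (∃ h : FN (M1 * (q : ℕ)), h ≠ 0 ∧ UC2 (AA q) M1 S0.hc (u * h ^ (q : ℕ))) ∨ NodeOut S0 u := by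
  have hu0 : u ≠ 0 := H.pdiv_u.1
  have hW0 : Wq S0.hc u ≠ 0 := (map_ne_zero_iff _ (Wq S0.hc).injective).mpr hu0
  obtain ⟨c, v, hc0, hv, hne⟩ := exists_scale S0 hu0
  obtain ⟨c', v', hc0', hv', hne'⟩ := exists_scale S0 hW0
  by_cases hp : ∃ y : LaurentSeries (kA (AA q)), resInf (AA q) (M1 * (q : ℕ)) v = y ^ (q : ℕ)
  · by_cases hp' : ∃ y : LaurentSeries (kA (AA q)), resInf (AA q) (M1 * (q : ℕ)) v' = y ^ (q : ℕ)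
    · exact Or.inl (uc2_of_pow S0 hu0 c c' hc0 hc0' v v' hv hv' hne hne' hp hp')
    · obtain ⟨u1, hres⟩ := exists_lift1 S0 v'
      exact Or.inr ⟨c', v', u1, hc0', Or.inr hv', hres,
        pdivRed S0 hq5 S a hEis (NewHyp.Wq H) c' hc0' v' hv' hne' u1 hres, hp'⟩
  · obtain ⟨u1, hres⟩ := exists_lift1 S0 v
    exact Or.inr ⟨c, v, u1, hc0, Or.inl hv, hres, pdivRed S0 hq5 S a hEis H c hc0 v hv hne u1 hres, hp⟩

end Fermat.Agent.S44.Geo
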