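import Fermat.Agent.S37.ChartGlue

/-!
# S44 / GEO-SMOOTH, abstract part (helper1)

`(B, C, Λ, ρ)` a "half chart": `B` a Dedekind `K`-algebra, `C ⊂ B` an `A`-model, `ρ : C → Λ` the reduction onto ONE component of the
special fibre (`Λ` a Dedekind `k`-algebra), `E ∈ C` a function which vanishes on all the other components (`ker`, `sat`) and not on this one.
Then `(B[1/E], C[1/E], Λ[1/ρ E], ρ)` satisfies `S37.ChartHyp`, so that `S37.local_formula` holds at all points of `Spec Λ[1/ρ E]`.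

CONSEQUENCE (`smooth_abs`): if `n ∣ div (a / b)` (`a b : C`, `ρ a, ρ b ≠ 0`) then `n ∣ ord_x (ρ a / ρ b)` for every place `x` of `Ft = Frac Λ` with
`Λ ⊂ O_x`, `ord_x (ρ E) = 0`.
-/

set_option autoImplicit false
set_option linter.unusedSectionVars false

open IsDedekindDomain AlgebraicCurve Fermat.Agent.S37 Fermat.Agent.S37.Glue

noncomputable section

namespace Fermat.Agent.S44.Geo

section Chart

variable {K : Type*} [Field K] {A : ValuationSubring K} {k : Type*} [Field k] {piA : A →+* k}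
variable {B : Type*} [CommRing B] [IsDedekindDomain B] [Algebra K B] {C : Subring B}
  {Cb : Type*} [CommRing Cb] [IsDedekindDomain Cb] [Algebra k Cb] {rd : C →+* Cb}

/-- divisibility of divisors is preserved by the reduction of a chart -/
theorem dvd_ordH_of_chart (h : ChartHyp A C piA rd) (x0 : HeightOneSpectrum Cb) (a b : C)
    (ha : rd a ≠ 0) (hb : rd b ≠ 0) (n : ℤ)
    (hn : ∀ w : HeightOneSpectrum B, n ∣ (ordH w (a : B) : ℤ) - (ordH w (b : B) : ℤ)) :
    n ∣ (ordH x0 (rd a) : ℤ) - (ordH x0 (rd b) : ℤ) := by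
  have ha0 : (a : B) ≠ 0 := by
    intro h0
    apply ha
    have : a = 0 := Subtype.ext h0
    rw [this, map_zero]
  have hb0 : (b : B) ≠ 0 := by
    intro h0
    apply hb
    have : b = 0 := Subtype.ext h0
    rw [this, map_zero]
  have h3 := finsum_mem_sub' (s := {w : HeightOneSpectrum B | InDisc A C piA rd w x0})
    (f := fun w => (ordH w (a : B) : ℤ)) (g := fun w => (ordH w (b : B) : ℤ))
    ((finite_support_ordH ha0).inter_of_right _) ((finite_support_ordH hb0).inter_of_right _)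
  rw [local_formula h x0 a ha, local_formula h x0 b hb, ← h3]
  exact finsum_mem_induction (fun z => n ∣ z) (dvd_zero n) (fun _ _ => dvd_add) (fun w _ => hn w)

end Chart

/-! ### localisation inside the fraction field -/

section Loc

variable {R : Type*} [CommRing R] [IsDedekindDomain R] (M : Type*) [Field M] [Algebra R M] [IsFractionRing R M]

/-- `R[1/e]` as a subalgebra of the fraction field -/
abbrev Lo (e : R) (he : e ≠ 0) : Subalgebra R M :=
  Localization.subalgebra.ofField M (Submonoid.powers e)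
    (powers_le_nonZeroDivisors_of_noZeroDivisors he)

variable {M}

theorem map_ne_zero_Lo {e : R} (he : e ≠ 0) : algebraMap R M e ≠ 0 := fun h =>
  he (IsFractionRing.injective R M (h.trans (map_zero _).symm))

theorem mem_Lo {e : R} {he : e ≠ 0} {x : M} :
    x ∈ Lo M e he ↔ ∃ (b : R) (n : ℕ), x * algebraMap R M e ^ n = algebraMap R M b := by
  have h0 := map_ne_zero_Lo (M := M) he
  constructor
  · rintro ⟨a, s, ⟨n, rfl⟩, rfl⟩
    refine ⟨a, n, ?_⟩
    rw [map_pow, inv_mul_cancel_right₀ (pow_ne_zero n h0)]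
  · rintro ⟨b, n, h⟩
    refine ⟨b, e ^ n, ⟨n, rfl⟩, ?_⟩
    rw [map_pow, ← h, mul_inv_cancel_right₀ (pow_ne_zero n h0)]

instance isDedekindDomain_Lo (e : R) (he : e ≠ 0) :
    IsDedekindDomain (Lo M e he) :=
  IsLocalization.isDedekindDomain R (powers_le_nonZeroDivisors_of_noZeroDivisors he) _

/-- `1/e` -/
def invLo (e : R) (he : e ≠ 0) : Lo M e he :=
  ⟨(algebraMap R M e)⁻¹, mem_Lo.2 ⟨1, 1, by
    rw [pow_one, map_one, inv_mul_cancel₀ (map_ne_zero_Lo he)]⟩⟩

theorem invLo_mul (e : R) (he : e ≠ 0) : invLo (M := M) e he * algebraMap R (Lo M e he) e = 1 :=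
  Subtype.ext (inv_mul_cancel₀ (map_ne_zero_Lo he))

end Loc

/-! ### the half chart -/

section Half

variable {K : Type*} [Field K] (A : ValuationSubring K) {k : Type*} [Field k] (piA : A →+* k)
variable {F : Type*} [Field F] [Algebra K F] {Ft : Type*} [Field Ft] [Algebra k Ft]
variable {B : Type*} [CommRing B] [IsDedekindDomain B] [Algebra K B] [Algebra B F]
  [IsFractionRing B F] [IsScalarTower K B F] (C : Subring B)
  {Λ : Type*} [CommRing Λ] [IsDedekindDomain Λ] [Algebra k Λ] [Algebra Λ Ft]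
  [IsFractionRing Λ Ft] [IsScalarTower k Λ Ft] (ρ : C →+* Λ) (E : C)

/-- the hypotheses on a half chart -/
structure LocHyp : Prop where
  A_mem : ∀ a : A, algebraMap K B a ∈ C
  fg : ∃ G : Finset B, (∀ g ∈ G, g ∈ C) ∧
    ∀ y ∈ C, y ∈ Subring.closure (Set.range (fun a : A => algebraMap K B a) ∪ (G : Set B))
  span : ∀ b : B, ∃ a : A, a ≠ 0 ∧ algebraMap K B a * b ∈ C
  piA_surj : Function.Surjective piA
  rd_surj : Function.Surjective ρ
  rd_alg : ∀ a : A, ρ ⟨algebraMap K B a, A_mem a⟩ = algebraMap k Λ (piA a)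
  ker : ∀ y : C, ρ y = 0 → ∃ a : A, piA a = 0 ∧ ∃ y' : C, (E : B) * y = algebraMap K B a * y'
  sat : ∀ (a : A) (f c b : C), ρ f ≠ 0 → (f : B) * c = algebraMap K B a * b →
    ∃ (n : ℕ) (c' : C), (E : B) ^ n * c = algebraMap K B a * c'
  resK : ∀ (w : HeightOneSpectrum B) (b : B), ∃ c : K, b - algebraMap K B c ∈ w.asIdeal
  resk : ∀ (x : HeightOneSpectrum Λ) (b : Λ), ∃ c : k, b - algebraMap k Λ c ∈ x.asIdeal
  hE : ρ E ≠ 0

variable {A piA C ρ E}

theorem coe_ne_zero_of_rho {f : C} (hf : ρ f ≠ 0) : (f : B) ≠ 0 := fun h0 => by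
  apply hf
  have : f = 0 := Subtype.ext h0
  rw [this, map_zero]

variable (F C E) in
/-- `C[1/E]` -/
def CL (hE : (E : B) ≠ 0) : Subring (Lo F (E : B) hE) where
  carrier := {y | ∃ (c : C) (n : ℕ), (y : F) * algebraMap B F E ^ n = algebraMap B F c}
  mul_mem' := by
    rintro y z ⟨c, n, hc⟩ ⟨d, m, hd⟩
    exact ⟨c * d, n + m, by
      show (y : F) * (z : F) * _ = algebraMap B F ((c : B) * (d : B))
      rw [map_mul, ← hc, ← hd, pow_add]; ring⟩
  one_mem' := ⟨1, 0, by simp⟩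
  add_mem' := by
    rintro y z ⟨c, n, hc⟩ ⟨d, m, hd⟩
    exact ⟨c * E ^ m + d * E ^ n, n + m, by
      show ((y : F) + (z : F)) * _ = algebraMap B F ((c : B) * (E : B) ^ m + (d : B) * (E : B) ^ n)
      rw [map_add, map_mul, map_mul, map_pow, map_pow, ← hc, ← hd, pow_add]; ring⟩
  zero_mem' := ⟨0, 0, by simp⟩
  neg_mem' := by
    rintro y ⟨c, n, hc⟩
    exact ⟨-c, n, by
      show -(y : F) * _ = algebraMap B F (-(c : B))
      rw [map_neg, ← hc, neg_mul]⟩

theorem mem_CL {hE : (E : B) ≠ 0} {y : Lo F (E : B) hE} : y ∈ CL F C E hE ↔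
    ∃ (c : C) (n : ℕ), (y : F) * algebraMap B F E ^ n = algebraMap B F c := Iff.rfl

variable (F Ft ρ) in
/-- the reduction on `C[1/E]`, as a function -/
def rdFun (hE : (E : B) ≠ 0) (y : CL F C E hE) : Ft :=
  algebraMap Λ Ft (ρ y.2.choose) / algebraMap Λ Ft (ρ E) ^ y.2.choose_spec.choose

theorem rdFun_eq (hE : (E : B) ≠ 0) (hρ : ρ E ≠ 0) (y : CL F C E hE) (c : C) (n : ℕ)
    (h : ((y : Lo F (E : B) hE) : F) * algebraMap B F E ^ n = algebraMap B F c) :
    rdFun F Ft ρ hE y = algebraMap Λ Ft (ρ c) / algebraMap Λ Ft (ρ E) ^ n := by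
  have h0 := y.2.choose_spec.choose_spec
  set c0 := y.2.choose
  set n0 := y.2.choose_spec.choose
  have hE' : algebraMap Λ Ft (ρ E) ≠ 0 := map_ne_zero_Lo hρ
  have e1 : c0 * E ^ n = c * E ^ n0 := by
    apply Subtype.ext
    apply IsFractionRing.injective B F
    show algebraMap B F ((c0 : B) * (E : B) ^ n) = algebraMap B F ((c : B) * (E : B) ^ n0)
    rw [map_mul, map_mul, map_pow, map_pow, ← h0, ← h]; ring
  have e2 := congrArg (fun z => algebraMap Λ Ft (ρ z)) e1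
  simp only [map_mul, map_pow] at e2
  show algebraMap Λ Ft (ρ c0) / algebraMap Λ Ft (ρ E) ^ n0 = _
  rw [div_eq_div_iff (pow_ne_zero _ hE') (pow_ne_zero _ hE'), e2]

variable (F Ft ρ) in
/-- the reduction on `C[1/E]` with values in `Ft` -/
def rdF (hE : (E : B) ≠ 0) (hρ : ρ E ≠ 0) : CL F C E hE →+* Ft where
  toFun := rdFun F Ft ρ hE
  map_one' := by
    rw [rdFun_eq hE hρ 1 1 0 (by simp)]; simp
  map_zero' := by
    rw [rdFun_eq hE hρ 0 0 0 (by simp)]; simp
  map_mul' := by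
    intro y z
    obtain ⟨c, n, hc⟩ := y.2
    obtain ⟨d, m, hd⟩ := z.2
    rw [rdFun_eq hE hρ y c n hc, rdFun_eq hE hρ z d m hd,
      rdFun_eq hE hρ (y * z) (c * d) (n + m) (by
        show ((y : Lo F (E : B) hE) : F) * ((z : Lo F (E : B) hE) : F) * _ =
          algebraMap B F ((c : B) * (d : B))
        rw [map_mul, ← hc, ← hd, pow_add]; ring), map_mul, map_mul, pow_add, div_mul_div_comm]
  map_add' := by
    intro y z
    obtain ⟨c, n, hc⟩ := y.2
    obtain ⟨d, m, hd⟩ := z.2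
    have hE' : algebraMap Λ Ft (ρ E) ≠ 0 := map_ne_zero_Lo hρ
    rw [rdFun_eq hE hρ y c n hc, rdFun_eq hE hρ z d m hd,
      rdFun_eq hE hρ (y + z) (c * E ^ m + d * E ^ n) (n + m) (by
        show (((y : Lo F (E : B) hE) : F) + ((z : Lo F (E : B) hE) : F)) * _ =
          algebraMap B F ((c : B) * (E : B) ^ m + (d : B) * (E : B) ^ n)
        rw [map_add, map_mul, map_mul, map_pow, map_pow, ← hc, ← hd, pow_add]; ring)]
    simp only [map_add, map_mul, map_pow]
    field_simp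
    ring

theorem rdF_eq (hE : (E : B) ≠ 0) (hρ : ρ E ≠ 0) (y : CL F C E hE) (c : C) (n : ℕ)
    (h : ((y : Lo F (E : B) hE) : F) * algebraMap B F E ^ n = algebraMap B F c) :
    rdF F Ft ρ hE hρ y = algebraMap Λ Ft (ρ c) / algebraMap Λ Ft (ρ E) ^ n :=
  rdFun_eq hE hρ y c n h

theorem rdF_mem (hE : (E : B) ≠ 0) (hρ : ρ E ≠ 0) (y : CL F C E hE) :
    rdF F Ft ρ hE hρ y ∈ Lo Ft (ρ E) hρ := by
  obtain ⟨c, n, hc⟩ := y.2
  rw [rdF_eq hE hρ y c n hc]
  exact mem_Lo.2 ⟨ρ c, n, div_mul_cancel₀ _ (pow_ne_zero _ (map_ne_zero_Lo hρ))⟩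

variable (F Ft ρ) in
/-- the reduction `C[1/E] → Λ[1/ρ E]` -/
def rdL (hE : (E : B) ≠ 0) (hρ : ρ E ≠ 0) : CL F C E hE →+* Lo Ft (ρ E) hρ :=
  (rdF F Ft ρ hE hρ).codRestrict (Lo Ft (ρ E) hρ) (rdF_mem hE hρ)

theorem coe_rdL (hE : (E : B) ≠ 0) (hρ : ρ E ≠ 0) (y : CL F C E hE) :
    ((rdL F Ft ρ hE hρ y : Lo Ft (ρ E) hρ) : Ft) = rdF F Ft ρ hE hρ y := rfl

/-- `C → C[1/E]` -/
def toCL (hE : (E : B) ≠ 0) (c : C) : CL F C E hE :=
  ⟨algebraMap B (Lo F (E : B) hE) c, c, 0, by rw [pow_zero, mul_one]; rfl⟩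

theorem rdL_toCL (hE : (E : B) ≠ 0) (hρ : ρ E ≠ 0) (c : C) :
    rdL F Ft ρ hE hρ (toCL hE c) = algebraMap Λ (Lo Ft (ρ E) hρ) (ρ c) := by
  apply Subtype.ext
  rw [coe_rdL, rdF_eq hE hρ (toCL hE c) c 0 (by rw [pow_zero, mul_one]; rfl), pow_zero, div_one]
  rfl

end Half

end Fermat.Agent.S44.Geo
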