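import Fermat.Agent.S44.Geo.SmoothLoc

/-!
# S44 / GEO-SMOOTH, key [SM-A3] : smooth specialisation, abstract form
-/

set_option autoImplicit false
set_option linter.unusedSectionVars false

open IsDedekindDomain AlgebraicCurve Fermat.Agent.S37 Fermat.Agent.S37.Glue

noncomputable section

namespace Fermat.Agent.S44.Geo

variable {K : Type*} [Field K] {A : ValuationSubring K} {k : Type*} [Field k] {piA : A →+* k}
variable {F : Type*} [Field F] [Algebra K F] {Ft : Type*} [Field Ft] [Algebra k Ft]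
variable {B : Type*} [CommRing B] [IsDedekindDomain B] [Algebra K B] [Algebra B F]
  [IsFractionRing B F] [IsScalarTower K B F] {C : Subring B}
  {Λ : Type*} [CommRing Λ] [IsDedekindDomain Λ] [Algebra k Λ] [Algebra Λ Ft]
  [IsFractionRing Λ Ft] [IsScalarTower k Λ Ft] {ρ : C →+* Λ} {E : C}

/-- **smooth specialisation, abstract form** -/
theorem smooth_abs (h : LocHyp A piA C ρ E) (a b : C) (ha : ρ a ≠ 0) (hb : ρ b ≠ 0) (n : ℤ)
    (hn : ∀ P : Place K F, n ∣ P.ord (algebraMap B F a / algebraMap B F b))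
    (x : Place k Ft) (hx : ∀ y : Λ, algebraMap Λ Ft y ∈ x.toValuationSubring)
    (hxE : x.ord (algebraMap Λ Ft (ρ E)) = 0) :
    n ∣ x.ord (algebraMap Λ Ft (ρ a) / algebraMap Λ Ft (ρ b)) := by
  have hE := coe_ne_zero_of_rho h.hE
  have hEt : algebraMap Λ Ft (ρ E) ≠ 0 := map_ne_zero_Lo h.hE
  have hxL : ∀ z : Lo Ft (ρ E) h.hE,
      algebraMap (Lo Ft (ρ E) h.hE) Ft z ∈ x.toValuationSubring := by
    intro z
    obtain ⟨l, m, hz⟩ := mem_Lo.1 z.2
    have e : (z : Ft) = algebraMap Λ Ft l * ((algebraMap Λ Ft (ρ E))⁻¹) ^ m := by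
      rw [← hz, inv_pow, mul_inv_cancel_right₀ (pow_ne_zero m hEt)]
    show (z : Ft) ∈ _
    rw [e]
    exact mul_mem (hx l) (pow_mem (S24.mem_of_ord_nonneg x (by
      rw [Place.ord_inv, hxE, neg_zero])) m)
  obtain ⟨x0, rfl⟩ := S24.exists_heightOneSpectrum_of_le x hxL
  have hnf : ¬ IsField (Lo Ft (ρ E) h.hE) :=
    Ring.not_isField_iff_exists_prime.2 ⟨x0.asIdeal, x0.ne_bot, x0.isPrime⟩
  have hch := chartHyp_loc (F := F) h hnf
  have hinjΛ : Function.Injective (algebraMap Λ (Lo Ft (ρ E) h.hE)) := fun y z hyz =>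
    IsFractionRing.injective Λ Ft (congrArg Subtype.val hyz)
  have hinjB : Function.Injective (algebraMap B (Lo F (E : B) hE)) := fun y z hyz =>
    IsFractionRing.injective B F (congrArg Subtype.val hyz)
  have ha' : algebraMap Λ (Lo Ft (ρ E) h.hE) (ρ a) ≠ 0 := fun h0 =>
    ha (hinjΛ (h0.trans (map_zero _).symm))
  have hb' : algebraMap Λ (Lo Ft (ρ E) h.hE) (ρ b) ≠ 0 := fun h0 =>
    hb (hinjΛ (h0.trans (map_zero _).symm))
  have ha0 : algebraMap B (Lo F (E : B) hE) a ≠ 0 := fun h0 =>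
    coe_ne_zero_of_rho ha (hinjB (h0.trans (map_zero _).symm))
  have hb0 : algebraMap B (Lo F (E : B) hE) b ≠ 0 := fun h0 =>
    coe_ne_zero_of_rho hb (hinjB (h0.trans (map_zero _).symm))
  have key := dvd_ordH_of_chart hch x0 (toCL hE a) (toCL hE b)
    (by rw [rdL_toCL]; exact ha') (by rw [rdL_toCL]; exact hb') n (fun w => by
      have h1 := hn (ofH K F w)
      have e1 : algebraMap B F a = algebraMap (Lo F (E : B) hE) F
        (algebraMap B (Lo F (E : B) hE) a) := rfl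
      have e2 : algebraMap B F b = algebraMap (Lo F (E : B) hE) F
        (algebraMap B (Lo F (E : B) hE) b) := rfl
      rw [div_eq_mul_inv, Place.ord_mul _ (map_ne_zero_Lo (coe_ne_zero_of_rho ha))
        (inv_ne_zero (map_ne_zero_Lo (coe_ne_zero_of_rho hb))), Place.ord_inv, e1, e2,
        ord_ofH_algebraMap w ha0, ord_ofH_algebraMap w hb0, ← sub_eq_add_neg] at h1
      exact h1)
  rw [rdL_toCL, rdL_toCL] at key
  have e1 : algebraMap Λ Ft (ρ a) = algebraMap (Lo Ft (ρ E) h.hE) Ft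
    (algebraMap Λ (Lo Ft (ρ E) h.hE) (ρ a)) := rfl
  have e2 : algebraMap Λ Ft (ρ b) = algebraMap (Lo Ft (ρ E) h.hE) Ft
    (algebraMap Λ (Lo Ft (ρ E) h.hE) (ρ b)) := rfl
  rw [div_eq_mul_inv, Place.ord_mul _ (map_ne_zero_Lo ha) (inv_ne_zero (map_ne_zero_Lo hb)),
    Place.ord_inv, e1, e2]
  have k1 := ord_ofH_algebraMap (K := k) (F := Ft) x0 ha'
  have k2 := ord_ofH_algebraMap (K := k) (F := Ft) x0 hb'
  rw [k1, k2, ← sub_eq_add_neg]
  exact key

end Fermat.Agent.S44.Geo
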