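import Fermat.Agent.S44.Geo.SmoothRes

/-!
# S44 / GEO-SMOOTH, key [SM-A2] : the localised chart satisfies `S37.ChartHyp`
-/

set_option autoImplicit false
set_option linter.unusedSectionVars false

open IsDedekindDomain AlgebraicCurve Fermat.Agent.S37 Fermat.Agent.S37.Glue

noncomputable section

namespace Fermat.Agent.S44.Geo

variable {K : Type*} [Field K] {A : ValuationSubring K} {k : Type*} [Field k] {piA : A →+* k}
variable {F : Type*} [Field F] [Algebra K F] {Ft : Type*} [Field Ft] [Algebra k Ft]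
variable {B : Type*} [CommRing B] [IsDedekindDomain B] [Algebra K B] [Algebra B F]
  [IsFractionRing B F] [IsScalarTower K B F] {C : Subring B}
  {Λ : Type*} [CommRing Λ] [IsDedekindDomain Λ] [Algebra k Λ] [Algebra Λ Ft]
  [IsFractionRing Λ Ft] [IsScalarTower k Λ Ft] {ρ : C →+* Λ} {E : C}

/-- `c / E ^ n` -/
def mkCL (hE : (E : B) ≠ 0) (c : C) (n : ℕ) : CL F C E hE :=
  ⟨⟨algebraMap B F c / algebraMap B F E ^ n,
    mem_Lo.2 ⟨c, n, div_mul_cancel₀ _ (pow_ne_zero _ (map_ne_zero_Lo hE))⟩⟩,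
    c, n, div_mul_cancel₀ _ (pow_ne_zero _ (map_ne_zero_Lo hE))⟩

theorem coe_mkCL (hE : (E : B) ≠ 0) (c : C) (n : ℕ) :
    (((mkCL hE c n : CL F C E hE) : Lo F (E : B) hE) : F) =
      algebraMap B F c / algebraMap B F E ^ n := rfl

theorem rdF_mkCL (hE : (E : B) ≠ 0) (hρ : ρ E ≠ 0) (c : C) (n : ℕ) :
    rdF F Ft ρ hE hρ (mkCL hE c n) = algebraMap Λ Ft (ρ c) / algebraMap Λ Ft (ρ E) ^ n :=
  rdF_eq hE hρ _ c n (div_mul_cancel₀ _ (pow_ne_zero _ (map_ne_zero_Lo hE)))

theorem rdL_eq_zero_iff (hE : (E : B) ≠ 0) (hρ : ρ E ≠ 0) (y : CL F C E hE) (c : C) (n : ℕ)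
    (h : ((y : Lo F (E : B) hE) : F) * algebraMap B F E ^ n = algebraMap B F c) :
    rdL F Ft ρ hE hρ y = 0 ↔ ρ c = 0 := by
  have hEt : algebraMap Λ Ft (ρ E) ≠ 0 := map_ne_zero_Lo hρ
  rw [← Subtype.coe_inj, coe_rdL, rdF_eq hE hρ y c n h]
  show _ / _ = (0 : Ft) ↔ _
  rw [div_eq_zero_iff, or_iff_left (pow_ne_zero _ hEt)]
  exact map_eq_zero_iff _ (IsFractionRing.injective Λ Ft)

/-- **the localised chart** -/
theorem chartHyp_loc (h : LocHyp A piA C ρ E) (hnf : ¬ IsField (Lo Ft (ρ E) h.hE)) :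
    ChartHyp A (CL F C E (coe_ne_zero_of_rho h.hE)) piA
      (rdL F Ft ρ (coe_ne_zero_of_rho h.hE) h.hE) := by
  classical
  have hE : (E : B) ≠ 0 := coe_ne_zero_of_rho h.hE
  have hEF : algebraMap B F E ≠ 0 := map_ne_zero_Lo hE
  have hEt : algebraMap Λ Ft (ρ E) ≠ 0 := map_ne_zero_Lo h.hE
  have hAmem : ∀ a : A, algebraMap K (Lo F (E : B) hE) a ∈ CL F C E hE := fun a =>
    ⟨⟨_, h.A_mem a⟩, 0, by
      rw [pow_zero, mul_one]; exact IsScalarTower.algebraMap_apply K B F a⟩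
  refine ⟨hAmem, ?_, ?_, h.piA_surj, ?_, ?_, ?_, ?_, res_Lo _ hE h.resK, res_Lo _ h.hE h.resk, hnf⟩
  · -- fg
    obtain ⟨G, hG, hcl⟩ := h.fg
    refine ⟨insert (invLo (E : B) hE) (G.image (algebraMap B (Lo F (E : B) hE))), ?_, ?_⟩
    · intro g hg
      rw [Finset.mem_insert, Finset.mem_image] at hg
      rcases hg with rfl | ⟨g', hg', rfl⟩
      · exact ⟨1, 1, by
          show (algebraMap B F E)⁻¹ * _ = algebraMap B F 1
          rw [pow_one, inv_mul_cancel₀ hEF, map_one]⟩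
      · exact ⟨⟨g', hG g' hg'⟩, 0, by rw [pow_zero, mul_one]; rfl⟩
    · intro y hy
      set S' := Subring.closure (Set.range (fun a : A => algebraMap K (Lo F (E : B) hE) a) ∪
        ((insert (invLo (E : B) hE) (G.image (algebraMap B (Lo F (E : B) hE))) :
          Finset (Lo F (E : B) hE)) : Set (Lo F (E : B) hE))) with hS'
      obtain ⟨c, n, hc⟩ := hy
      have h1 : Subring.closure (Set.range (fun a : A => algebraMap K B a) ∪ (G : Set B)) ≤
          S'.comap (algebraMap B (Lo F (E : B) hE)) := by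
        rw [Subring.closure_le]
        rintro z (⟨a, rfl⟩ | hz)
        · exact Subring.subset_closure (Or.inl ⟨a, Subtype.ext
            (IsScalarTower.algebraMap_apply K B F a)⟩)
        · refine Subring.subset_closure (Or.inr ?_)
          rw [Finset.mem_coe, Finset.mem_insert, Finset.mem_image]
          exact Or.inr ⟨z, hz, rfl⟩
      have hy' : y = algebraMap B (Lo F (E : B) hE) c * invLo (E : B) hE ^ n := Subtype.ext (by
        show (y : F) = algebraMap B F c * ((algebraMap B F E)⁻¹) ^ n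
        rw [← hc, inv_pow, mul_inv_cancel_right₀ (pow_ne_zero n hEF)])
      rw [hy']
      refine S'.mul_mem (h1 (hcl c c.2)) (S'.pow_mem (Subring.subset_closure (Or.inr ?_)) n)
      rw [Finset.mem_coe, Finset.mem_insert]
      exact Or.inl rfl
  · -- span
    intro b
    obtain ⟨b₀, n, hb⟩ := mem_Lo.1 b.2
    obtain ⟨a, ha, hab⟩ := h.span b₀
    refine ⟨a, ha, ⟨⟨_, hab⟩, n, ?_⟩⟩
    show algebraMap K F a * (b : F) * _ = algebraMap B F (algebraMap K B a * b₀)
    rw [map_mul, ← hb, ← IsScalarTower.algebraMap_apply, mul_assoc]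
  · -- rd_surj
    intro z
    obtain ⟨l, n, hz⟩ := mem_Lo.1 z.2
    obtain ⟨c, rfl⟩ := h.rd_surj l
    refine ⟨mkCL hE c n, Subtype.ext ?_⟩
    rw [coe_rdL, rdF_mkCL, ← hz, mul_div_cancel_right₀ _ (pow_ne_zero n hEt)]
  · -- rd_alg
    intro a
    apply Subtype.ext
    rw [coe_rdL, rdF_eq hE h.hE _ ⟨_, h.A_mem a⟩ 0 (by
      rw [pow_zero, mul_one]; exact IsScalarTower.algebraMap_apply K B F a), pow_zero, div_one,
      h.rd_alg, ← IsScalarTower.algebraMap_apply]
    rfl
  · -- ker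
    intro y hy
    obtain ⟨c, n, hc⟩ := y.2
    rw [rdL_eq_zero_iff hE h.hE y c n hc] at hy
    obtain ⟨a, ha, y', hy'⟩ := h.ker c hy
    refine ⟨a, ha, mkCL hE y' (n + 1), Subtype.ext ?_⟩
    show ((y : Lo F (E : B) hE) : F) = algebraMap K F a * (algebraMap B F y' / _)
    have e := congrArg (algebraMap B F) hy'
    rw [map_mul, map_mul, ← IsScalarTower.algebraMap_apply] at e
    rw [← mul_div_assoc, ← e, ← hc, pow_succ]
    field_simp
  · -- sat
    intro a f c b hf hfc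
    obtain ⟨f₀, i, hf₀⟩ := f.2
    obtain ⟨c₀, j, hc₀⟩ := c.2
    obtain ⟨b₀, l, hb₀⟩ := b.2
    have hfc' : ((f : Lo F (E : B) hE) : F) * ((c : Lo F (E : B) hE) : F) =
        algebraMap K F a * ((b : Lo F (E : B) hE) : F) := congrArg Subtype.val hfc
    have hf₀' : ρ f₀ ≠ 0 := fun h0 => hf ((rdL_eq_zero_iff hE h.hE f f₀ i hf₀).2 h0)
    obtain ⟨n, c', hc'⟩ := h.sat a f₀ (c₀ * E ^ l) (b₀ * E ^ (i + j)) hf₀' (by
      apply IsFractionRing.injective B F
      show algebraMap B F ((f₀ : B) * ((c₀ : B) * (E : B) ^ l)) =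
        algebraMap B F (algebraMap K B a * ((b₀ : B) * (E : B) ^ (i + j)))
      simp only [map_mul, map_pow]
      rw [← IsScalarTower.algebraMap_apply, ← hf₀, ← hc₀, ← hb₀, pow_add]
      linear_combination (algebraMap B F E ^ i * algebraMap B F E ^ j * algebraMap B F E ^ l) * hfc')
    refine ⟨mkCL hE c' (n + l + j), Subtype.ext ?_⟩
    show ((c : Lo F (E : B) hE) : F) = algebraMap K F a * (algebraMap B F c' / _)
    have e := congrArg (algebraMap B F) hc'
    have e' : algebraMap B F E ^ n * (algebraMap B F c₀ * algebraMap B F E ^ l) =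
        algebraMap K F a * algebraMap B F c' := by
      have : algebraMap B F ((E : B) ^ n * ((c₀ : B) * (E : B) ^ l)) =
          algebraMap B F (algebraMap K B a * c') := e
      simpa only [map_mul, map_pow, ← IsScalarTower.algebraMap_apply] using this
    rw [← mul_div_assoc, ← e', ← hc₀, pow_add, pow_add]
    field_simp

end Fermat.Agent.S44.Geo
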