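import Fermat.Agent.S44.Geo.SmoothAbs

/-!
# S44 / GEO-SMOOTH, key [SM-A1] : residue fields of `R[1/e]`

Proof.  `w₀ := w ∩ R` is a nonzero prime of `R` (`y ∈ w`, `y ≠ 0`, `y e^n = b ∈ R`, `b ∈ w₀`, `b ≠ 0`).  `b = b₀ / e^n`; `b₀ ≡ c₀`, `e ≡ c₁ mod w₀`; `c₁ ≠ 0` because `e` is a unit of
`R[1/e]`.  `e^n (b - c₀ / c₁^n) = b₀ - e^n c₀ / c₁^n ≡ 0 mod w` and `e^n ∉ w`.
-/

set_option autoImplicit false
set_option linter.unusedSectionVars false

open IsDedekindDomain AlgebraicCurve Fermat.Agent.S37 Fermat.Agent.S37.Glue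

noncomputable section

namespace Fermat.Agent.S44.Geo

variable {R : Type*} [CommRing R] [IsDedekindDomain R] {M : Type*} [Field M] [Algebra R M] [IsFractionRing R M]

/-- residue fields of the localisation -/
theorem res_Lo {K : Type*} [Field K] [Algebra K R] [Algebra K M] [IsScalarTower K R M]
    (e : R) (he : e ≠ 0)
    (hR : ∀ (w : HeightOneSpectrum R) (b : R), ∃ c : K, b - algebraMap K R c ∈ w.asIdeal)
    (w : HeightOneSpectrum (Lo M e he)) (b : Lo M e he) :
    ∃ c : K, b - algebraMap K (Lo M e he) c ∈ w.asIdeal := by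
  have heM := map_ne_zero_Lo (M := M) he
  have hK : ∀ c : K, algebraMap K (Lo M e he) c = algebraMap R (Lo M e he) (algebraMap K R c) :=
    fun c => Subtype.ext (IsScalarTower.algebraMap_apply K R M c)
  have hwp := w.isPrime
  let P : Ideal R := w.asIdeal.comap (algebraMap R (Lo M e he))
  have hP : P.IsPrime := Ideal.comap_isPrime _ _
  have hP0 : P ≠ ⊥ := by
    obtain ⟨y, hy, hy0⟩ := Submodule.exists_mem_ne_zero_of_ne_bot w.ne_bot
    obtain ⟨b₀, n, hb⟩ := mem_Lo.1 y.2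
    intro hbot
    have hmem : b₀ ∈ P := by
      show algebraMap R (Lo M e he) b₀ ∈ w.asIdeal
      have : algebraMap R (Lo M e he) b₀ = y * algebraMap R (Lo M e he) e ^ n :=
        Subtype.ext hb.symm
      rw [this]; exact w.asIdeal.mul_mem_right _ hy
    rw [hbot, Ideal.mem_bot] at hmem
    rw [hmem, map_zero] at hb
    rcases mul_eq_zero.1 hb with h1 | h1
    · exact hy0 (Subtype.ext h1)
    · exact pow_ne_zero n heM h1
  let w₀ : HeightOneSpectrum R := ⟨P, hP, hP0⟩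
  obtain ⟨b₀, n, hb⟩ := mem_Lo.1 b.2
  obtain ⟨c₀, hc₀⟩ := hR w₀ b₀
  obtain ⟨c₁, hc₁⟩ := hR w₀ e
  have he_unit : algebraMap R (Lo M e he) e ∉ w.asIdeal := by
    intro hmem
    apply w.isPrime.ne_top
    rw [Ideal.eq_top_iff_one, ← invLo_mul e he]
    exact w.asIdeal.mul_mem_left _ hmem
  have hc₁0 : c₁ ≠ 0 := by
    rintro rfl
    rw [map_zero, sub_zero] at hc₁
    exact he_unit hc₁
  refine ⟨c₀ / c₁ ^ n, ?_⟩
  have h0 : algebraMap R (Lo M e he) b₀ - algebraMap K (Lo M e he) c₀ ∈ w.asIdeal := by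
    rw [hK, ← map_sub]; exact hc₀
  have h1 : algebraMap R (Lo M e he) e - algebraMap K (Lo M e he) c₁ ∈ w.asIdeal := by
    rw [hK, ← map_sub]; exact hc₁
  have h2 : algebraMap R (Lo M e he) e ^ n - algebraMap K (Lo M e he) c₁ ^ n ∈ w.asIdeal := by
    obtain ⟨d, hd⟩ := sub_dvd_pow_sub_pow (algebraMap R (Lo M e he) e)
      (algebraMap K (Lo M e he) c₁) n
    rw [hd]; exact w.asIdeal.mul_mem_right _ h1
  have hb' : algebraMap R (Lo M e he) b₀ = b * algebraMap R (Lo M e he) e ^ n :=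
    Subtype.ext hb.symm
  have hc : algebraMap K (Lo M e he) c₁ ^ n * algebraMap K (Lo M e he) (c₀ / c₁ ^ n) =
      algebraMap K (Lo M e he) c₀ := by
    rw [← map_pow, ← map_mul, mul_div_cancel₀ _ (pow_ne_zero n hc₁0)]
  have key : algebraMap R (Lo M e he) e ^ n * (b - algebraMap K (Lo M e he) (c₀ / c₁ ^ n)) ∈
      w.asIdeal := by
    have e1 : algebraMap R (Lo M e he) e ^ n * (b - algebraMap K (Lo M e he) (c₀ / c₁ ^ n)) =
        (algebraMap R (Lo M e he) b₀ - algebraMap K (Lo M e he) c₀) -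
          (algebraMap R (Lo M e he) e ^ n - algebraMap K (Lo M e he) c₁ ^ n) *
            algebraMap K (Lo M e he) (c₀ / c₁ ^ n) := by
      rw [hb', ← hc]; ring
    rw [e1]
    exact w.asIdeal.sub_mem h0 (w.asIdeal.mul_mem_right _ h2)
  exact (w.isPrime.mem_or_mem key).resolve_left (fun h => he_unit (w.isPrime.mem_of_pow_mem n h))

end Fermat.Agent.S44.Geo
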