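import Fermat.Agent.S44.Geo.Smooth
import Fermat.Agent.S44.SP.Glue

/-!
# S44 / GEO-SMOOTH : the export in the `q`-expansion interface `SP.IsVR / SP.PDivAt`  (helper1)

* `IsCrossVR S O` : the valuation ring `O` of `Kap A M1` is centred at a crossing point: in every chart `b` containing its centre, every `E ∈ C0 (θM b)` with
  `ρ2 E = 0` has `ρ1 E` a non unit of `O`.
* `smooth_vr` : `n ∣ div u`, `u ∈ Vinf`, `resInf u ≠ 0`, `IsVR A M1 O`, `¬ IsCrossVR S O`  ⟹  `PDivAt A M1 n O (resInf u)`.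
* `exists_chart_vr` : every `O` contains `t̄` or `t̄⁻¹`.
-/

set_option autoImplicit false
set_option synthInstance.maxHeartbeats 400000
set_option linter.unusedSectionVars false
set_option linter.style.haveILetI false
set_option maxHeartbeats 1600000

open HahnSeries ModularCurve AlgebraicCurve Polynomial Fermat.Agent.S24 Fermat.Agent.S29
  Fermat.Agent.S18 Fermat.Agent.ES Fermat.Agent.ES.Alg Fermat.Agent.S34.T Fermat.Agent.S34.Mod
  Fermat.Agent.S37 Fermat.Agent.S44.SP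

noncomputable section

namespace Fermat.Agent.S44.Geo

/-- `RedQ` is `resInf` -/
theorem resInf_of_redQ {A : ValuationSubring Kb} {N : ℕ} [NeZero N] {y : FN N}
    {r : LaurentSeries (kA A)} (h : RedQ A N y r) :
    ∃ hy : y ∈ Vinf A N, resInf A N ⟨y, hy⟩ = r := by
  obtain ⟨x1, x2, z1, z2, h1, h2, hz, e1, e2⟩ := h
  have m1 := mem_Vinf_of_intRed h1
  have m2 := mem_Vinf_of_intRed h2
  have r1 := resInf_of_intRed h1
  have r2 := resInf_of_intRed h2
  have hinv : x2⁻¹ ∈ Vinf A N := inv_mem_Vinf (x := ⟨x2, m2⟩) (by rw [r2]; exact hz)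
  have hx2 : x2 ≠ 0 := h2.ne_zero hz
  have hy : y ∈ Vinf A N := by
    have : y = x1 * x2⁻¹ := by rw [← e1, mul_assoc, mul_inv_cancel₀ hx2, mul_one]
    rw [this]; exact mul_mem m1 hinv
  refine ⟨hy, ?_⟩
  have : resInf A N ⟨y, hy⟩ * z2 = z1 := by
    rw [← r1, ← r2, ← map_mul]; congr 1; exact Subtype.ext e1
  exact mul_right_cancel₀ hz (this.trans e2.symm)

/-- `Cbar ⊆ V` as soon as `red τ ∈ V` (`S37.br4_coord_bar` for a valuation subring) -/
theorem coord_bar_vs {K : Type*} [Field K] {A : ValuationSubring K} {L : Type*} [Field L]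
    [Algebra K L] {τ : L} {F : Type*} [Field F] [Algebra L F]
    {Ft : Type*} [Field Ft] [Algebra (KL.kk A) Ft]
    (hτ : Transcendental K τ) (hgen : KL.IsGen K τ) {n : ℕ}
    (gb : KL.GoodBasis A τ F n) [Algebra (KL.Cbar A τ F) Ft]
    [IsScalarTower (KL.kk A) (KL.Cbar A τ F) Ft]
    (V : ValuationSubring Ft) (hk : ∀ c : KL.kk A, algebraMap (KL.kk A) Ft c ∈ V)
    (hx : algebraMap (KL.Cbar A τ F) Ft (Ideal.Quotient.mk (KL.mC0 A τ F) (KL.toC0 A τ F X)) ∈ V)
    (b : KL.Cbar A τ F) : algebraMap (KL.Cbar A τ F) Ft b ∈ V := by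
  obtain ⟨bs, -⟩ := gb.exists_bar hτ hgen
  have : Module.Finite (KL.kk A)[X] (KL.Cbar A τ F) := Module.Finite.of_basis bs
  obtain ⟨p, hp, hpb⟩ := Algebra.IsIntegral.isIntegral (R := (KL.kk A)[X]) b
  refine br4_mem_of_isIntegralElem V
    ((algebraMap (KL.Cbar A τ F) Ft).comp (algebraMap (KL.kk A)[X] (KL.Cbar A τ F))) ?_
    ⟨p, hp, by rw [← Polynomial.hom_eval₂, hpb, map_zero]⟩
  intro P
  induction P using Polynomial.induction_on' with
  | add P Q hP hQ => rw [map_add]; exact add_mem hP hQ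
  | monomial m c =>
    rw [← C_mul_X_pow_eq_monomial, map_mul, map_pow]
    refine mul_mem ?_ (pow_mem ?_ m)
    · have : ((algebraMap (KL.Cbar A τ F) Ft).comp (algebraMap (KL.kk A)[X] (KL.Cbar A τ F))) (C c) =
          algebraMap (KL.kk A) Ft c := by
        rw [IsScalarTower.algebraMap_apply (KL.kk A) (KL.Cbar A τ F) Ft]; rfl
      rw [this]; exact hk c
    · have : (X : (KL.kk A)[X]) = KL.redP A X := by simp [KL.redP_apply]
      rw [RingHom.comp_apply, this, KL.algebraMap_redP]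
      exact hx

variable {M1 q r : ℕ} [NeZero M1] [NeZero q] [NeZero r] {A : ValuationSubring Kb}
variable (S : Setup M1 q r A)

/-- the centre of `O` is a crossing point -/
def IsCrossVR (O : Subring (LaurentSeries (kA A))) : Prop :=
  ∀ b : Bool, ρ S b (KL.toC0 A (S.θ1 b) (FN M1) X) ∈ O →
    ∀ E : KL.C0 A (S.θM b) (FN (M1 * q)), ρ2 S b E = 0 → ρ1 S b E = 0 ∨ (ρ1 S b E)⁻¹ ∉ O

theorem rho_X_false : ρ S false (KL.toC0 A (S.θ1 false) (FN M1) X) = tq (kA A) r := by
  rw [← resInf_t1 S]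
  show resInf A M1 _ = _
  congr 1
  exact Subtype.ext (evE_X_eq_t1 S)

theorem tq_ne_zero' : tq (kA A) r ≠ 0 := by
  intro h0
  have h4 := order_tq_neg (kA A) r
  rw [h0, HahnSeries.order_zero] at h4
  exact lt_irrefl _ h4

theorem rho_X_true : ρ S true (KL.toC0 A (S.θ1 true) (FN M1) X) = (tq (kA A) r)⁻¹ := by
  have h1 : ρ S true (KL.toC0 A (S.θ1 true) (FN M1) X) * tq (kA A) r = 1 := by
    rw [← resInf_t1 S]
    show resInf A M1 _ * _ = _
    rw [← map_mul, ← map_one (resInf A M1)]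
    congr 1
    apply Subtype.ext
    show KL.evE A S.τ1⁻¹ (FN M1) X * S.t1 = 1
    have e : KL.evE A S.τ1⁻¹ (FN M1) X = S.t1⁻¹ := by
      simp only [KL.evE, KL.evL, RingHom.comp_apply, coe_eval₂RingHom, eval₂_X]
      rw [map_inv₀]
      rfl
    rw [e]
    refine inv_mul_cancel₀ fun h => ?_
    have h2 := resInf_t1 S
    have h3 : (⟨S.t1, t1_mem_Vinf S⟩ : Vinf A M1) = 0 := Subtype.ext h
    rw [h3, map_zero] at h2
    exact tq_ne_zero' (A := A) (r := r) h2.symm
  exact eq_inv_of_mul_eq_one_left h1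

/-- every valuation ring of `Kap A M1` is centred in one of the two charts -/
theorem exists_chart_vr (O : Subring (LaurentSeries (kA A))) (hO : IsVR A M1 O) :
    ∃ b : Bool, ρ S b (KL.toC0 A (S.θ1 b) (FN M1) X) ∈ O := by
  have hK : tq (kA A) r ∈ Kap A M1 := mem_Kap_of_intRed (intRed_tauF M1 S.hr S.hr1 A)
  rcases hO.2.2 _ hK tq_ne_zero' with h | h
  · exact ⟨false, by rw [rho_X_false]; exact h⟩
  · exact ⟨true, by rw [rho_X_true]; exact h⟩

/-- the residue field of `v_∞` at level `M1 q` is the one of level `M1` -/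
theorem exists_level1 (b : Bool) (E : KL.C0 A (S.θM b) (FN (M1 * q))) (hE2 : ρ2 S b E = 0)
    (hE1 : ρ1 S b E ≠ 0) (u : Vinf A (M1 * q)) :
    ∃ u1 : Vinf A M1, resInf A M1 u1 = resInf A (M1 * q) u := by
  by_cases hu : resInf A (M1 * q) u = 0
  · exact ⟨0, by rw [map_zero, hu]⟩
  obtain ⟨a, c, ha, hc, hac⟩ := exists_frac S b E hE2 hE1 u hu
  obtain ⟨a', ha'⟩ := exists_level1₁ S b a
  obtain ⟨c', hc'⟩ := exists_level1₁ S b c
  have hc0 : resInf A M1 (Subring.inclusion (C01_le S b) c') ≠ 0 := by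
    have : ρ S b c' ≠ 0 := by rw [hc']; exact hc
    exact this
  have hinv := inv_mem_Vinf hc0
  refine ⟨Subring.inclusion (C01_le S b) a' * ⟨_, hinv⟩, ?_⟩
  have e1 : resInf A M1 (⟨_, hinv⟩ : Vinf A M1) * resInf A M1 (Subring.inclusion (C01_le S b) c') =
      1 := by
    rw [← map_mul, ← map_one (resInf A M1)]
    congr 1
    apply Subtype.ext
    refine inv_mul_cancel₀ fun h0 => hc0 ?_
    have : Subring.inclusion (C01_le S b) c' = 0 := Subtype.ext h0
    rw [this, map_zero]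
  have e2 : resInf A M1 (Subring.inclusion (C01_le S b) a') = ρ1 S b a := ha'
  have e3 : resInf A M1 (Subring.inclusion (C01_le S b) c') = ρ1 S b c := hc'
  have e4 : resInf A (M1 * q) u * ρ1 S b c = ρ1 S b a := by
    show resInf A (M1 * q) u * resInf A (M1 * q) ⟨c, _⟩ = resInf A (M1 * q) ⟨a, _⟩
    rw [← map_mul]
    congr 1
    exact Subtype.ext hac
  rw [map_mul, e2, ← e4, mul_assoc, mul_comm (ρ1 S b c), ← e3, e1, mul_one]

/-- **smooth specialisation, `q`-expansion form** -/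
theorem smooth_vr (n : ℕ) (u : Vinf A (M1 * q)) (hu : PDiv Kb (FN (M1 * q)) n (u : FN (M1 * q)))
    (hne : resInf A (M1 * q) u ≠ 0) (O : Subring (LaurentSeries (kA A))) (hO : IsVR A M1 O)
    (hx : ¬ IsCrossVR S O) : PDivAt A M1 n O (resInf A (M1 * q) u) := by
  unfold IsCrossVR at hx
  push Not at hx
  obtain ⟨b, hbO, E, hE2, hE1, hEinv⟩ := hx
  obtain ⟨Ft, _, _, red, hRD⟩ := exists_redData (g1_transcendental_τ1 S) (g1_isGen_τ1 S)
    (fld_mod S.H1 S.hr1 A S.hq S.hA S.not_dvd)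
  obtain ⟨ι, h1, h2, h3⟩ := exists_iota S.H1 S.hr1 A S.hq S.hA S.not_dvd hRD
  have hιr : ∀ z : KL.VV A S.τ1 (FN M1), ι (red z) = rO S hRD z := by
    intro z
    obtain ⟨hy, e⟩ := resInf_of_redQ (h1 z)
    exact e.symm
  obtain ⟨u1', hu1'⟩ := exists_level1 S b E hE2 hE1 u
  let u1 : KL.VV A S.τ1 (FN M1) := ⟨u1', (VV1_eq S).ge u1'.2⟩
  have hu1 : rO S hRD u1 = resInf A (M1 * q) u := hu1'
  have hred0 : red u1 ≠ 0 := by
    intro h0
    apply hne
    rw [← hu1, ← hιr, h0, map_zero]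
  -- the valuation subring of `Ft`
  let V : ValuationSubring Ft :=
    { O.comap ι with
      mem_or_inv_mem' := fun y => by
        by_cases hy : y = 0
        · left; rw [hy]; exact (O.comap ι).zero_mem
        · have hy' : ι y ≠ 0 := by rw [Ne, map_eq_zero]; exact hy
          rcases hO.2.2 (ι y) ((h2 _).2 ⟨y, rfl⟩) hy' with h | h
          · exact Or.inl h
          · right
            show ι y⁻¹ ∈ O
            rw [map_inv₀]; exact h }
  have hV : ∀ y : Ft, y ∈ V ↔ ι y ∈ O := fun y => Iff.rfl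
  have hkV : ∀ c : KL.kk A, algebraMap (KL.kk A) Ft c ∈ V := fun c => by
    rw [hV, h3]; exact hO.2.1 c
  by_cases htop : V = ⊤
  · -- trivial valuation
    have hall : ∀ y : Ft, ι y ∈ O := fun y => by
      rw [← hV, htop]; exact ValuationSubring.mem_top y
    refine ⟨1, (h2 _).2 ⟨1, map_one ι⟩, one_ne_zero, ?_, ?_⟩
    · rw [one_pow, mul_one, ← hu1, ← hιr]; exact hall _
    · rw [one_pow, mul_one, ← hu1, ← hιr, ← map_inv₀]; exact hall _
  have hb' := redData_chart S hRD b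
  obtain ⟨m, gb, θ, hθ, hD⟩ := g2_data S b
  have hτ := g2_transcendental S b
  have hgen := g2_isGen S b
  haveI := isDomain_Cbar hτ hgen hb'
  haveI : IsDedekindDomain (KL.Cbar A (S.θ1 b) (FN M1)) :=
    isDedekindDomain_Cbar hτ hgen gb θ hθ hD
  letI : Algebra (KL.Cbar A (S.θ1 b) (FN M1)) Ft := hb'.barToFt.toAlgebra
  have hbar : BarCompat A (S.θ1 b) (FN M1) _ red := hb'.barCompat
  haveI : IsFractionRing (KL.Cbar A (S.θ1 b) (FN M1)) Ft := isFractionRing_Cbar hτ hgen hb' hbar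
  haveI : IsScalarTower (KL.kk A) (KL.Cbar A (S.θ1 b) (FN M1)) Ft := isScalarTower_Cbar hb' hbar
  have hCV : ∀ y : KL.Cbar A (S.θ1 b) (FN M1), algebraMap _ Ft y ∈ V :=
    coord_bar_vs hτ hgen gb V hkV (by
      show ι (red ⟨KL.toC0 A (S.θ1 b) (FN M1) X, _⟩) ∈ O
      rw [hιr]
      exact hbO)
  obtain ⟨w, hw⟩ := S24.exists_heightOneSpectrum_of_valuationSubring V htop hCV
  let x : Place (KL.kk A) Ft := Place.ofHeightOneSpectrum (K := KL.kk A) (F := Ft) w
  have hxV : x.toValuationSubring = V := hw.symm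
  have hnc : ¬ IsCross S hRD x := by
    intro hc
    obtain ⟨E1, hE1'⟩ := exists_level1₁ S b E
    have hin : InChart S hRD b x := fun c => by
      rw [hxV]; exact hCV (Ideal.Quotient.mk _ c)
    have hv := hc b hin E E1 hE2 hE1'.symm
    rw [Glue.van_iff] at hv
    have hι1 : ι (red ⟨E1, C01_le_O S hRD b E1.2⟩) = ρ1 S b E := by
      rw [hιr, rO_mk, hE1']
    rcases hv with h0 | h0
    · apply hE1
      rw [← hι1, h0, map_zero]
    · apply h0
      rw [hxV, hV, map_inv₀, hι1]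
      exact hEinv
  obtain ⟨kk', hk⟩ := smooth S hRD n u hu u1 hu1 hred0 x hnc
  obtain ⟨π, hπ⟩ := IsDiscreteValuationRing.exists_irreducible x.toValuationSubring
  have hord : x.ord (π : Ft) = 1 := x.ord_coe_irreducible hπ
  have hπ0 : (π : Ft) ≠ 0 := by
    intro h0
    rw [h0, Place.ord_zero] at hord
    exact zero_ne_one hord
  set g : Ft := (π : Ft) ^ (-kk') with hg
  have hg0 : g ≠ 0 := zpow_ne_zero _ hπ0
  have hz : x.ord (red u1 * g ^ n) = 0 := by
    rw [x.ord_mul hred0 (pow_ne_zero _ hg0), ← zpow_natCast, x.ord_zpow, hg, x.ord_zpow, hord, hk]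
    ring
  refine ⟨ι g, (h2 _).2 ⟨g, rfl⟩, by rw [Ne, map_eq_zero]; exact hg0, ?_, ?_⟩
  · rw [← hu1, ← hιr, ← map_pow, ← map_mul, ← hV, ← hxV]
    exact S24.mem_of_ord_nonneg x hz.ge
  · rw [← hu1, ← hιr, ← map_pow, ← map_mul, ← map_inv₀, ← hV, ← hxV]
    exact S24.mem_of_ord_nonneg x (by rw [x.ord_inv, hz, neg_zero])

end Fermat.Agent.S44.Geo
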